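/-
S56, block F (FLAT), leaf [FL-C] "tame multiplicities", Phase 1 (Mathlib only), file 1/5:
the multiplicity sets in "B-form".

For a group `Δ`, a field `k`, a character `ψ : Δ →* kˣ` and a `Δ`-module `Y`
(`AddCommGroup Y`, `DistribMulAction Δ Y`):

  `EqMaps ψ Y = {g : k →+ Y | ∀ δ a, g (ψ δ * a) = δ • g a}`   (`= Hom_Δ(k(ψ), Y)`).

This is what the Kummer isomorphism produces from a class `c ∈ H¹(G_K, k(φ))` restricted to `G_F`
(`Y = F^×/F^{×p}`, `ψ = ω̄ φ⁻¹`); its cardinal is `|k| ^ (multiplicity of ψ in Y ⊗ k)`.  Only UPPER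
bounds are proved here (left exactness), which is all that (C3)/(C4) of [FL-C] need:

* `card_le_mul` : `0 → Y' → Y → Z` left exact, equivariant ⟹ `|EqMaps Y| ≤ |EqMaps Y'| * |EqMaps Z|`;
* `card_le_of_injective`, `card_eq_one_of_subsingleton`, `card_le_card_hom`;
* `card_le_of_scalar` : if `Δ` acts on `Y` through integers `w δ` (`δ • y = w δ • y`), `|Y| ≤ p`,
  `char k = p`: `|EqMaps ψ Y| ≤ |k|`, and `= 1` as soon as `ψ δ ≠ (w δ : k)` for some `δ`;
* `card_baseChange` : for a finite extension `k ⊆ k'`: `|EqMaps^{k'}| = |EqMaps^k| ^ [k':k]`.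
-/
import Mathlib

set_option autoImplicit false

namespace Fermat.Agent.S56.Flat.TameCount.MultSet

variable {Δ : Type*} [Group Δ] {k : Type*} [Field k] (ψ : Δ →* kˣ)

/-- `Hom_Δ(k(ψ), Y)`: the additive maps `g : k → Y` with `g (ψ δ * a) = δ • g a`. -/
def EqMaps (Y : Type*) [AddCommGroup Y] [DistribMulAction Δ Y] : AddSubgroup (k →+ Y) where
  carrier := {g | ∀ (δ : Δ) (a : k), g ((ψ δ : k) * a) = δ • g a}
  zero_mem' := fun δ a => by simp
  add_mem' := fun {g h} hg hh δ a => by
    simp only [AddMonoidHom.add_apply, smul_add]; rw [hg δ a, hh δ a]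
  neg_mem' := fun {g} hg δ a => by
    simp only [AddMonoidHom.neg_apply, smul_neg]; rw [hg δ a]

variable {ψ}

theorem mem_eqMaps {Y : Type*} [AddCommGroup Y] [DistribMulAction Δ Y] {g : k →+ Y} :
    g ∈ EqMaps ψ Y ↔ ∀ (δ : Δ) (a : k), g ((ψ δ : k) * a) = δ • g a := Iff.rfl

section Functorial

variable {Y Z : Type*} [AddCommGroup Y] [DistribMulAction Δ Y] [AddCommGroup Z]
  [DistribMulAction Δ Z]

/-- Push-forward along an equivariant additive map. -/
def pushforward (π : Y →+ Z) (hπ : ∀ (δ : Δ) (y : Y), π (δ • y) = δ • π y) :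
    EqMaps ψ Y →+ EqMaps ψ Z where
  toFun g := ⟨π.comp g.1, fun δ a => by
    show π (g.1 ((ψ δ : k) * a)) = δ • π (g.1 a)
    rw [g.2 δ a, hπ]⟩
  map_zero' := by
    apply Subtype.ext
    ext a
    show π ((0 : k →+ Y) a) = 0
    simp
  map_add' g h := by
    apply Subtype.ext
    ext a
    show π ((g.1 + h.1) a) = π (g.1 a) + π (h.1 a)
    simp

@[simp] theorem pushforward_apply (π : Y →+ Z) (hπ : ∀ (δ : Δ) (y : Y), π (δ • y) = δ • π y)
    (g : EqMaps ψ Y) (a : k) : (pushforward π hπ g).1 a = π (g.1 a) := rfl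

theorem pushforward_injective (π : Y →+ Z) (hπ : ∀ (δ : Δ) (y : Y), π (δ • y) = δ • π y)
    (hinj : Function.Injective π) : Function.Injective (pushforward (ψ := ψ) π hπ) := by
  intro g h hgh
  apply Subtype.ext
  ext a
  apply hinj
  have := congrArg (fun f : EqMaps ψ Z => f.1 a) hgh
  simpa using this

end Functorial

section Card

variable [Finite k]

instance finite_eqMaps (Y : Type*) [AddCommGroup Y] [DistribMulAction Δ Y] [Finite Y] :
    Finite (EqMaps ψ Y) := by
  have : Finite (k →+ Y) := DFunLike.finite _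
  infer_instance

variable {Y Z : Type*} [AddCommGroup Y] [DistribMulAction Δ Y] [AddCommGroup Z]
  [DistribMulAction Δ Z]

theorem card_le_of_injective [Finite Z] (π : Y →+ Z)
    (hπ : ∀ (δ : Δ) (y : Y), π (δ • y) = δ • π y) (hinj : Function.Injective π) :
    Nat.card (EqMaps ψ Y) ≤ Nat.card (EqMaps ψ Z) :=
  Nat.card_le_card_of_injective _ (pushforward_injective π hπ hinj)

omit [Finite k] in
theorem card_eq_one_of_subsingleton [Subsingleton Y] : Nat.card (EqMaps ψ Y) = 1 := by
  have : Subsingleton (EqMaps ψ Y) := by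
    constructor
    intro g h
    apply Subtype.ext
    ext a
    exact Subsingleton.elim _ _
  exact Nat.card_unique

/-- **Left exactness**: if `ι : Y' → Y` is injective, `π : Y → Z`, both equivariant, and
`ker π ⊆ range ι`, then `|EqMaps Y| ≤ |EqMaps Y'| * |EqMaps Z|`. -/
theorem card_le_mul {Y' : Type*} [AddCommGroup Y'] [DistribMulAction Δ Y'] [Finite Y] [Finite Y']
    [Finite Z] (ι : Y' →+ Y) (hι : ∀ (δ : Δ) (y : Y'), ι (δ • y) = δ • ι y)
    (hinj : Function.Injective ι) (π : Y →+ Z) (hπ : ∀ (δ : Δ) (y : Y), π (δ • y) = δ • π y)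
    (hex : ∀ y : Y, π y = 0 → ∃ y' : Y', ι y' = y) :
    Nat.card (EqMaps ψ Y) ≤ Nat.card (EqMaps ψ Y') * Nat.card (EqMaps ψ Z) := by
  classical
  set Φ : EqMaps ψ Y →+ EqMaps ψ Z := pushforward π hπ with hΦ
  have h1 : Nat.card (EqMaps ψ Y) = Nat.card Φ.ker * Nat.card Φ.range := by
    rw [← AddSubgroup.index_ker, AddSubgroup.card_mul_index]
  have h2 : Nat.card Φ.range ≤ Nat.card (EqMaps ψ Z) :=
    Nat.card_le_card_of_injective _ Subtype.val_injective
  have h3 : Nat.card Φ.ker ≤ Nat.card (EqMaps ψ Y') := by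
    -- every element of the kernel comes from `EqMaps ψ Y'`
    have hsurj : ∀ g : Φ.ker, ∃ g' : EqMaps ψ Y', pushforward ι hι g' = g.1 := by
      intro g
      have hg : ∀ a, π (g.1.1 a) = 0 := by
        intro a
        have := g.2
        rw [AddMonoidHom.mem_ker] at this
        have h := congrArg (fun f : EqMaps ψ Z => f.1 a) this
        simpa [hΦ] using h
      choose s hs using fun a => hex (g.1.1 a) (hg a)
      have hadd : ∀ a b, s (a + b) = s a + s b := by
        intro a b
        apply hinj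
        rw [map_add, hs, hs, hs, map_add]
      refine ⟨⟨AddMonoidHom.mk' s hadd, ?_⟩, ?_⟩
      · intro δ a
        apply hinj
        show ι (s ((ψ δ : k) * a)) = ι (δ • s a)
        rw [hs, hι, hs, g.1.2 δ a]
      · apply Subtype.ext
        ext a
        show ι (s a) = g.1.1 a
        exact hs a
    choose r hr using hsurj
    refine Nat.card_le_card_of_injective r ?_
    intro g h hgh
    apply Subtype.ext
    rw [← hr g, ← hr h, hgh]
  rw [h1]
  exact Nat.mul_le_mul h3 h2

end Card

section Scalar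

variable {Y : Type*} [AddCommGroup Y] [DistribMulAction Δ Y]

/-- If `Δ` acts on `Y` through integers `w δ` and `ψ δ₀ ≠ w δ₀` in `k` for some `δ₀`, then
`EqMaps ψ Y = 0`. -/
theorem card_eq_one_of_scalar (w : Δ → ℕ) (hw : ∀ (δ : Δ) (y : Y), δ • y = w δ • y) (δ₀ : Δ)
    (hδ₀ : (ψ δ₀ : k) ≠ (w δ₀ : k)) : Nat.card (EqMaps ψ Y) = 1 := by
  have : Subsingleton (EqMaps ψ Y) := by
    constructor
    have key : ∀ g : EqMaps ψ Y, g = 0 := by
      intro g
      apply Subtype.ext
      ext a
      show g.1 a = 0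
      have hne : (ψ δ₀ : k) - (w δ₀ : k) ≠ 0 := sub_ne_zero.2 hδ₀
      -- `g ((ψ δ₀ - w δ₀) * b) = 0` for all `b`
      have h0 : ∀ b : k, g.1 (((ψ δ₀ : k) - (w δ₀ : k)) * b) = 0 := by
        intro b
        rw [sub_mul, map_sub, g.2 δ₀ b, hw, ← nsmul_eq_mul, map_nsmul, sub_self]
      have := h0 (((ψ δ₀ : k) - (w δ₀ : k))⁻¹ * a)
      rwa [mul_inv_cancel_left₀ hne] at this
    intro g h
    rw [key g, key h]
  exact Nat.card_unique

/-- `|Hom(k, Y)| ≤ |Y| ^ d` if `|k| = p ^ d`, `p = char k`. -/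
theorem card_addMonoidHom_le_pow (p : ℕ) [Fact p.Prime] [CharP k p] [Finite k] [Finite Y] {d : ℕ}
    (hd : Nat.card k = p ^ d) : Nat.card (k →+ Y) ≤ Nat.card Y ^ d := by
  classical
  let _ : Algebra (ZMod p) k := ZMod.algebra k p
  have : Finite (k →+ Y) := DFunLike.finite _
  have : Module.Finite (ZMod p) k := Module.Finite.of_finite
  have hk : Nat.card k = p ^ Module.finrank (ZMod p) k := by
    rw [Module.natCard_eq_pow_finrank (K := ZMod p) (V := k), Nat.card_zmod]
  have hdd : Module.finrank (ZMod p) k = d :=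
    Nat.pow_right_injective (Fact.out : p.Prime).two_le (hk.symm.trans hd)
  let b : Module.Basis (Fin (Module.finrank (ZMod p) k)) (ZMod p) k := Module.finBasis (ZMod p) k
  -- evaluation on the basis is injective
  have hinj : Function.Injective
      (fun (g : k →+ Y) (i : Fin (Module.finrank (ZMod p) k)) => g (b i)) := by
    intro g h hgh
    ext a
    have ha : a = ∑ i, ((b.repr a i).val : ℕ) • b i := by
      conv_lhs => rw [← b.sum_repr a]
      refine Finset.sum_congr rfl (fun i _ => ?_)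
      rw [Algebra.smul_def, nsmul_eq_mul]
      congr 1
      rw [← map_natCast (algebraMap (ZMod p) k), ZMod.natCast_zmod_val]
    rw [ha, map_sum, map_sum]
    refine Finset.sum_congr rfl (fun i _ => ?_)
    rw [map_nsmul, map_nsmul]
    congr 1
    exact congrFun hgh i
  calc Nat.card (k →+ Y) ≤ Nat.card (Fin (Module.finrank (ZMod p) k) → Y) :=
        Nat.card_le_card_of_injective _ hinj
    _ = Nat.card Y ^ d := by rw [Nat.card_fun, Nat.card_fin, hdd]

/-- `|Hom(k, Y)| ≤ |k|` if `|Y| ≤ p = char k`. -/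
theorem card_addMonoidHom_le (p : ℕ) [Fact p.Prime] [CharP k p] [Finite k] [Finite Y]
    (hY : Nat.card Y ≤ p) : Nat.card (k →+ Y) ≤ Nat.card k := by
  obtain ⟨d, hd⟩ : ∃ d, Nat.card k = p ^ d := by
    let _ : Algebra (ZMod p) k := ZMod.algebra k p
    have : Module.Finite (ZMod p) k := Module.Finite.of_finite
    exact ⟨Module.finrank (ZMod p) k, by
      rw [Module.natCard_eq_pow_finrank (K := ZMod p) (V := k), Nat.card_zmod]⟩
  calc Nat.card (k →+ Y) ≤ Nat.card Y ^ d := card_addMonoidHom_le_pow p hd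
    _ ≤ p ^ d := Nat.pow_le_pow_left hY d
    _ = Nat.card k := hd.symm

/-- `|EqMaps ψ Y| ≤ |k|` if `|Y| ≤ p = char k`. -/
theorem card_le_card_of_card_le (p : ℕ) [Fact p.Prime] [CharP k p] [Finite k] [Finite Y]
    (hY : Nat.card Y ≤ p) : Nat.card (EqMaps ψ Y) ≤ Nat.card k := by
  have : Finite (k →+ Y) := DFunLike.finite _
  exact le_trans (Nat.card_le_card_of_injective _ Subtype.val_injective)
    (card_addMonoidHom_le p hY)

end Scalar

section BaseChange

variable {Y : Type*} [AddCommGroup Y] [DistribMulAction Δ Y]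
variable (k' : Type*) [Field k'] [Algebra k k']

/-- The character `ψ` viewed with values in an extension `k'` of `k`. -/
def extChar (ψ : Δ →* kˣ) : Δ →* k'ˣ := (Units.map (algebraMap k k' : k →* k')).comp ψ

@[simp] theorem extChar_apply (ψ : Δ →* kˣ) (δ : Δ) :
    ((extChar k' ψ δ : k'ˣ) : k') = algebraMap k k' (ψ δ : k) := rfl

/-- **Base change, the inequality that is needed**: `|EqMaps^k| ^ [k':k] ≤ |EqMaps^{k'}|`. -/
theorem card_pow_le_card_extChar [FiniteDimensional k k'] [Finite k'] [Finite k] [Finite Y] :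
    Nat.card (EqMaps ψ Y) ^ Module.finrank k k' ≤ Nat.card (EqMaps (extChar k' ψ) Y) := by
  classical
  let r := Module.finrank k k'
  let b : Module.Basis (Fin r) k k' := Module.finBasis k k'
  -- `(g_l)_l ↦ (x ↦ ∑_l g_l (repr x l))`
  let F : (Fin r → EqMaps ψ Y) → EqMaps (extChar k' ψ) Y := fun g =>
    ⟨{ toFun := fun x => ∑ l, (g l).1 (b.repr x l)
       map_zero' := by simp
       map_add' := fun x y => by
        simp only [map_add, Finsupp.coe_add, Pi.add_apply, Finset.sum_add_distrib] },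
      fun δ x => by
        show ∑ l, (g l).1 (b.repr (((extChar k' ψ δ : k'ˣ) : k') * x) l) =
          δ • ∑ l, (g l).1 (b.repr x l)
        rw [Finset.smul_sum]
        refine Finset.sum_congr rfl (fun l _ => ?_)
        rw [extChar_apply, ← Algebra.smul_def, map_smul, Finsupp.smul_apply, smul_eq_mul,
          (g l).2 δ]⟩
  have hF : Function.Injective F := by
    intro g h hgh
    funext l
    apply Subtype.ext
    ext a
    have h1 := congrArg (fun f : EqMaps (extChar k' ψ) Y => f.1 (a • b l)) hgh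
    simp only [F] at h1
    have hrepr : ∀ (g : Fin r → EqMaps ψ Y),
        ∑ l', (g l').1 (b.repr (a • b l) l') = (g l).1 a := by
      intro g
      rw [Finset.sum_eq_single l]
      · simp
      · intro l' _ hl'
        simp [Ne.symm hl']
      · intro hl; exact absurd (Finset.mem_univ l) hl
    change ∑ l', (g l').1 (b.repr (a • b l) l') = ∑ l', (h l').1 (b.repr (a • b l) l') at h1
    rwa [hrepr g, hrepr h] at h1
  calc Nat.card (EqMaps ψ Y) ^ r = Nat.card (Fin r → EqMaps ψ Y) := by
        rw [Nat.card_fun, Nat.card_fin]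
    _ ≤ Nat.card (EqMaps (extChar k' ψ) Y) := Nat.card_le_card_of_injective F hF

/-- Consequence: a bound `|EqMaps^{k'}| ≤ |k'| ^ M` over the big field descends to `k`. -/
theorem card_le_pow_of_extChar [FiniteDimensional k k'] [Finite k'] [Finite k] [Finite Y] (M : ℕ)
    (h : Nat.card (EqMaps (extChar k' ψ) Y) ≤ Nat.card k' ^ M) :
    Nat.card (EqMaps ψ Y) ≤ Nat.card k ^ M := by
  have hr : Module.finrank k k' ≠ 0 := Module.finrank_pos.ne'
  have h1 := le_trans (card_pow_le_card_extChar (ψ := ψ) (Y := Y) k') h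
  rw [Module.natCard_eq_pow_finrank (K := k) (V := k'), ← pow_mul, mul_comm, pow_mul] at h1
  exact (Nat.pow_le_pow_iff_left hr).1 h1

end BaseChange

end Fermat.Agent.S56.Flat.TameCount.MultSet
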