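/-
S56, block F (FLAT), leaf [FL-C] "tame multiplicities", Phase 1 (Mathlib only), file 4/6:
QUOTIENTS `H / (H ∩ N)` of `Δ`-stable subgroups of a commutative group `A` with an action of `Δ` by
automorphisms (`MulDistribMulAction Δ A`), as additive `Δ`-modules, and the two counting steps for
`MultSet.EqMaps` along a filtration.

Intended instance: `A = Oˣ`, `H = U^{(j)}`, `N = (Oˣ)^p`; `QuotMod H N = U^{(j)}/(U^{(j)} ∩ (Oˣ)^p)`
`= U_F^{(j)} F^{×p} / F^{×p}`.

* `IsStable Δ H`, `QuotMod H N hH hN` (`AddCommGroup`, `DistribMulAction Δ`), `mk`, `smul_mk`,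
  `mk_eq_zero_iff`, `mk_surjective`;
* `incl` (for `H' ≤ H`), injective and equivariant; `lift` (a map `f : A → Z` additive and
  equivariant on `H`, killing `H ∩ N`);
* **`card_eqMaps_le_mul`** : if every `a ∈ H` with `f a = 0` is `h' * n`, `h' ∈ H'`, `n ∈ N`, then
  `|EqMaps ψ (H/N)| ≤ |EqMaps ψ (H'/N)| * |EqMaps ψ Z|`; `finite_of_step`;
* `card_eqMaps_le_of_ker_le` : if `f a = 0 → a ∈ N` on `H` then `|EqMaps ψ (H/N)| ≤ |EqMaps ψ Z|`;
* `subsingleton_of_le` : `H ≤ N ⟹ H/N = 0`.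
-/
import Mathlib
import Fermat.Agent.S56.Flat.TameCount.MultSet

set_option autoImplicit false
set_option linter.unusedSectionVars false

namespace Fermat.Agent.S56.Flat.TameCount.StableQuot

open Fermat.Agent.S56.Flat.TameCount.MultSet

variable (Δ : Type*) [Group Δ] {A : Type*} [CommGroup A] [MulDistribMulAction Δ A]

/-- A subgroup stable under the action of `Δ`. -/
def IsStable (H : Subgroup A) : Prop := ∀ (δ : Δ) (a : A), a ∈ H → δ • a ∈ H

variable {Δ}

/-- `H / (H ∩ N)` as an additive group. -/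
def QuotMod (H N : Subgroup A) (_hH : IsStable Δ H) (_hN : IsStable Δ N) : Type _ :=
  Additive (↥H ⧸ N.subgroupOf H)

namespace QuotMod

variable {H N : Subgroup A} (hH : IsStable Δ H) (hN : IsStable Δ N)

instance : AddCommGroup (QuotMod H N hH hN) :=
  inferInstanceAs (AddCommGroup (Additive (↥H ⧸ N.subgroupOf H)))

/-- The class of `h ∈ H`. -/
def mk (h : ↥H) : QuotMod H N hH hN := Additive.ofMul (QuotientGroup.mk h)

theorem mk_surjective : Function.Surjective (mk hH hN) := by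
  intro y
  obtain ⟨h, hh⟩ := QuotientGroup.mk_surjective (Additive.toMul y : ↥H ⧸ N.subgroupOf H)
  exact ⟨h, congrArg Additive.ofMul hh⟩

theorem mk_mul (h h' : ↥H) : mk hH hN (h * h') = mk hH hN h + mk hH hN h' := rfl

theorem mk_one : mk hH hN (1 : ↥H) = 0 := rfl

theorem mk_eq_zero_iff (h : ↥H) : mk hH hN h = 0 ↔ (h : A) ∈ N := by
  show Additive.ofMul (QuotientGroup.mk h : ↥H ⧸ N.subgroupOf H) = Additive.ofMul 1 ↔ _
  rw [Additive.ofMul.injective.eq_iff, QuotientGroup.eq_one_iff, Subgroup.mem_subgroupOf]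

theorem mk_eq_mk_iff (h h' : ↥H) : mk hH hN h = mk hH hN h' ↔ ((h : A)⁻¹ * h') ∈ N := by
  show Additive.ofMul (QuotientGroup.mk h : ↥H ⧸ N.subgroupOf H) =
    Additive.ofMul (QuotientGroup.mk h') ↔ _
  rw [Additive.ofMul.injective.eq_iff, QuotientGroup.eq, Subgroup.mem_subgroupOf]
  rfl

/-- The action of `δ` on `H`. -/
def actHom (δ : Δ) : ↥H →* ↥H :=
  ((MulDistribMulAction.toMonoidHom A δ).comp H.subtype).codRestrict H (fun h => hH δ h h.2)

@[simp] theorem coe_actHom (δ : Δ) (h : ↥H) : ((actHom hH δ h : ↥H) : A) = δ • (h : A) := rfl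

include hN in
theorem actHom_le (δ : Δ) : N.subgroupOf H ≤ (N.subgroupOf H).comap (actHom hH δ) := by
  intro h hh
  rw [Subgroup.mem_comap, Subgroup.mem_subgroupOf, coe_actHom]
  exact hN δ _ (Subgroup.mem_subgroupOf.1 hh)

instance : SMul Δ (QuotMod H N hH hN) where
  smul δ y := Additive.ofMul
    (QuotientGroup.map (N.subgroupOf H) (N.subgroupOf H) (actHom hH δ) (actHom_le hH hN δ)
      (Additive.toMul y))

theorem smul_mk (δ : Δ) (h : ↥H) : δ • mk hH hN h = mk hH hN (actHom hH δ h) := rfl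

instance : DistribMulAction Δ (QuotMod H N hH hN) where
  one_smul y := by
    obtain ⟨h, rfl⟩ := mk_surjective hH hN y
    rw [smul_mk]
    congr 1
    apply Subtype.ext
    rw [coe_actHom, one_smul]
  mul_smul δ δ' y := by
    obtain ⟨h, rfl⟩ := mk_surjective hH hN y
    rw [smul_mk, smul_mk, smul_mk]
    congr 1
    apply Subtype.ext
    rw [coe_actHom, coe_actHom, coe_actHom, mul_smul]
  smul_zero δ := by
    rw [← mk_one hH hN, smul_mk, map_one]
  smul_add δ y y' := by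
    obtain ⟨h, rfl⟩ := mk_surjective hH hN y
    obtain ⟨h', rfl⟩ := mk_surjective hH hN y'
    rw [← mk_mul, smul_mk, smul_mk, smul_mk, map_mul, mk_mul]

theorem subsingleton_of_le (hle : H ≤ N) : Subsingleton (QuotMod H N hH hN) := by
  constructor
  intro y y'
  obtain ⟨h, rfl⟩ := mk_surjective hH hN y
  obtain ⟨h', rfl⟩ := mk_surjective hH hN y'
  rw [mk_eq_mk_iff]
  exact N.mul_mem (N.inv_mem (hle h.2)) (hle h'.2)

section Incl

variable {H' : Subgroup A} (hH' : IsStable Δ H') (hle : H' ≤ H)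

/-- The map `H'/(H' ∩ N) → H/(H ∩ N)` for `H' ≤ H`. -/
def incl : QuotMod H' N hH' hN →+ QuotMod H N hH hN :=
  AddMonoidHom.mk' (fun y => Additive.ofMul
    (QuotientGroup.map (N.subgroupOf H') (N.subgroupOf H) (Subgroup.inclusion hle)
      (fun h hh => by
        rw [Subgroup.mem_comap, Subgroup.mem_subgroupOf]
        exact Subgroup.mem_subgroupOf.1 hh) (Additive.toMul y)))
    (fun y y' => by
      show Additive.ofMul (QuotientGroup.map _ _ _ _ (Additive.toMul y * Additive.toMul y')) = _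
      rw [map_mul]; rfl)

theorem incl_mk (h : ↥H') : incl hH hN hH' hle (mk hH' hN h) = mk hH hN (Subgroup.inclusion hle h) :=
  rfl

theorem incl_injective : Function.Injective (incl hH hN hH' hle) := by
  intro y y' hyy'
  obtain ⟨h, rfl⟩ := mk_surjective hH' hN y
  obtain ⟨h', rfl⟩ := mk_surjective hH' hN y'
  rw [incl_mk, incl_mk, mk_eq_mk_iff] at hyy'
  rw [mk_eq_mk_iff]
  exact hyy'

theorem incl_smul (δ : Δ) (y : QuotMod H' N hH' hN) :
    incl hH hN hH' hle (δ • y) = δ • incl hH hN hH' hle y := by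
  obtain ⟨h, rfl⟩ := mk_surjective hH' hN y
  rw [smul_mk, incl_mk, incl_mk, smul_mk]
  congr 1

end Incl

section Lift

variable {Z : Type*} [AddCommGroup Z] [DistribMulAction Δ Z]
  (f : A → Z) (hf_mul : ∀ a ∈ H, ∀ b ∈ H, f (a * b) = f a + f b)
  (hfN : ∀ a ∈ H, a ∈ N → f a = 0)

/-- The additive map `H/(H ∩ N) → Z` induced by `f : A → Z` which is additive on `H` and kills
`H ∩ N`. -/
noncomputable def lift : QuotMod H N hH hN →+ Z :=
  let f₀ : ↥H →* Multiplicative Z :=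
    { toFun := fun h => Multiplicative.ofAdd (f h)
      map_one' := by
        have h1 := hf_mul 1 H.one_mem 1 H.one_mem
        rw [mul_one] at h1
        have : f 1 = 0 := by
          have h2 : f 1 + 0 = f 1 + f 1 := by rw [add_zero]; exact h1
          exact (add_left_cancel h2).symm
        show Multiplicative.ofAdd (f ((1 : ↥H) : A)) = 1
        rw [Subgroup.coe_one, this]; rfl
      map_mul' := fun h h' => by
        show Multiplicative.ofAdd (f ((h * h' : ↥H) : A)) = _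
        rw [Subgroup.coe_mul, hf_mul _ h.2 _ h'.2]; rfl }
  let g : (↥H ⧸ N.subgroupOf H) →* Multiplicative Z :=
    QuotientGroup.lift (N.subgroupOf H) f₀ (fun h hh => by
      show Multiplicative.ofAdd (f (h : A)) = 1
      rw [hfN _ h.2 (Subgroup.mem_subgroupOf.1 hh)]; rfl)
  AddMonoidHom.mk' (fun y => Multiplicative.toAdd (g (Additive.toMul y))) (fun y y' => by
    show Multiplicative.toAdd (g (Additive.toMul y * Additive.toMul y')) = _
    rw [map_mul]; rfl)

omit [DistribMulAction Δ Z] in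
theorem lift_mk (h : ↥H) : lift hH hN f hf_mul hfN (mk hH hN h) = f h := rfl

theorem lift_smul (hf_eq : ∀ (δ : Δ), ∀ a ∈ H, f (δ • a) = δ • f a) (δ : Δ)
    (y : QuotMod H N hH hN) :
    lift hH hN f hf_mul hfN (δ • y) = δ • lift hH hN f hf_mul hfN y := by
  obtain ⟨h, rfl⟩ := mk_surjective hH hN y
  rw [smul_mk, lift_mk, lift_mk, coe_actHom, hf_eq δ _ h.2]

end Lift

end QuotMod

section Steps

open QuotMod

variable {k : Type*} [Field k] [Finite k] {ψ : Δ →* kˣ}
variable {H H' N : Subgroup A} (hH : IsStable Δ H) (hH' : IsStable Δ H') (hN : IsStable Δ N)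
variable {Z : Type*} [AddCommGroup Z] [DistribMulAction Δ Z]

/-- One step of the filtration: finiteness. -/
theorem finite_of_step [Finite (QuotMod H' N hH' hN)] [Finite Z] (hle : H' ≤ H)
    (f : A → Z) (hf_mul : ∀ a ∈ H, ∀ b ∈ H, f (a * b) = f a + f b)
    (hfN : ∀ a ∈ H, a ∈ N → f a = 0)
    (hker : ∀ a ∈ H, f a = 0 → ∃ h' ∈ H', ∃ n ∈ N, a = h' * n) :
    Finite (QuotMod H N hH hN) := by
  -- the map `y ↦ (lift y, ·)` has fibres inside the image of `incl`
  let π := lift hH hN f hf_mul hfN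
  have hex : ∀ y, π y = 0 → ∃ y', incl hH hN hH' hle y' = y := by
    intro y hy
    obtain ⟨h, rfl⟩ := mk_surjective hH hN y
    rw [lift_mk] at hy
    obtain ⟨h', hh', n, hn, hhn⟩ := hker h h.2 hy
    refine ⟨mk hH' hN ⟨h', hh'⟩, ?_⟩
    rw [incl_mk, mk_eq_mk_iff]
    show ((h' : A))⁻¹ * (h : A) ∈ N
    rw [hhn, inv_mul_cancel_left]
    exact hn
  have hfinker : Finite π.ker := by
    have : ∀ y : π.ker, ∃ y', incl hH hN hH' hle y' = y.1 := fun y => hex y.1 y.2
    choose r hr using this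
    refine Finite.of_injective r ?_
    intro y y' hyy'
    apply Subtype.ext
    rw [← hr y, ← hr y', hyy']
  have hfinrange : Finite π.range := Finite.of_injective (fun z => z.1) Subtype.val_injective
  have h1 : Nat.card π.ker * π.ker.index = Nat.card (QuotMod H N hH hN) :=
    AddSubgroup.card_mul_index _
  rw [AddSubgroup.index_ker] at h1
  apply Nat.finite_of_card_ne_zero
  rw [← h1]
  exact Nat.mul_ne_zero Nat.card_pos.ne' Nat.card_pos.ne'

/-- **One step of the filtration**: if every `a ∈ H` with `f a = 0` is `h' * n` with `h' ∈ H'`,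
`n ∈ N`, then `|EqMaps ψ (H/N)| ≤ |EqMaps ψ (H'/N)| * |EqMaps ψ Z|`. -/
theorem card_eqMaps_le_mul [Finite (QuotMod H' N hH' hN)] [Finite Z] (hle : H' ≤ H)
    (f : A → Z) (hf_mul : ∀ a ∈ H, ∀ b ∈ H, f (a * b) = f a + f b)
    (hfN : ∀ a ∈ H, a ∈ N → f a = 0)
    (hf_eq : ∀ (δ : Δ), ∀ a ∈ H, f (δ • a) = δ • f a)
    (hker : ∀ a ∈ H, f a = 0 → ∃ h' ∈ H', ∃ n ∈ N, a = h' * n) :
    Nat.card (EqMaps ψ (QuotMod H N hH hN)) ≤
      Nat.card (EqMaps ψ (QuotMod H' N hH' hN)) * Nat.card (EqMaps ψ Z) := by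
  have hfin : Finite (QuotMod H N hH hN) :=
    finite_of_step hH hH' hN hle f hf_mul hfN hker
  refine card_le_mul (incl hH hN hH' hle) (incl_smul hH hN hH' hle) (incl_injective hH hN hH' hle)
    (lift hH hN f hf_mul hfN) (lift_smul hH hN f hf_mul hfN hf_eq) ?_
  intro y hy
  obtain ⟨h, rfl⟩ := mk_surjective hH hN y
  rw [lift_mk] at hy
  obtain ⟨h', hh', n, hn, hhn⟩ := hker h h.2 hy
  refine ⟨mk hH' hN ⟨h', hh'⟩, ?_⟩
  rw [incl_mk, mk_eq_mk_iff]
  show ((h' : A))⁻¹ * (h : A) ∈ N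
  rw [hhn, inv_mul_cancel_left]
  exact hn

/-- If `f` (additive and equivariant on `H`, killing `H ∩ N`) detects `N` on `H`, then
`H/(H ∩ N)` embeds into `Z`. -/
theorem lift_injective (f : A → Z) (hf_mul : ∀ a ∈ H, ∀ b ∈ H, f (a * b) = f a + f b)
    (hfN : ∀ a ∈ H, a ∈ N → f a = 0) (hker : ∀ a ∈ H, f a = 0 → a ∈ N) :
    Function.Injective (lift hH hN f hf_mul hfN) := by
  rw [injective_iff_map_eq_zero]
  intro y hy
  obtain ⟨h, rfl⟩ := mk_surjective hH hN y
  rw [lift_mk] at hy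
  rw [mk_eq_zero_iff]
  exact hker h h.2 hy

theorem card_eqMaps_le_of_ker_le [Finite Z] (f : A → Z)
    (hf_mul : ∀ a ∈ H, ∀ b ∈ H, f (a * b) = f a + f b)
    (hfN : ∀ a ∈ H, a ∈ N → f a = 0)
    (hf_eq : ∀ (δ : Δ), ∀ a ∈ H, f (δ • a) = δ • f a)
    (hker : ∀ a ∈ H, f a = 0 → a ∈ N) :
    Nat.card (EqMaps ψ (QuotMod H N hH hN)) ≤ Nat.card (EqMaps ψ Z) :=
  card_le_of_injective (lift hH hN f hf_mul hfN) (lift_smul hH hN f hf_mul hfN hf_eq)
    (lift_injective hH hN f hf_mul hfN hker)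

theorem finite_of_ker_le [Finite Z] (f : A → Z)
    (hf_mul : ∀ a ∈ H, ∀ b ∈ H, f (a * b) = f a + f b)
    (hfN : ∀ a ∈ H, a ∈ N → f a = 0) (hker : ∀ a ∈ H, f a = 0 → a ∈ N) :
    Finite (QuotMod H N hH hN) :=
  Finite.of_injective _ (lift_injective hH hN f hf_mul hfN hker)

end Steps

end Fermat.Agent.S56.Flat.TameCount.StableQuot
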