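/-
S56, block F (FLAT), leaf [FL-C] "tame multiplicities", Phase 1, file 5/6:
THE GRADED PIECES `U^{(j)}/U^{(j+1)}` OF THE UNIT FILTRATION AS `Δ`-MODULES.

`O` a discrete valuation ring, `Δ` a group acting on `O` by ring automorphisms
(`MulSemiringAction Δ O`), `κ = ResidueField O` with the induced action (Mathlib instance).

* `smul_mem_maximalIdeal_pow`, `isStable_unitFil`, `isStable_powRange` : the unit filtration and the
  group of `p`-th powers are `Δ`-stable subgroups of `Oˣ` (action `Units.mulDistribMulActionRight`);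
* `tameCocycle ϖ hϖ : TameCocycle Δ κ` : `θ δ = (δ ϖ / ϖ mod 𝔪)`;
* `leadBy g u = ((u - 1) / g mod 𝔪)` for a generator `g` of `𝔪^j`: additive on `U^{(j)}`, kernel
  `U^{(j+1)}`, and `leadBy g (δ u) = (ε mod 𝔪) * δ (leadBy g u)` if `δ g = g ε`
  (`leadBy_smul`); for `g = ϖ^j` this is the action on `Twist ((tameCocycle ϖ).pow j)`.
-/
import Mathlib
import Fermat.Agent.S55.Local.UnitFiltration
import Fermat.Agent.S56.Flat.KummerBound.NormalForm
import Fermat.Agent.S56.Flat.TameCount.TwistedField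
import Fermat.Agent.S56.Flat.TameCount.StableQuot

set_option autoImplicit false
set_option linter.unusedSectionVars false

namespace Fermat.Agent.S56.Flat.TameCount.UnitGraded

open IsLocalRing Fermat.Agent.S55.Local
open Fermat.Agent.S56.Flat.TameCount.TwistedField Fermat.Agent.S56.Flat.TameCount.StableQuot
open Fermat.Agent.S56.Flat.KummerBound.NormalForm (mem_pow_iff)

attribute [local instance] Units.mulDistribMulActionRight

variable {O : Type*} [CommRing O] [IsDomain O] [IsDiscreteValuationRing O]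
variable {Δ : Type*} [Group Δ] [MulSemiringAction Δ O]

section Stable

theorem isUnit_smul_iff (δ : Δ) (x : O) : IsUnit (δ • x) ↔ IsUnit x := by
  constructor
  · intro h
    have := h.map (MulSemiringAction.toRingHom Δ O δ⁻¹)
    simpa using this
  · intro h
    exact h.map (MulSemiringAction.toRingHom Δ O δ)

theorem smul_mem_maximalIdeal (δ : Δ) {x : O} (hx : x ∈ maximalIdeal O) :
    δ • x ∈ maximalIdeal O := by
  rw [mem_maximalIdeal, mem_nonunits_iff] at hx ⊢
  rwa [isUnit_smul_iff]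

theorem smul_mem_maximalIdeal_pow (δ : Δ) {n : ℕ} {x : O} (hx : x ∈ maximalIdeal O ^ n) :
    δ • x ∈ maximalIdeal O ^ n := by
  obtain ⟨π, hπ⟩ := IsDiscreteValuationRing.exists_irreducible O
  rw [mem_pow_iff hπ] at hx
  obtain ⟨c, rfl⟩ := hx
  rw [smul_mul', smul_pow']
  have hπm : π ∈ maximalIdeal O := by
    rw [hπ.maximalIdeal_eq]; exact Ideal.mem_span_singleton_self π
  exact Ideal.mul_mem_right _ _ (Ideal.pow_mem_pow (smul_mem_maximalIdeal δ hπm) n)

theorem isStable_unitFil (n : ℕ) : IsStable Δ (unitFil O n) := by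
  intro δ u hu
  rw [mem_unitFil] at hu ⊢
  have : ((δ • u : Oˣ) : O) - 1 = δ • ((u : O) - 1) := by
    rw [Units.coe_smul, smul_sub, smul_one]
  rw [this]
  exact smul_mem_maximalIdeal_pow δ hu

theorem isStable_powRange (p : ℕ) : IsStable Δ (powMonoidHom p : Oˣ →* Oˣ).range := by
  rintro δ _ ⟨x, rfl⟩
  refine ⟨δ • x, ?_⟩
  show (δ • x) ^ p = δ • x ^ p
  rw [smul_pow']

end Stable

section Tame

variable (ϖ : O) (hϖ : Irreducible ϖ)

include hϖ in
theorem exists_smul_eq_mul (δ : Δ) : ∃ u : O, IsUnit u ∧ δ • ϖ = ϖ * u := by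
  have hirr : Irreducible (δ • ϖ) := by
    have := (MulEquiv.irreducible_iff (MulSemiringAction.toRingEquiv Δ O δ)).2 hϖ
    simpa using this
  obtain ⟨u, hu⟩ := IsDiscreteValuationRing.associated_of_irreducible O hϖ hirr
  exact ⟨u, u.isUnit, hu.symm⟩

/-- `δ ϖ / ϖ`. -/
noncomputable def tameUnit (δ : Δ) : O := Classical.choose (exists_smul_eq_mul ϖ hϖ δ)

theorem isUnit_tameUnit (δ : Δ) : IsUnit (tameUnit ϖ hϖ δ) :=
  (Classical.choose_spec (exists_smul_eq_mul ϖ hϖ δ)).1

theorem smul_uniformizer (δ : Δ) : δ • ϖ = ϖ * tameUnit ϖ hϖ δ :=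
  (Classical.choose_spec (exists_smul_eq_mul ϖ hϖ δ)).2

theorem tameUnit_mul (δ δ' : Δ) :
    tameUnit ϖ hϖ (δ * δ') = tameUnit ϖ hϖ δ * δ • tameUnit ϖ hϖ δ' := by
  have h1 : (δ * δ') • ϖ = ϖ * (tameUnit ϖ hϖ δ * δ • tameUnit ϖ hϖ δ') := by
    rw [mul_smul, smul_uniformizer ϖ hϖ δ', smul_mul', smul_uniformizer ϖ hϖ δ, mul_assoc]
  rw [smul_uniformizer ϖ hϖ (δ * δ')] at h1
  exact mul_left_cancel₀ hϖ.ne_zero h1

/-- The tame cocycle `θ δ = δ ϖ / ϖ mod 𝔪` with values in the residue field. -/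
noncomputable def tameCocycle : TameCocycle Δ (ResidueField O) where
  toFun δ := residue O (tameUnit ϖ hϖ δ)
  ne_zero' δ := by
    rw [Ne, residue_eq_zero_iff, mem_maximalIdeal, mem_nonunits_iff, not_not]
    exact isUnit_tameUnit ϖ hϖ δ
  map_mul' δ δ' := by
    rw [tameUnit_mul, map_mul, ResidueField.residue_smul]

@[simp] theorem tameCocycle_apply (δ : Δ) :
    tameCocycle ϖ hϖ δ = residue O (tameUnit ϖ hϖ δ) := rfl

theorem smul_uniformizer_pow (δ : Δ) (j : ℕ) :
    δ • ϖ ^ j = ϖ ^ j * tameUnit ϖ hϖ δ ^ j := by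
  rw [smul_pow', smul_uniformizer ϖ hϖ δ, mul_pow]

end Tame

section Lead

/-- `x / g` if `g ∣ x` (and `0` otherwise). -/
noncomputable def coef (g x : O) : O :=
  open Classical in if h : g ∣ x then Classical.choose h else 0

theorem mul_coef {g x : O} (h : g ∣ x) : g * coef g x = x := by
  rw [coef, dif_pos h]
  exact (Classical.choose_spec h).symm

theorem coef_eq {g x c : O} (hg : g ≠ 0) (h : x = g * c) : coef g x = c := by
  have hdvd : g ∣ x := ⟨c, h⟩
  exact mul_left_cancel₀ hg ((mul_coef hdvd).trans h)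

/-- The leading coefficient `((u - 1)/g mod 𝔪)` of a unit `u ≡ 1 mod g`. -/
noncomputable def leadBy (g : O) (u : Oˣ) : ResidueField O := residue O (coef g ((u : O) - 1))

variable {g : O} {j : ℕ} (hg : Ideal.span {g} = maximalIdeal O ^ j)

include hg in
theorem dvd_of_mem_unitFil {u : Oˣ} (hu : u ∈ unitFil O j) : g ∣ (u : O) - 1 := by
  rw [mem_unitFil, ← hg, Ideal.mem_span_singleton] at hu
  exact hu

include hg in
theorem ne_zero_of_span : g ≠ 0 := by
  rintro rfl
  rw [Ideal.span_singleton_eq_bot.2 rfl] at hg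
  exact pow_ne_zero j (IsDiscreteValuationRing.not_a_field O) hg.symm

include hg in
theorem mem_of_span (hj : 1 ≤ j) : g ∈ maximalIdeal O := by
  have h1 : g ∈ maximalIdeal O ^ j := hg ▸ Ideal.mem_span_singleton_self g
  have := Ideal.pow_le_pow_right (I := maximalIdeal O) hj h1
  rwa [pow_one] at this

include hg in
/-- `leadBy g` is additive on `U^{(j)}` (`j ≥ 1`). -/
theorem leadBy_mul (hj : 1 ≤ j) {u v : Oˣ} (hu : u ∈ unitFil O j) (hv : v ∈ unitFil O j) :
    leadBy g (u * v) = leadBy g u + leadBy g v := by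
  have hg0 := ne_zero_of_span hg
  set a := coef g ((u : O) - 1) with ha
  set b := coef g ((v : O) - 1) with hb
  have hua : (u : O) - 1 = g * a := (mul_coef (dvd_of_mem_unitFil hg hu)).symm
  have hvb : (v : O) - 1 = g * b := (mul_coef (dvd_of_mem_unitFil hg hv)).symm
  have huv : ((u * v : Oˣ) : O) - 1 = g * (a + b + g * a * b) := by
    have h1 : (u : O) = 1 + g * a := by rw [← hua]; ring
    have h2 : (v : O) = 1 + g * b := by rw [← hvb]; ring
    rw [Units.val_mul, h1, h2]; ring
  rw [leadBy, coef_eq hg0 huv, map_add, map_add, map_mul, map_mul,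
    (residue_eq_zero_iff g).2 (mem_of_span hg hj), zero_mul, zero_mul, add_zero]
  rfl

include hg in
/-- The kernel of `leadBy g` on `U^{(j)}` is `U^{(j+1)}`. -/
theorem leadBy_eq_zero_iff {u : Oˣ} (hu : u ∈ unitFil O j) :
    leadBy g u = 0 ↔ u ∈ unitFil O (j + 1) := by
  have hg0 := ne_zero_of_span hg
  have hua : (u : O) - 1 = g * coef g ((u : O) - 1) :=
    (mul_coef (dvd_of_mem_unitFil hg hu)).symm
  rw [leadBy, residue_eq_zero_iff, mem_unitFil, pow_succ', ← hg]
  constructor
  · intro h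
    have h2 : (u : O) - 1 = coef g ((u : O) - 1) * g := by rw [mul_comm]; exact hua
    rw [h2]
    exact Ideal.mul_mem_mul h (Ideal.mem_span_singleton_self g)
  · intro h
    rw [Ideal.mem_mul_span_singleton] at h
    obtain ⟨z, hz, hzg⟩ := h
    have : coef g ((u : O) - 1) = z := by
      apply coef_eq hg0
      rw [← hzg]; ring
    rw [this]; exact hz

include hg in
/-- `leadBy g` of `1 + g c`. -/
theorem leadBy_of_eq {u : Oˣ} {c : O} (h : (u : O) - 1 = g * c) : leadBy g u = residue O c := by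
  rw [leadBy, coef_eq (ne_zero_of_span hg) h]

include hg in
/-- Equivariance: if `δ g = g ε` then `leadBy g (δ u) = (ε mod 𝔪) * δ (leadBy g u)`. -/
theorem leadBy_smul (δ : Δ) {ε : O} (hε : δ • g = g * ε) {u : Oˣ} (hu : u ∈ unitFil O j) :
    leadBy g (δ • u) = residue O ε * δ • leadBy g u := by
  have hua : (u : O) - 1 = g * coef g ((u : O) - 1) :=
    (mul_coef (dvd_of_mem_unitFil hg hu)).symm
  have h1 : ((δ • u : Oˣ) : O) - 1 = g * (ε * δ • coef g ((u : O) - 1)) := by
    rw [Units.coe_smul]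
    have : δ • (u : O) - 1 = δ • ((u : O) - 1) := by rw [smul_sub, smul_one]
    rw [this, hua, smul_mul', hε, ← hua, mul_assoc]
  rw [leadBy_of_eq hg h1, map_mul, ResidueField.residue_smul]
  rfl

include hg in
/-- Surjectivity data: the unit `1 + g c` has leading coefficient `c mod 𝔪`. -/
theorem exists_leadBy_eq (hj : 1 ≤ j) (c : O) :
    ∃ u ∈ unitFil O j, (u : O) = 1 + g * c ∧ leadBy g u = residue O c := by
  have hgc : g * c ∈ maximalIdeal O ^ j := by
    rw [← hg]; exact Ideal.mul_mem_right _ _ (Ideal.mem_span_singleton_self g)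
  have hgc1 : g * c ∈ maximalIdeal O := by
    have := Ideal.pow_le_pow_right (I := maximalIdeal O) hj hgc
    rwa [pow_one] at this
  refine ⟨oneAddUnit (g * c) hgc1, oneAddUnit_mem_unitFil _ hgc1 hgc, coe_oneAddUnit _ _, ?_⟩
  apply leadBy_of_eq hg
  rw [coe_oneAddUnit]; ring

end Lead

end Fermat.Agent.S56.Flat.TameCount.UnitGraded
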