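/-
S56, block F (FLAT), leaf [FL-C] "tame multiplicities", Phase 1, file 3/6:
LEVELS OF `p`-TH POWERS in the unit filtration of a discrete valuation ring `O` with
`(p) = 𝔪 ^ ((p - 1) * e₁)` (i.e. `e = (p-1) e₁`, `e₁ = v(ζ_p - 1)`), `N := p * e₁ = p e/(p-1)`.
Vocabulary = S55 `Local/UnitFiltration` (`unitFil O n`, `mem_unitFil`).  No group action here.

* `one_add_pow_sub_mem` : `y ∈ 𝔪^m ⟹ (1+y)^p - 1 - y^p ∈ 𝔪^(e+m)`;
* (PL2) `one_add_pow_sub_one_mem_top` : `y ∈ 𝔪^e₁ ⟹ (1+y)^p - 1 ∈ 𝔪^N`;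
* (PL1) `pow_exact_level` : exact level `i`, `1 ≤ i < e₁` ⟹ `u^p` has exact level `p i`;
* (PL5) `mem_unitFil_one_of_pow_mem`, root claim `mem_unitFil_of_pow_mem_top`:
  `x^p ∈ U^{(N)} ⟹ x ∈ U^{(e₁)}`;
* **(B0′)** `pow_mem_unitFil_succ` : `p ∤ j`, `j < N`, `x^p ∈ U^{(j)} ⟹ x^p ∈ U^{(j+1)}`;
* (PL3) `exists_div_pow_mem_succ` : `1 ≤ m < e₁`, `u ∈ U^{(pm)}` ⟹ `u / y^p ∈ U^{(pm+1)}` for some
  `y ∈ U^{(m)}` (finite residue field);
* (PL4) `mem_range_pow_of_mem_unitFil` : `U^{(N+1)} ⊆ (Oˣ)^p` for `O` complete;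
* top level: `one_add_mul_pow_sub_mem` : if `(1+λ)^p = 1`, `λ ∈ 𝔪^e₁` then
  `(1 + bλ)^p - 1 - (b^p - b) λ^p ∈ 𝔪^(N+1)`.
-/
import Mathlib
import Fermat.Agent.S55.Local.PowerIndex
import Fermat.Agent.S56.Flat.PthPower
import Fermat.Agent.S56.Flat.KummerBound.NormalForm

set_option autoImplicit false

namespace Fermat.Agent.S56.Flat.TameCount.UnitLevels

open IsLocalRing Fermat.Agent.S55.Local
open IsDiscreteValuationRing (addVal)
open Fermat.Agent.S56.Flat.KummerBound.NormalForm (mem_pow_iff_le_addVal)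

variable {O : Type*} [CommRing O] [IsDomain O] [IsDiscreteValuationRing O]
variable {p : ℕ} (hp : p.Prime) {e₁ : ℕ}
  (hpe : Ideal.span {(p : O)} = maximalIdeal O ^ ((p - 1) * e₁))

include hpe in
theorem natCast_mem : (p : O) ∈ maximalIdeal O ^ ((p - 1) * e₁) :=
  hpe ▸ Ideal.mem_span_singleton_self _

include hp hpe in
theorem natCast_mem_maximalIdeal (he₁ : 1 ≤ e₁) : (p : O) ∈ maximalIdeal O := by
  have h1 : 1 ≤ (p - 1) * e₁ := Nat.mul_pos (by have := hp.two_le; omega) he₁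
  have := Ideal.pow_le_pow_right (I := maximalIdeal O) h1 (natCast_mem hpe)
  rwa [pow_one] at this

include hp hpe in
/-- `(1 + y)^p ≡ 1 + y^p` modulo `𝔪^(e+m)` for `y ∈ 𝔪^m`. -/
theorem one_add_pow_sub_mem {m : ℕ} {y : O} (hy : y ∈ maximalIdeal O ^ m) :
    (1 + y) ^ p - 1 - y ^ p ∈ maximalIdeal O ^ ((p - 1) * e₁ + m) := by
  obtain ⟨k, hk⟩ := Fermat.Agent.S56.Flat.PthPower.add_pow_prime_expand hp (1 : O) y
  have h1 : (1 + y) ^ p - 1 - y ^ p = (p : O) * (y * (1 + y * k)) := by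
    rw [hk]; ring
  rw [h1, pow_add]
  exact Ideal.mul_mem_mul (natCast_mem hpe) (Ideal.mul_mem_right _ _ hy)

include hp hpe in
/-- (PL2) `y ∈ 𝔪^e₁ ⟹ (1+y)^p ≡ 1 mod 𝔪^(p e₁)`. -/
theorem one_add_pow_sub_one_mem_top {y : O} (hy : y ∈ maximalIdeal O ^ e₁) :
    (1 + y) ^ p - 1 ∈ maximalIdeal O ^ (p * e₁) := by
  have h1 := one_add_pow_sub_mem hp hpe hy
  have h2 : y ^ p ∈ maximalIdeal O ^ (p * e₁) := by
    rw [mul_comm, pow_mul]; exact Ideal.pow_mem_pow hy p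
  have h3 : (p - 1) * e₁ + e₁ = p * e₁ := by
    have := hp.two_le
    obtain ⟨q, rfl⟩ : ∃ q, p = q + 1 := ⟨p - 1, by omega⟩
    simp; ring
  rw [h3] at h1
  have : (1 + y) ^ p - 1 = ((1 + y) ^ p - 1 - y ^ p) + y ^ p := by ring
  rw [this]
  exact Ideal.add_mem _ h1 h2

include hp hpe in
/-- (PL1) exact levels multiply by `p` below `e₁`. -/
theorem one_add_pow_exact_level {i : ℕ} (hi : i < e₁) {y : O}
    (hy : y ∈ maximalIdeal O ^ i) (hy' : y ∉ maximalIdeal O ^ (i + 1)) :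
    (1 + y) ^ p - 1 ∈ maximalIdeal O ^ (p * i) ∧
      (1 + y) ^ p - 1 ∉ maximalIdeal O ^ (p * i + 1) := by
  have h1 := one_add_pow_sub_mem hp hpe hy
  have hle : p * i + 1 ≤ (p - 1) * e₁ + i := by
    have := hp.two_le
    obtain ⟨q, rfl⟩ : ∃ q, p = q + 1 := ⟨p - 1, by omega⟩
    simp only [Nat.add_sub_cancel]
    have : q * (i + 1) ≤ q * e₁ := Nat.mul_le_mul_left q hi
    nlinarith
  have h1' : (1 + y) ^ p - 1 - y ^ p ∈ maximalIdeal O ^ (p * i + 1) :=
    Ideal.pow_le_pow_right hle h1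
  have hval : addVal O y = i :=
    Fermat.Agent.S56.Flat.KummerBound.NormalForm.addVal_eq_of_mem_of_not_mem hy hy'
  have hvalp : addVal O (y ^ p) = ((p * i : ℕ) : ℕ∞) := by
    rw [IsDiscreteValuationRing.addVal_pow, hval]; push_cast; rfl
  have h2 : y ^ p ∈ maximalIdeal O ^ (p * i) := by
    rw [mem_pow_iff_le_addVal, hvalp]
  have h2' : y ^ p ∉ maximalIdeal O ^ (p * i + 1) := by
    rw [mem_pow_iff_le_addVal, hvalp]
    intro h
    have : ((p * i + 1 : ℕ) : ℕ∞) ≤ ((p * i : ℕ) : ℕ∞) := h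
    rw [Nat.cast_le] at this
    omega
  have hdec : (1 + y) ^ p - 1 = ((1 + y) ^ p - 1 - y ^ p) + y ^ p := by ring
  constructor
  · rw [hdec]
    exact Ideal.add_mem _ (Ideal.pow_le_pow_right (Nat.le_succ _) h1') h2
  · intro h
    apply h2'
    have : y ^ p = ((1 + y) ^ p - 1) - ((1 + y) ^ p - 1 - y ^ p) := by ring
    rw [this]
    exact Ideal.sub_mem _ h h1'

/-- Exact level of a unit. -/
def HasLevel (u : Oˣ) (i : ℕ) : Prop := u ∈ unitFil O i ∧ u ∉ unitFil O (i + 1)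

include hp hpe in
theorem pow_hasLevel {i : ℕ} (hi : i < e₁) {u : Oˣ} (hu : HasLevel u i) :
    HasLevel (u ^ p) (p * i) := by
  obtain ⟨h1, h2⟩ := hu
  rw [mem_unitFil] at h1 h2
  have hux : (u : O) = 1 + ((u : O) - 1) := by ring
  have := one_add_pow_exact_level hp hpe hi h1 h2
  rw [← hux] at this
  constructor
  · rw [mem_unitFil, Units.val_pow_eq_pow_val]; exact this.1
  · rw [mem_unitFil, Units.val_pow_eq_pow_val]; exact this.2

include hp hpe in
theorem pow_mem_unitFil_top {u : Oˣ} (hu : u ∈ unitFil O e₁) : u ^ p ∈ unitFil O (p * e₁) := by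
  rw [mem_unitFil] at hu ⊢
  have hux : (u : O) = 1 + ((u : O) - 1) := by ring
  have := one_add_pow_sub_one_mem_top hp hpe hu
  rwa [← hux, ← Units.val_pow_eq_pow_val] at this

include hp hpe in
/-- (PL5) a `p`-th root of a principal unit is a principal unit. -/
theorem mem_unitFil_one_of_pow_mem (he₁ : 1 ≤ e₁) {x : Oˣ} (hx : x ^ p ∈ unitFil O 1) :
    x ∈ unitFil O 1 := by
  have : Fact p.Prime := ⟨hp⟩
  have hchar : CharP (ResidueField O) p := by
    refine (CharP.charP_iff_prime_eq_zero hp).mpr ?_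
    have := (residue_eq_zero_iff (p : O)).mpr (natCast_mem_maximalIdeal hp hpe he₁)
    simpa using this
  rw [mem_unitFil, pow_one, ← residue_eq_zero_iff] at hx ⊢
  rw [Units.val_pow_eq_pow_val, map_sub, map_pow, map_one] at hx
  rw [map_sub, map_one]
  have h1 : (residue O (x : O) - 1) ^ p = 0 := by
    rw [sub_pow_char, one_pow, hx]
  exact pow_eq_zero_iff hp.ne_zero |>.1 h1

/-- Every principal unit outside `U^{(n)}` has an exact level `< n`. -/
theorem exists_hasLevel {x : Oˣ} {n : ℕ} (h1 : x ∈ unitFil O 1) (hn : x ∉ unitFil O n) :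
    ∃ i, 1 ≤ i ∧ i < n ∧ HasLevel x i := by
  classical
  -- the least `m` with `x ∉ U^{(m)}`
  have hex : ∃ m, x ∉ unitFil O m := ⟨n, hn⟩
  set m := Nat.find hex with hm
  have hm1 : x ∉ unitFil O m := Nat.find_spec hex
  have hmn : m ≤ n := Nat.find_min' hex hn
  have hm2 : 2 ≤ m := by
    by_contra h
    push Not at h
    apply hm1
    have : m ≤ 1 := by omega
    exact unitFil_antitone this h1
  refine ⟨m - 1, by omega, by omega, ?_, ?_⟩
  · by_contra h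
    have := Nat.find_min' hex h
    omega
  · have : m - 1 + 1 = m := by omega
    rw [this]; exact hm1

include hp hpe in
/-- Root claim: `x^p ∈ U^{(p e₁)} ⟹ x ∈ U^{(e₁)}`. -/
theorem mem_unitFil_of_pow_mem_top (he₁ : 1 ≤ e₁) {x : Oˣ} (hx : x ^ p ∈ unitFil O (p * e₁)) :
    x ∈ unitFil O e₁ := by
  have hN : 1 ≤ p * e₁ := Nat.mul_pos hp.pos he₁
  have h1 : x ∈ unitFil O 1 :=
    mem_unitFil_one_of_pow_mem hp hpe he₁ (unitFil_antitone hN hx)
  by_contra hcon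
  obtain ⟨i, hi1, hie, hlev⟩ := exists_hasLevel h1 hcon
  have := (pow_hasLevel hp hpe hie hlev).2
  apply this
  refine unitFil_antitone ?_ hx
  have : p * (i + 1) ≤ p * e₁ := Nat.mul_le_mul_left p hie
  nlinarith [hp.two_le]

include hp hpe in
/-- **(B0′)**: for `p ∤ j`, `j < p e₁`, a `p`-th power in `U^{(j)}` lies in `U^{(j+1)}`. -/
theorem pow_mem_unitFil_succ (he₁ : 1 ≤ e₁) {j : ℕ} (hj1 : 1 ≤ j) (hjN : j < p * e₁)
    (hpj : ¬ p ∣ j) {x : Oˣ} (hx : x ^ p ∈ unitFil O j) : x ^ p ∈ unitFil O (j + 1) := by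
  have h1 : x ∈ unitFil O 1 :=
    mem_unitFil_one_of_pow_mem hp hpe he₁ (unitFil_antitone hj1 hx)
  by_cases hxe : x ∈ unitFil O e₁
  · exact unitFil_antitone (by omega) (pow_mem_unitFil_top hp hpe hxe)
  · obtain ⟨i, hi1, hie, hlev⟩ := exists_hasLevel h1 hxe
    have hlevp := pow_hasLevel hp hpe hie hlev
    -- `j ≤ p i`, hence `j + 1 ≤ p i`
    have hle : j ≤ p * i := by
      by_contra h
      push Not at h
      exact hlevp.2 (unitFil_antitone (by omega) hx)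
    have hne : j ≠ p * i := fun h => hpj ⟨i, h⟩
    exact unitFil_antitone (by omega) hlevp.1

section Perfect

variable [Finite (ResidueField O)]

include hp hpe in
/-- (PL3) below the top level, a principal unit of level divisible by `p` is a `p`-th power modulo
the next level. -/
theorem exists_div_pow_mem_succ {m : ℕ} (hm1 : 1 ≤ m) (hme : m < e₁) {u : Oˣ}
    (hu : u ∈ unitFil O (p * m)) :
    ∃ y ∈ unitFil O m, u / y ^ p ∈ unitFil O (p * m + 1) := by
  obtain ⟨π, hπ⟩ := IsDiscreteValuationRing.exists_irreducible O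
  rw [mem_unitFil] at hu
  obtain ⟨c, hc⟩ := (Fermat.Agent.S56.Flat.KummerBound.NormalForm.mem_pow_iff hπ).mp hu
  have he₁ : 1 ≤ e₁ := by omega
  obtain ⟨b, hb⟩ := Fermat.Agent.S56.Flat.KummerBound.NormalForm.exists_pow_sub_mem hp
    (natCast_mem_maximalIdeal hp hpe he₁) c
  have hπm : π ∈ maximalIdeal O := by
    rw [hπ.maximalIdeal_eq]; exact Ideal.mem_span_singleton_self π
  have hbπ : b * π ^ m ∈ maximalIdeal O ^ m :=
    Ideal.mul_mem_left _ _ (Ideal.pow_mem_pow hπm m)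
  have hbπ1 : b * π ^ m ∈ maximalIdeal O := by
    have := Ideal.pow_le_pow_right (I := maximalIdeal O) hm1 hbπ
    rwa [pow_one] at this
  refine ⟨oneAddUnit (b * π ^ m) hbπ1, oneAddUnit_mem_unitFil _ hbπ1 hbπ, div_mem_unitFil ?_⟩
  rw [Units.val_pow_eq_pow_val, coe_oneAddUnit]
  have h1 := one_add_pow_sub_mem hp hpe hbπ
  have hle : p * m + 1 ≤ (p - 1) * e₁ + m := by
    have := hp.two_le
    obtain ⟨q, rfl⟩ : ∃ q, p = q + 1 := ⟨p - 1, by omega⟩
    simp only [Nat.add_sub_cancel]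
    have : q * (m + 1) ≤ q * e₁ := Nat.mul_le_mul_left q hme
    nlinarith
  have h1' := Ideal.pow_le_pow_right hle h1
  have key : (u : O) - (1 + b * π ^ m) ^ p =
      -((b ^ p - c) * π ^ (p * m)) - ((1 + b * π ^ m) ^ p - 1 - (b * π ^ m) ^ p) := by
    have hu' : (u : O) = 1 + π ^ (p * m) * c := by rw [← hc]; ring
    rw [hu', mul_pow, ← pow_mul, mul_comm m p]; ring
  rw [key]
  refine Ideal.sub_mem _ ((Ideal.neg_mem_iff _).2 ?_) h1'
  rw [pow_succ']
  exact Ideal.mul_mem_mul hb (Ideal.pow_mem_pow hπm _)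

end Perfect

include hp hpe in
/-- (PL4) in the complete case `U^{(p e₁ + 1)}` consists of `p`-th powers. -/
theorem mem_range_pow_of_mem_unitFil [IsAdicComplete (maximalIdeal O) O] {u : Oˣ}
    (hu : u ∈ unitFil O (p * e₁ + 1)) : ∃ x : Oˣ, x ^ p = u := by
  have hq : ∃ q, p = q + 1 := ⟨p - 1, by have := hp.two_le; omega⟩
  obtain ⟨q, rfl⟩ := hq
  have h1 : e₁ + 1 + (q + 1 - 1) * e₁ = (q + 1) * e₁ + 1 := by
    simp only [Nat.add_sub_cancel]; ring
  have hne : (q + 1 - 1) * e₁ + 1 ≤ (q + 1 - 1) * (e₁ + 1) := by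
    simp only [Nat.add_sub_cancel]
    have := hp.two_le
    nlinarith
  obtain ⟨x, _, hx⟩ := exists_pow_eq hp hpe (n := e₁ + 1) (by omega) hne (y := u)
    (by rw [h1]; exact hu)
  exact ⟨x, hx⟩

include hp hpe in
/-- Top level: if `ζ = 1 + λ` is a `p`-th root of unity with `λ ∈ 𝔪^e₁`, then
`(1 + bλ)^p ≡ 1 + (b^p - b) λ^p` modulo `𝔪^(p e₁ + 1)`. -/
theorem one_add_mul_pow_sub_mem (he₁ : 1 ≤ e₁) {lam : O} (hlam : lam ∈ maximalIdeal O ^ e₁)
    (hζ : (1 + lam) ^ p = 1) (b : O) :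
    (1 + b * lam) ^ p - 1 - (b ^ p - b) * lam ^ p ∈ maximalIdeal O ^ (p * e₁ + 1) := by
  obtain ⟨k₁, hk₁⟩ := Fermat.Agent.S56.Flat.PthPower.add_pow_prime_expand hp (1 : O) lam
  obtain ⟨kb, hkb⟩ := Fermat.Agent.S56.Flat.PthPower.add_pow_prime_expand hp (1 : O) (b * lam)
  -- `p λ = -λ^p - p λ² k₁`
  have h0 : (p : O) * lam = -lam ^ p - p * lam ^ 2 * k₁ := by
    have : (1 : O) + p * lam + p * lam ^ 2 * k₁ + lam ^ p = 1 := by
      have := hk₁
      rw [hζ] at this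
      simp only [one_pow, mul_one] at this
      exact this.symm
    linear_combination this
  have key : (1 + b * lam) ^ p - 1 - (b ^ p - b) * lam ^ p =
      (p : O) * (lam ^ 2 * (b ^ 2 * kb - b * k₁)) := by
    rw [hkb]
    simp only [one_pow, mul_one]
    linear_combination b * h0
  rw [key]
  have h2 : lam ^ 2 ∈ maximalIdeal O ^ (e₁ + 1) := by
    have : lam ^ 2 ∈ maximalIdeal O ^ (e₁ * 2) := by
      rw [pow_mul]; exact Ideal.pow_mem_pow hlam 2
    exact Ideal.pow_le_pow_right (by omega) this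
  have h3 : (p - 1) * e₁ + (e₁ + 1) = p * e₁ + 1 := by
    have := hp.two_le
    obtain ⟨q, rfl⟩ : ∃ q, p = q + 1 := ⟨p - 1, by omega⟩
    simp; ring
  rw [← h3, pow_add]
  exact Ideal.mul_mem_mul (natCast_mem hpe) (Ideal.mul_mem_right _ _ h2)

end Fermat.Agent.S56.Flat.TameCount.UnitLevels
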