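/-
S56, block F (FLAT), leaf [FL-C] "tame multiplicities", Phase 1, file 6/7:
THE TOP PIECE `U^{(N)}/(U^{(N)} ∩ (Oˣ)^p)`, `N = p e₁ = p e/(p-1)`: it embeds `Δ`-equivariantly
into `𝔽_p(ω)` (`ScalMod p ω`), `ω` = the action on `μ_p`.

* trace to the prime field of a finite field: `trP`, `trP_pow`, `trP_ringEquiv`,
  `exists_pow_sub_of_trP_eq_zero` (additive Hilbert 90 by counting);
* `ScalMod p ω`, `topMult`, `card_eqMaps_scalMod_le : |EqMaps ψ 𝔽_p(ω)| ≤ |k| ^ [ψ = ω]`;
* `fTop ζ ω u = Tr ((u-1)/(ζ-1)^p mod 𝔪)` on `U^{(N)}`: `fTop_mul`, `fTop_smul` (equivariance),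
  `fTop_eq_zero_of_mem_range` (kills `p`-th powers: `(1+bλ)^p ≡ 1+(b^p-b)λ^p`),
  `exists_of_fTop_eq_zero` (kernel ⊆ `U^{(N+1)} (Oˣ)^p`).
-/
import Mathlib
import Fermat.Agent.S56.Flat.TameCount.UnitGraded
import Fermat.Agent.S56.Flat.TameCount.UnitLevels

set_option autoImplicit false
set_option linter.unusedSectionVars false

namespace Fermat.Agent.S56.Flat.TameCount.TopPiece

open IsLocalRing Fermat.Agent.S55.Local
open Fermat.Agent.S56.Flat.TameCount.MultSet Fermat.Agent.S56.Flat.TameCount.StableQuot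
open Fermat.Agent.S56.Flat.TameCount.UnitGraded Fermat.Agent.S56.Flat.TameCount.UnitLevels

section Trace

variable {κ : Type*} [Field κ] [Finite κ] (p : ℕ) [Fact p.Prime] [CharP κ p]

/-- The trace to the prime field, as an additive map. -/
noncomputable def trP : κ →+ ZMod p :=
  let _ : Algebra (ZMod p) κ := ZMod.algebra κ p
  (Algebra.trace (ZMod p) κ).toAddMonoidHom

theorem trP_ringEquiv (σ : κ ≃+* κ) (x : κ) : trP p (σ x) = trP p x := by
  let _ : Algebra (ZMod p) κ := ZMod.algebra κ p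
  let e : κ ≃ₐ[ZMod p] κ := AlgEquiv.ofRingEquiv (f := σ) (fun z => by
    have : (σ : κ →+* κ).comp (algebraMap (ZMod p) κ) = algebraMap (ZMod p) κ :=
      Subsingleton.elim _ _
    exact congrArg (fun f : ZMod p →+* κ => f z) this)
  exact Algebra.trace_eq_of_algEquiv e x

theorem trP_pow (x : κ) : trP p (x ^ p) = trP p x := by
  have := trP_ringEquiv p (frobeniusEquiv κ p) x
  rwa [frobeniusEquiv_apply] at this

theorem trP_natCast_mul (n : ℕ) (x : κ) : trP p ((n : κ) * x) = (n : ZMod p) * trP p x := by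
  rw [← nsmul_eq_mul, map_nsmul, nsmul_eq_mul]

theorem trP_surjective : Function.Surjective (trP p : κ → ZMod p) := by
  let _ : Algebra (ZMod p) κ := ZMod.algebra κ p
  have : Module.Finite (ZMod p) κ := Module.Finite.of_finite
  exact Algebra.trace_surjective (ZMod p) κ

/-- Additive Hilbert 90 for finite fields (by counting): the kernel of the trace is the image of
`b ↦ b^p - b`. -/
theorem exists_pow_sub_of_trP_eq_zero {x : κ} (hx : trP p x = 0) : ∃ b : κ, b ^ p - b = x := by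
  classical
  have hp : p.Prime := Fact.out
  -- the Artin–Schreier map
  let AS : κ →+ κ := (frobenius κ p : κ →+ κ) - AddMonoidHom.id κ
  have hAS : ∀ b, AS b = b ^ p - b := fun b => rfl
  let T : κ →+ ZMod p := trP p
  have hle : AS.range ≤ T.ker := by
    rintro _ ⟨b, rfl⟩
    rw [AddMonoidHom.mem_ker, hAS, map_sub, trP_pow, sub_self]
  -- cardinalities
  have hcard_ker_tr : Nat.card T.ker * p = Nat.card κ := by
    have h1 := AddSubgroup.card_mul_index T.ker
    rw [AddSubgroup.index_ker] at h1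
    have h2 : Nat.card T.range = p := by
      have : T.range = ⊤ := AddMonoidHom.range_eq_top.2 (trP_surjective p)
      rw [this, Nat.card_congr (AddSubgroup.topEquiv.toEquiv), Nat.card_zmod]
    rw [h2] at h1
    exact h1
  have hcard_AS : Nat.card κ ≤ Nat.card AS.range * p := by
    have h1 := AddSubgroup.card_mul_index AS.ker
    rw [AddSubgroup.index_ker] at h1
    have h2 : Nat.card AS.ker ≤ p := by
      -- the kernel consists of roots of `X^p - X`
      have : Fintype κ := Fintype.ofFinite κ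
      have hne : (Polynomial.X ^ p - Polynomial.X : Polynomial κ) ≠ 0 := by
        have := FiniteField.X_pow_card_pow_sub_X_ne_zero κ (n := 1) one_ne_zero hp.one_lt
        simpa using this
      have hdeg : (Polynomial.X ^ p - Polynomial.X : Polynomial κ).natDegree = p := by
        have := FiniteField.X_pow_card_pow_sub_X_natDegree_eq κ (n := 1) one_ne_zero hp.one_lt
        simpa using this
      have hsub : ((AS.ker : Set κ)).toFinset.val ≤
          (Polynomial.X ^ p - Polynomial.X : Polynomial κ).roots := by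
        refine (Multiset.le_iff_subset (Set.toFinset _).nodup).2 (fun b hb => ?_)
        rw [Polynomial.mem_roots hne]
        have hb' : b ∈ AS.ker := by simpa using hb
        rw [AddMonoidHom.mem_ker, hAS] at hb'
        simp [hb']
      calc Nat.card AS.ker = ((AS.ker : Set κ)).toFinset.card := by
            rw [← Set.ncard_eq_toFinset_card']; exact Nat.card_coe_set_eq _
        _ ≤ Multiset.card (Polynomial.X ^ p - Polynomial.X : Polynomial κ).roots :=
            Multiset.card_le_card hsub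
        _ ≤ (Polynomial.X ^ p - Polynomial.X : Polynomial κ).natDegree :=
            Polynomial.card_roots' _
        _ = p := hdeg
    calc Nat.card κ = Nat.card AS.ker * Nat.card AS.range := h1.symm
      _ ≤ p * Nat.card AS.range := Nat.mul_le_mul_right _ h2
      _ = Nat.card AS.range * p := mul_comm _ _
  have hcardle : Nat.card T.ker ≤ Nat.card AS.range := by
    have : Nat.card T.ker * p ≤ Nat.card AS.range * p := hcard_ker_tr ▸ hcard_AS
    exact Nat.le_of_mul_le_mul_right this hp.pos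
  have heq : AS.range = T.ker := by
    apply AddSubgroup.eq_of_le_of_card_ge hle hcardle
  have hxmem : x ∈ AS.range := by rw [heq]; exact hx
  obtain ⟨b, hb⟩ := hxmem
  exact ⟨b, hb⟩

end Trace

section Scal

variable {Δ : Type*} [Group Δ] (p : ℕ) [Fact p.Prime]

/-- `ZMod p` with `Δ` acting through the character `ω : Δ →* (ZMod p)ˣ`. -/
def ScalMod (_ω : Δ →* (ZMod p)ˣ) : Type := ZMod p

variable (ω : Δ →* (ZMod p)ˣ)

instance : AddCommGroup (ScalMod p ω) := inferInstanceAs (AddCommGroup (ZMod p))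

instance : Finite (ScalMod p ω) := inferInstanceAs (Finite (ZMod p))

/-- The identity `ZMod p → ScalMod p ω`. -/
def ScalMod.of : ZMod p ≃+ ScalMod p ω := AddEquiv.refl _

instance : DistribMulAction Δ (ScalMod p ω) where
  smul δ z := ScalMod.of p ω (((ω δ : (ZMod p)ˣ) : ZMod p) * (ScalMod.of p ω).symm z)
  one_smul z := by
    show ScalMod.of p ω (((ω 1 : (ZMod p)ˣ) : ZMod p) * (ScalMod.of p ω).symm z) = z
    rw [MonoidHom.map_one ω, Units.val_one, one_mul]; rfl
  mul_smul δ δ' z := by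
    show ScalMod.of p ω (((ω (δ * δ') : (ZMod p)ˣ) : ZMod p) * (ScalMod.of p ω).symm z) =
      ScalMod.of p ω (((ω δ : (ZMod p)ˣ) : ZMod p) * (ScalMod.of p ω).symm
        (ScalMod.of p ω (((ω δ' : (ZMod p)ˣ) : ZMod p) * (ScalMod.of p ω).symm z)))
    rw [MonoidHom.map_mul ω δ δ', Units.val_mul, AddEquiv.symm_apply_apply, mul_assoc]
  smul_zero δ := by
    show ScalMod.of p ω (((ω δ : (ZMod p)ˣ) : ZMod p) * (ScalMod.of p ω).symm 0) = 0
    rw [map_zero, mul_zero, map_zero]
  smul_add δ z z' := by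
    show ScalMod.of p ω (((ω δ : (ZMod p)ˣ) : ZMod p) * (ScalMod.of p ω).symm (z + z')) =
      ScalMod.of p ω (((ω δ : (ZMod p)ˣ) : ZMod p) * (ScalMod.of p ω).symm z) +
      ScalMod.of p ω (((ω δ : (ZMod p)ˣ) : ZMod p) * (ScalMod.of p ω).symm z')
    rw [map_add, mul_add, map_add]

theorem ScalMod.smul_of (δ : Δ) (z : ZMod p) :
    δ • ScalMod.of p ω z = ScalMod.of p ω (((ω δ : (ZMod p)ˣ) : ZMod p) * z) := rfl

/-- The multiplicity of the top piece: `1` if `ψ = ω` (as `k`-valued characters), else `0`. -/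
noncomputable def topMult {k : Type*} [Field k] (ψ : Δ →* kˣ) : ℕ :=
  open Classical in
  if ∀ δ : Δ, (ψ δ : k) = ((((ω δ : (ZMod p)ˣ) : ZMod p).val : ℕ) : k) then 1 else 0

theorem card_eqMaps_scalMod_le {k : Type*} [Field k] [Finite k] [CharP k p] (ψ : Δ →* kˣ) :
    Nat.card (EqMaps ψ (ScalMod p ω)) ≤ Nat.card k ^ topMult p ω ψ := by
  classical
  have hw : ∀ (δ : Δ) (y : ScalMod p ω),
      δ • y = (((ω δ : (ZMod p)ˣ) : ZMod p).val : ℕ) • y := by
    intro δ y
    show ScalMod.of p ω (((ω δ : (ZMod p)ˣ) : ZMod p) * (ScalMod.of p ω).symm y) = _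
    have : ((((ω δ : (ZMod p)ˣ) : ZMod p).val : ℕ) • y : ScalMod p ω) =
        ScalMod.of p ω (((((ω δ : (ZMod p)ˣ) : ZMod p).val : ℕ) : ZMod p) *
          (ScalMod.of p ω).symm y) := by
      rw [← nsmul_eq_mul]; rfl
    rw [this, ZMod.natCast_zmod_val]
  unfold topMult
  split_ifs with h
  · rw [pow_one]
    refine card_le_card_of_card_le p ?_
    show Nat.card (ZMod p) ≤ p
    rw [Nat.card_zmod]
  · push Not at h
    obtain ⟨δ₀, hδ₀⟩ := h
    rw [pow_zero]
    exact (card_eq_one_of_scalar (fun δ => (((ω δ : (ZMod p)ˣ) : ZMod p).val : ℕ)) hw δ₀ hδ₀).le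

end Scal

section Top

attribute [local instance] Units.mulDistribMulActionRight

variable {O : Type*} [CommRing O] [IsDomain O] [IsDiscreteValuationRing O]
  [Finite (ResidueField O)]
variable {Δ : Type*} [Group Δ] [MulSemiringAction Δ O]
variable {p : ℕ} [Fact p.Prime] [CharP (ResidueField O) p] {e₁ : ℕ} (he₁ : 1 ≤ e₁)
  (hpe : Ideal.span {(p : O)} = maximalIdeal O ^ ((p - 1) * e₁))
  (ζ : O) (hζp : ζ ^ p = 1) (hζ : Ideal.span {ζ - 1} = maximalIdeal O ^ e₁)
  (ω : Δ →* (ZMod p)ˣ) (hω : ∀ δ : Δ, δ • ζ = ζ ^ ((ω δ : (ZMod p)ˣ) : ZMod p).val)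

/-- The map `U^{(N)} → 𝔽_p(ω)`, `u ↦ Tr ((u - 1)/(ζ-1)^p mod 𝔪)`. -/
noncomputable def fTop (u : Oˣ) : ScalMod p ω :=
  ScalMod.of p ω (trP p (leadBy ((ζ - 1) ^ p) u))

include hζ in
theorem span_pow_eq : Ideal.span {(ζ - 1) ^ p} = maximalIdeal O ^ (p * e₁) := by
  rw [← Ideal.span_singleton_pow, hζ, ← pow_mul, mul_comm]

include hζ in
theorem sub_one_mem : ζ - 1 ∈ maximalIdeal O ^ e₁ := hζ ▸ Ideal.mem_span_singleton_self _

include he₁ hζ in
theorem residue_zeta : residue O ζ = 1 := by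
  have h1 : ζ - 1 ∈ maximalIdeal O := by
    have := Ideal.pow_le_pow_right (I := maximalIdeal O) he₁ (sub_one_mem ζ hζ)
    rwa [pow_one] at this
  have := (residue_eq_zero_iff (ζ - 1)).2 h1
  rw [map_sub, map_one, sub_eq_zero] at this
  exact this

include he₁ hpe hζp hζ in
/-- The leading coefficient of `(1 + b (ζ-1))^p` at the top level is `b^p - b`. -/
theorem leadBy_pow_of_eq {y : Oˣ} {b : O} (hy : (y : O) = 1 + b * (ζ - 1)) :
    y ^ p ∈ unitFil O (p * e₁) ∧
      leadBy ((ζ - 1) ^ p) (y ^ p) = residue O b ^ p - residue O b := by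
  have hp : p.Prime := Fact.out
  have hg := span_pow_eq (p := p) ζ hζ
  have hye : y ∈ unitFil O e₁ := by
    rw [mem_unitFil, hy]
    have : 1 + b * (ζ - 1) - 1 = b * (ζ - 1) := by ring
    rw [this]
    exact Ideal.mul_mem_left _ _ (sub_one_mem ζ hζ)
  refine ⟨pow_mem_unitFil_top hp hpe hye, ?_⟩
  have hζ' : (1 + (ζ - 1)) ^ p = 1 := by
    have : 1 + (ζ - 1) = ζ := by ring
    rw [this, hζp]
  have h1 := one_add_mul_pow_sub_mem hp hpe he₁ (sub_one_mem ζ hζ) hζ' b
  -- `𝔪^(N+1) = (λ^p) * 𝔪`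
  rw [pow_succ, ← hg, Ideal.mem_span_singleton_mul] at h1
  obtain ⟨r, hr, hr'⟩ := h1
  have h2 : ((y ^ p : Oˣ) : O) - 1 = (ζ - 1) ^ p * ((b ^ p - b) + r) := by
    rw [Units.val_pow_eq_pow_val, hy, mul_add, hr']; ring
  rw [leadBy_of_eq hg h2, map_add, (residue_eq_zero_iff r).2 hr, add_zero, map_sub, map_pow]

include he₁ hζ in
theorem fTop_mul {a b : Oˣ} (ha : a ∈ unitFil O (p * e₁)) (hb : b ∈ unitFil O (p * e₁)) :
    fTop ζ ω (a * b) = fTop ζ ω a + fTop ζ ω b := by
  have hp : p.Prime := Fact.out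
  have hN : 1 ≤ p * e₁ := Nat.mul_pos hp.pos he₁
  unfold fTop
  rw [leadBy_mul (span_pow_eq (p := p) ζ hζ) hN ha hb, map_add, map_add]

include he₁ hpe hζp hζ in
/-- `fTop` kills the `p`-th powers in `U^{(N)}`. -/
theorem fTop_eq_zero_of_mem_range {a : Oˣ} (ha : a ∈ unitFil O (p * e₁))
    (haP : a ∈ (powMonoidHom p : Oˣ →* Oˣ).range) : fTop ζ ω a = 0 := by
  have hp : p.Prime := Fact.out
  obtain ⟨x, rfl⟩ := haP
  have hx : x ∈ unitFil O e₁ := mem_unitFil_of_pow_mem_top hp hpe he₁ ha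
  rw [mem_unitFil, ← hζ, Ideal.mem_span_singleton] at hx
  obtain ⟨b, hb⟩ := hx
  have hxb : (x : O) = 1 + b * (ζ - 1) := by
    have : (x : O) = 1 + ((x : O) - 1) := by ring
    rw [this, hb]; ring
  have := (leadBy_pow_of_eq he₁ hpe ζ hζp hζ hxb).2
  unfold fTop
  show ScalMod.of p ω (trP p (leadBy ((ζ - 1) ^ p) (x ^ p))) = 0
  rw [this, map_sub, trP_pow, sub_self, map_zero]

include he₁ hpe hζp hζ in
/-- The kernel of `fTop` on `U^{(N)}` is contained in `U^{(N+1)} · (Oˣ)^p`. -/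
theorem exists_of_fTop_eq_zero {a : Oˣ} (ha : a ∈ unitFil O (p * e₁))
    (h0 : fTop ζ ω a = 0) :
    ∃ h' ∈ unitFil O (p * e₁ + 1), ∃ n ∈ (powMonoidHom p : Oˣ →* Oˣ).range, a = h' * n := by
  have hp : p.Prime := Fact.out
  have hN : 1 ≤ p * e₁ := Nat.mul_pos hp.pos he₁
  have hg := span_pow_eq (p := p) ζ hζ
  have htr : trP p (leadBy ((ζ - 1) ^ p) a) = 0 := (ScalMod.of p ω).injective (by
    rw [map_zero]; exact h0)
  obtain ⟨b', hb'⟩ := exists_pow_sub_of_trP_eq_zero p htr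
  obtain ⟨b, rfl⟩ := residue_surjective b'
  have hbl : b * (ζ - 1) ∈ maximalIdeal O ^ e₁ := Ideal.mul_mem_left _ _ (sub_one_mem ζ hζ)
  have hbl1 : b * (ζ - 1) ∈ maximalIdeal O := by
    have := Ideal.pow_le_pow_right (I := maximalIdeal O) he₁ hbl
    rwa [pow_one] at this
  set y := oneAddUnit (b * (ζ - 1)) hbl1 with hy
  obtain ⟨hyN, hylead⟩ := leadBy_pow_of_eq he₁ hpe ζ hζp hζ (y := y) (b := b)
    (coe_oneAddUnit _ _)
  refine ⟨a / y ^ p, ?_, y ^ p, ⟨y, rfl⟩, by rw [div_mul_cancel]⟩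
  have hdiv : a / y ^ p ∈ unitFil O (p * e₁) := (unitFil O (p * e₁)).div_mem ha hyN
  rw [← leadBy_eq_zero_iff hg hdiv]
  have hmul := leadBy_mul hg hN hdiv hyN
  rw [div_mul_cancel, hylead, hb'] at hmul
  exact (add_eq_right.1 hmul.symm)

include he₁ hζ hω in
/-- `fTop` is equivariant: `Δ` acts on the top piece through `ω`. -/
theorem fTop_smul (δ : Δ) {a : Oˣ} (ha : a ∈ unitFil O (p * e₁)) :
    fTop ζ ω (δ • a) = δ • fTop ζ ω a := by
  have hp : p.Prime := Fact.out
  have hg := span_pow_eq (p := p) ζ hζ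
  set w := ((ω δ : (ZMod p)ˣ) : ZMod p).val with hw
  -- `δ λ = λ * η`, `η = ∑_{l<w} ζ^l`
  have hη : δ • (ζ - 1) = (ζ - 1) * ∑ l ∈ Finset.range w, ζ ^ l := by
    rw [smul_sub, smul_one, hω δ, mul_comm, geom_sum_mul]
  have hε : δ • (ζ - 1) ^ p = (ζ - 1) ^ p * (∑ l ∈ Finset.range w, ζ ^ l) ^ p := by
    rw [smul_pow', hη, mul_pow]
  have hres : residue O ((∑ l ∈ Finset.range w, ζ ^ l) ^ p) = (w : ResidueField O) := by
    rw [map_pow, map_sum]
    simp only [map_pow, residue_zeta he₁ ζ hζ, one_pow, Finset.sum_const, Finset.card_range,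
      nsmul_eq_mul, mul_one]
    rw [← frobenius_def, map_natCast]
  unfold fTop
  rw [leadBy_smul hg δ hε ha, hres, trP_natCast_mul, ScalMod.smul_of]
  congr 1
  rw [hw, ZMod.natCast_zmod_val]
  congr 1
  exact trP_ringEquiv p (MulSemiringAction.toRingEquiv Δ (ResidueField O) δ) _

end Top

end Fermat.Agent.S56.Flat.TameCount.TopPiece
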