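/-
S56, block F (FLAT), leaf [FL-C] "tame multiplicities", Phase 1, file 7/8: THE MAIN BOUND.

Setting: `O` a complete discrete valuation ring with finite residue field `κ` of characteristic `p`,
`(p) = 𝔪^((p-1)e₁)`, `ζ ∈ O` with `ζ^p = 1`, `(ζ - 1) = 𝔪^e₁`; a finite group `Δ` acting on `O` by
ring automorphisms, `ω : Δ →* (ZMod p)ˣ` the cyclotomic character (`δ ζ = ζ^ω(δ)`); `ϖ` a
uniformizer, `θ = tameCocycle ϖ : Δ → κˣ` (`θ δ = δϖ/ϖ mod 𝔪`); `k ⊇ κ` (via `ι`) a finite field,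
`ψ : Δ →* kˣ`; `f₀` with `κ^Δ ⊆ 𝔽_{p^f₀}`.

`UnitQuot O Δ p a = U^{(a)}/(U^{(a)} ∩ (Oˣ)^p)` (additive `Δ`-module).  For `1 ≤ a ≤ p e₁`:

  `|EqMaps ψ (UnitQuot O Δ p a)| ≤ |k| ^ (∑_{a ≤ j < p e₁, p ∤ j} mult j + [ψ = ω])`,
  `mult j = #{s < f₀ | ψ|_I ^ (p^s) = ι ∘ θ^j|_I}`   (`I` = the elements acting trivially on `κ`).

(`card_eqMaps_unitQuot_le`; `card_eqMaps_unitQuot_le_ext` for a coefficient field `k` NOT containing
`κ`, via an auxiliary extension `k' ⊇ k, κ`; `card_eqMaps_le_of_cls` transfers the bound to any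
`Δ`-module `Y` presented as `cls : U^{(a)} ↠ Y` with kernel the `p`-th powers.)
-/
import Mathlib
import Fermat.Agent.S56.Flat.TameCount.TopPiece

set_option autoImplicit false
set_option linter.unusedSectionVars false

namespace Fermat.Agent.S56.Flat.TameCount.Main

open IsLocalRing Fermat.Agent.S55.Local
open Fermat.Agent.S56.Flat.TameCount.MultSet Fermat.Agent.S56.Flat.TameCount.StableQuot
open Fermat.Agent.S56.Flat.TameCount.UnitGraded Fermat.Agent.S56.Flat.TameCount.UnitLevels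
open Fermat.Agent.S56.Flat.TameCount.TwistedField Fermat.Agent.S56.Flat.TameCount.TopPiece

attribute [local instance] Units.mulDistribMulActionRight

variable {O : Type*} [CommRing O] [IsDomain O] [IsDiscreteValuationRing O]
variable {Δ : Type*} [Group Δ] [MulSemiringAction Δ O]

/-- `U^{(a)} / (U^{(a)} ∩ (Oˣ)^p)` as an additive `Δ`-module
(`= U_F^{(a)} F^{×p}/F^{×p}`, `F = Frac O`). -/
abbrev UnitQuot (O : Type*) [CommRing O] [IsDomain O] [IsDiscreteValuationRing O]
    (Δ : Type*) [Group Δ] [MulSemiringAction Δ O] (p a : ℕ) : Type _ :=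
  QuotMod (Δ := Δ) (unitFil O a) (powMonoidHom p : Oˣ →* Oˣ).range (isStable_unitFil a)
    (isStable_powRange p)

section Mult

variable (p : ℕ) {k : Type*} [Field k] (ι : ResidueField O →+* k)
  (θ : TameCocycle Δ (ResidueField O)) (ψ : Δ →* kˣ) (f₀ : ℕ)

/-- The multiplicity bound of level `j`: the number of Frobenius twists `s < f₀` with
`ψ|_I ^ (p^s) = ι ∘ θ^j|_I`. -/
noncomputable def mult (j : ℕ) : ℕ :=
  open Classical in
  ((Finset.range f₀).filter (fun s =>
    ∀ i : {i : Δ // ∀ x : ResidueField O, i • x = x}, (ψ i.1 : k) ^ p ^ s = ι (θ.pow j i.1))).card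

/-- The total exponent for `U^{(a)}`: levels `a ≤ j < N`, `p ∤ j`, plus the top piece. -/
noncomputable def totalMult [Fact p.Prime] (ω : Δ →* (ZMod p)ˣ) (N a : ℕ) : ℕ :=
  ∑ j ∈ (Finset.Ico a N).filter (fun j => ¬ p ∣ j), mult p ι θ ψ f₀ j + topMult p ω ψ

theorem totalMult_of_not_dvd [Fact p.Prime] (ω : Δ →* (ZMod p)ˣ) {N a : ℕ} (haN : a < N)
    (hpa : ¬ p ∣ a) :
    totalMult p ι θ ψ f₀ ω N a = mult p ι θ ψ f₀ a + totalMult p ι θ ψ f₀ ω N (a + 1) := by
  unfold totalMult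
  rw [← Finset.insert_Ico_add_one_left_eq_Ico haN, Finset.filter_insert, if_pos hpa,
    Finset.sum_insert (by simp), add_assoc]

theorem totalMult_of_dvd [Fact p.Prime] (ω : Δ →* (ZMod p)ˣ) {N a : ℕ} (haN : a < N)
    (hpa : p ∣ a) : totalMult p ι θ ψ f₀ ω N a = totalMult p ι θ ψ f₀ ω N (a + 1) := by
  unfold totalMult
  rw [← Finset.insert_Ico_add_one_left_eq_Ico haN, Finset.filter_insert, if_neg (not_not.2 hpa)]

end Mult

section Bound

variable [IsAdicComplete (maximalIdeal O) O] [Finite (ResidueField O)] [Finite Δ]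
variable {p : ℕ} [Fact p.Prime] {e₁ : ℕ} (he₁ : 1 ≤ e₁)
  (hpe : Ideal.span {(p : O)} = maximalIdeal O ^ ((p - 1) * e₁))
  (ζ : O) (hζp : ζ ^ p = 1) (hζ : Ideal.span {ζ - 1} = maximalIdeal O ^ e₁)
  (ω : Δ →* (ZMod p)ˣ) (hω : ∀ δ : Δ, δ • ζ = ζ ^ ((ω δ : (ZMod p)ˣ) : ZMod p).val)
  (ϖ : O) (hϖ : Irreducible ϖ)
variable {k : Type*} [Field k] [Finite k] [CharP k p] (ψ : Δ →* kˣ)
  (ι : ResidueField O →+* k) (f₀ : ℕ) (hf₀ : 0 < f₀)
  (hfix : ∀ x : ResidueField O, (∀ δ : Δ, δ • x = x) → x ^ p ^ f₀ = x)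

include he₁ hpe in
theorem charP_residueField : CharP (ResidueField O) p := by
  have hp : p.Prime := Fact.out
  refine (CharP.charP_iff_prime_eq_zero hp).mpr ?_
  have := (residue_eq_zero_iff (p : O)).mpr (natCast_mem_maximalIdeal hp hpe he₁)
  simpa using this

include he₁ hpe hζp hζ hω hϖ hf₀ hfix in
/-- **The filtration argument** (downward induction on the level `a = N - n`). -/
theorem finite_and_card_le (n : ℕ) (hn : n < p * e₁) :
    Finite (UnitQuot O Δ p (p * e₁ - n)) ∧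
      Nat.card (EqMaps ψ (UnitQuot O Δ p (p * e₁ - n))) ≤
        Nat.card k ^ totalMult p ι (tameCocycle ϖ hϖ) ψ f₀ ω (p * e₁) (p * e₁ - n) := by
  have hp : p.Prime := Fact.out
  have hchar : CharP (ResidueField O) p := charP_residueField he₁ hpe
  induction n with
  | zero =>
    rw [Nat.sub_zero]
    -- `U^{(N+1)} ⊆ (Oˣ)^p`
    have hle : unitFil O (p * e₁ + 1) ≤ (powMonoidHom p : Oˣ →* Oˣ).range := by
      intro u hu
      obtain ⟨x, hx⟩ := mem_range_pow_of_mem_unitFil hp hpe hu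
      exact ⟨x, hx⟩
    have hsub : Subsingleton (UnitQuot O Δ p (p * e₁ + 1)) :=
      QuotMod.subsingleton_of_le _ _ hle
    have hfin' : Finite (UnitQuot O Δ p (p * e₁ + 1)) := Finite.of_subsingleton
    have hmono : unitFil O (p * e₁ + 1) ≤ unitFil O (p * e₁) := unitFil_antitone (Nat.le_succ _)
    have hfin : Finite (UnitQuot O Δ p (p * e₁)) :=
      finite_of_step (isStable_unitFil _) (isStable_unitFil _) (isStable_powRange p) hmono
        (fTop ζ ω) (fun a ha b hb => fTop_mul he₁ ζ hζ ω ha hb)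
        (fun a ha haP => fTop_eq_zero_of_mem_range he₁ hpe ζ hζp hζ ω ha haP)
        (fun a ha h0 => exists_of_fTop_eq_zero he₁ hpe ζ hζp hζ ω ha h0)
    refine ⟨hfin, ?_⟩
    have hstep := card_eqMaps_le_mul (ψ := ψ) (isStable_unitFil _) (isStable_unitFil _)
      (isStable_powRange p) hmono
      (fTop ζ ω) (fun a ha b hb => fTop_mul he₁ ζ hζ ω ha hb)
      (fun a ha haP => fTop_eq_zero_of_mem_range he₁ hpe ζ hζp hζ ω ha haP)
      (fun δ a ha => fTop_smul he₁ ζ hζ ω hω δ ha)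
      (fun a ha h0 => exists_of_fTop_eq_zero he₁ hpe ζ hζp hζ ω ha h0)
    have h1 : Nat.card (EqMaps ψ (UnitQuot O Δ p (p * e₁ + 1))) = 1 :=
      card_eq_one_of_subsingleton
    rw [h1, one_mul] at hstep
    have htot : totalMult p ι (tameCocycle ϖ hϖ) ψ f₀ ω (p * e₁) (p * e₁) = topMult p ω ψ := by
      unfold totalMult
      rw [Finset.Ico_self, Finset.filter_empty, Finset.sum_empty, zero_add]
    rw [htot]
    exact le_trans hstep (card_eqMaps_scalMod_le p ω ψ)
  | succ n ih =>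
    obtain ⟨hfin', hcard'⟩ := ih (by omega)
    set a := p * e₁ - (n + 1) with ha
    have ha1 : 1 ≤ a := by omega
    have haN : a < p * e₁ := by omega
    have hsucc : p * e₁ - n = a + 1 := by omega
    rw [hsucc] at hfin' hcard'
    have hmono : unitFil O (a + 1) ≤ unitFil O a := unitFil_antitone (Nat.le_succ _)
    by_cases hpa : p ∣ a
    · -- level divisible by `p`: `U^{(a)} = U^{(a+1)} · (p-th powers)`
      obtain ⟨m, hm⟩ := hpa
      have hm1 : 1 ≤ m := by
        rcases Nat.eq_zero_or_pos m with h | h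
        · subst h; omega
        · exact h
      have hme : m < e₁ := by
        have : p * m < p * e₁ := hm ▸ haN
        exact Nat.lt_of_mul_lt_mul_left this
      have hker : ∀ u ∈ unitFil O a, (0 : PUnit.{1}) = 0 →
          ∃ h' ∈ unitFil O (a + 1), ∃ n ∈ (powMonoidHom p : Oˣ →* Oˣ).range, u = h' * n := by
        intro u hu _
        rw [hm] at hu
        obtain ⟨y, _, hy⟩ := exists_div_pow_mem_succ hp hpe hm1 hme hu
        refine ⟨u / y ^ p, by rw [hm]; exact hy, y ^ p, ⟨y, rfl⟩, by rw [div_mul_cancel]⟩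
      have hfin : Finite (UnitQuot O Δ p a) :=
        finite_of_step (Z := PUnit.{1}) (isStable_unitFil _) (isStable_unitFil _)
          (isStable_powRange p) hmono (fun _ => 0) (fun _ _ _ _ => (add_zero _).symm)
          (fun _ _ _ => rfl) hker
      refine ⟨hfin, ?_⟩
      have hstep := card_eqMaps_le_mul (ψ := ψ) (Z := PUnit.{1}) (isStable_unitFil _)
        (isStable_unitFil _) (isStable_powRange p) hmono (fun _ => 0)
        (fun _ _ _ _ => (add_zero _).symm) (fun _ _ _ => rfl) (fun _ _ _ => (smul_zero _).symm)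
        hker
      rw [card_eq_one_of_subsingleton (Y := PUnit.{1}), mul_one] at hstep
      rw [totalMult_of_dvd p ι _ ψ f₀ ω haN ⟨m, hm⟩]
      exact le_trans hstep hcard'
    · -- level prime to `p`: the graded piece is `κ(θ^a)`
      have hg : Ideal.span {ϖ ^ a} = maximalIdeal O ^ a := by
        rw [← Ideal.span_singleton_pow, ← hϖ.maximalIdeal_eq]
      let θ := (tameCocycle (Δ := Δ) ϖ hϖ).pow a
      let f : Oˣ → Twist θ := fun u => Twist.of θ (leadBy (ϖ ^ a) u)
      have hf_mul : ∀ u ∈ unitFil O a, ∀ v ∈ unitFil O a, f (u * v) = f u + f v := by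
        intro u hu v hv
        show Twist.of θ (leadBy (ϖ ^ a) (u * v)) = _
        rw [leadBy_mul hg ha1 hu hv, map_add]
      have hfN : ∀ u ∈ unitFil O a, u ∈ (powMonoidHom p : Oˣ →* Oˣ).range → f u = 0 := by
        rintro u hu ⟨x, rfl⟩
        have hu' : x ^ p ∈ unitFil O a := hu
        have hx : x ^ p ∈ unitFil O (a + 1) :=
          pow_mem_unitFil_succ hp hpe he₁ ha1 haN hpa hu'
        show Twist.of θ (leadBy (ϖ ^ a) (x ^ p)) = 0
        rw [(leadBy_eq_zero_iff hg hu').2 hx, map_zero]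
      have hf_eq : ∀ (δ : Δ), ∀ u ∈ unitFil O a, f (δ • u) = δ • f u := by
        intro δ u hu
        show Twist.of θ (leadBy (ϖ ^ a) (δ • u)) = δ • Twist.of θ (leadBy (ϖ ^ a) u)
        rw [leadBy_smul hg δ (smul_uniformizer_pow ϖ hϖ δ a) hu, Twist.smul_def]
        congr 1
      have hker : ∀ u ∈ unitFil O a, f u = 0 →
          ∃ h' ∈ unitFil O (a + 1), ∃ n ∈ (powMonoidHom p : Oˣ →* Oˣ).range, u = h' * n := by
        intro u hu h0
        have h0' : leadBy (ϖ ^ a) u = 0 := (Twist.of θ).injective (by rw [map_zero]; exact h0)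
        exact ⟨u, (leadBy_eq_zero_iff hg hu).1 h0', 1, one_mem _, (mul_one u).symm⟩
      have hfin : Finite (UnitQuot O Δ p a) :=
        finite_of_step (isStable_unitFil _) (isStable_unitFil _) (isStable_powRange p) hmono
          f hf_mul hfN hker
      refine ⟨hfin, ?_⟩
      have hstep := card_eqMaps_le_mul (ψ := ψ) (isStable_unitFil _) (isStable_unitFil _)
        (isStable_powRange p) hmono f hf_mul hfN hf_eq hker
      have htw := card_eqMaps_twist_le (Δ := Δ) p ι θ ψ f₀ hf₀ hfix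
      rw [totalMult_of_not_dvd p ι _ ψ f₀ ω haN hpa, pow_add, mul_comm]
      exact le_trans hstep (Nat.mul_le_mul hcard' htw)

end Bound

section Final

variable [IsAdicComplete (maximalIdeal O) O] [Finite (ResidueField O)] [Finite Δ]
variable {p : ℕ} [Fact p.Prime] {e₁ : ℕ} (he₁ : 1 ≤ e₁)
  (hpe : Ideal.span {(p : O)} = maximalIdeal O ^ ((p - 1) * e₁))
  (ζ : O) (hζp : ζ ^ p = 1) (hζ : Ideal.span {ζ - 1} = maximalIdeal O ^ e₁)
  (ω : Δ →* (ZMod p)ˣ) (hω : ∀ δ : Δ, δ • ζ = ζ ^ ((ω δ : (ZMod p)ˣ) : ZMod p).val)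
  (ϖ : O) (hϖ : Irreducible ϖ)

include he₁ hpe hζp hζ hω in
/-- `U^{(a)}/(U^{(a)} ∩ (Oˣ)^p)` is finite (`1 ≤ a ≤ p e₁`). -/
theorem finite_unitQuot {a : ℕ} (ha1 : 1 ≤ a) (haN : a ≤ p * e₁) :
    Finite (UnitQuot O Δ p a) := by
  have hp : p.Prime := Fact.out
  have hchar : CharP (ResidueField O) p := charP_residueField he₁ hpe
  obtain ⟨ϖ, hϖ⟩ := IsDiscreteValuationRing.exists_irreducible O
  have := Fintype.ofFinite (ResidueField O)
  obtain ⟨n, _, hn⟩ := FiniteField.card (ResidueField O) p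
  have hfix : ∀ x : ResidueField O, (∀ δ : Δ, δ • x = x) → x ^ p ^ (n : ℕ) = x := by
    intro x _
    rw [← hn]
    exact FiniteField.pow_card x
  have := (finite_and_card_le he₁ hpe ζ hζp hζ ω hω ϖ hϖ (1 : Δ →* (ResidueField O)ˣ)
    (RingHom.id _) (n : ℕ) n.pos hfix (p * e₁ - a) (by omega)).1
  rwa [Nat.sub_sub_self haN] at this

variable {k : Type*} [Field k] [Finite k] [CharP k p] (ψ : Δ →* kˣ) (f₀ : ℕ) (hf₀ : 0 < f₀)
  (hfix : ∀ x : ResidueField O, (∀ δ : Δ, δ • x = x) → x ^ p ^ f₀ = x)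

include he₁ hpe hζp hζ hω hf₀ hfix in
/-- **MAIN BOUND** (coefficient field `k ⊇ κ` via `ι`). -/
theorem card_eqMaps_unitQuot_le (ι : ResidueField O →+* k) {a : ℕ} (ha1 : 1 ≤ a)
    (haN : a ≤ p * e₁) :
    Nat.card (EqMaps ψ (UnitQuot O Δ p a)) ≤
      Nat.card k ^ totalMult p ι (tameCocycle ϖ hϖ) ψ f₀ ω (p * e₁) a := by
  have := (finite_and_card_le he₁ hpe ζ hζp hζ ω hω ϖ hϖ ψ ι f₀ hf₀ hfix (p * e₁ - a)
    (by omega)).2
  rwa [Nat.sub_sub_self haN] at this

include he₁ hpe hζp hζ hω hf₀ hfix in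
/-- **MAIN BOUND**, arbitrary finite coefficient field `k` of characteristic `p`: the multiplicities
are computed in any finite extension `k'` of `k` that receives `κ`. -/
theorem card_eqMaps_unitQuot_le_ext {k' : Type*} [Field k'] [Finite k'] [Algebra k k']
    (ι : ResidueField O →+* k') {a : ℕ} (ha1 : 1 ≤ a) (haN : a ≤ p * e₁) :
    Nat.card (EqMaps ψ (UnitQuot O Δ p a)) ≤
      Nat.card k ^ totalMult p ι (tameCocycle ϖ hϖ) (extChar k' ψ) f₀ ω (p * e₁) a := by
  have : CharP k' p := charP_of_injective_algebraMap (algebraMap k k').injective p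
  have := finite_unitQuot (Δ := Δ) he₁ hpe ζ hζp hζ ω hω ha1 haN
  have : FiniteDimensional k k' := Module.Finite.of_finite
  exact card_le_pow_of_extChar k' _
    (card_eqMaps_unitQuot_le he₁ hpe ζ hζp hζ ω hω ϖ hϖ (extChar k' ψ) f₀ hf₀ hfix ι ha1 haN)

end Final

section Transfer

variable {p a : ℕ} {Y : Type*} [AddCommGroup Y] [DistribMulAction Δ Y]
variable {k : Type*} [Field k] [Finite k] (ψ : Δ →* kˣ)

/-- **Transfer to an abstractly presented module**: if `cls : U^{(a)} → Y` is additive,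
`Δ`-equivariant, surjective, and `cls u = 0 ↔ u` is a `p`-th power in `Oˣ`, then `Y ≃ UnitQuot`
equivariantly; in particular `|EqMaps ψ Y| ≤ |EqMaps ψ (UnitQuot O Δ p a)|`. -/
theorem card_eqMaps_le_of_cls [Finite (UnitQuot O Δ p a)] (cls : Oˣ → Y)
    (hmul : ∀ u ∈ unitFil O a, ∀ v ∈ unitFil O a, cls (u * v) = cls u + cls v)
    (heq : ∀ (δ : Δ), ∀ u ∈ unitFil O a, cls (δ • u) = δ • cls u)
    (hsurj : ∀ y : Y, ∃ u ∈ unitFil O a, cls u = y)
    (hker : ∀ u ∈ unitFil O a, cls u = 0 ↔ ∃ z : Oˣ, z ^ p = u) :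
    Finite Y ∧ Nat.card (EqMaps ψ Y) ≤ Nat.card (EqMaps ψ (UnitQuot O Δ p a)) := by
  have hfN : ∀ u ∈ unitFil O a, u ∈ (powMonoidHom p : Oˣ →* Oˣ).range → cls u = 0 := by
    rintro u hu ⟨z, hz⟩
    exact (hker u hu).2 ⟨z, hz⟩
  have hkerN : ∀ u ∈ unitFil O a, cls u = 0 → u ∈ (powMonoidHom p : Oˣ →* Oˣ).range := by
    intro u hu h0
    obtain ⟨z, hz⟩ := (hker u hu).1 h0
    exact ⟨z, hz⟩
  let L : UnitQuot O Δ p a →+ Y :=
    QuotMod.lift (isStable_unitFil a) (isStable_powRange p) cls hmul hfN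
  have hLinj : Function.Injective L :=
    lift_injective (isStable_unitFil a) (isStable_powRange p) cls hmul hfN hkerN
  have hLsurj : Function.Surjective L := by
    intro y
    obtain ⟨u, hu, rfl⟩ := hsurj y
    exact ⟨QuotMod.mk _ _ ⟨u, hu⟩, rfl⟩
  have hLeq : ∀ (δ : Δ) (y : UnitQuot O Δ p a), L (δ • y) = δ • L y :=
    QuotMod.lift_smul (isStable_unitFil a) (isStable_powRange p) cls hmul hfN heq
  let E : UnitQuot O Δ p a ≃+ Y := AddEquiv.ofBijective L ⟨hLinj, hLsurj⟩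
  have hfinY : Finite Y := Finite.of_surjective L hLsurj
  refine ⟨hfinY, ?_⟩
  refine card_le_of_injective (E.symm : Y →+ UnitQuot O Δ p a) ?_ E.symm.injective
  intro δ y
  apply E.injective
  show E (E.symm (δ • y)) = L (δ • E.symm y)
  rw [hLeq, E.apply_symm_apply]
  show δ • y = δ • E (E.symm y)
  rw [E.apply_symm_apply]

end Transfer

end Fermat.Agent.S56.Flat.TameCount.Main
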