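/-
S56, block F (FLAT), leaf [FL-C] "tame multiplicities", Phase 1, file 8/8: THE TWO COROLLARIES
(`ι`-free, ANY finite coefficient field `k` of characteristic `p`).

Setting of `Main.lean` (`O` complete DVR, finite residue field `κ`, `(p) = 𝔪^((p-1)e₁)`,
`(ζ-1) = 𝔪^e₁`, finite group `Δ` acting on `O`, `ω` cyclotomic, `θ = tameCocycle ϖ`), and in
addition `hcomm : ∀ δ δ' x, δ • δ' • x = δ' • δ • x` (`Δ` acts through a commutative quotient), so
that `θ(i) ∈ κ^Δ` for `i` in the inertia subgroup `I = {i | ∀ x : κ, i • x = x}`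
(`smul_tameCocycle_eq`, `tameCocycle_pow_eq_one`).

* `card_eqMaps_le_of_base` (COR A; `K = ℚ_p`: `e₁ = 1`, `κ^Δ ⊆ 𝔽_p`):
  `|EqMaps ψ (U^{(p-1)}/p-th powers)| ≤ |k| ^ ([ψ|_I = 1] + [ψ = ω])`;
* `card_eqMaps_le_of_quadratic` (COR B; `K` unramified quadratic, `p` odd: `κ^Δ ⊆ 𝔽_{p²}`, `θ|_I` of
  exact exponent `e_F = (p-1)e₁`): `ψ|_I ≠ 1`, `ψ ≠ ω` ⟹ `|EqMaps ψ (U^{(e_F)}/p-th powers)| ≤ |k|`;
* `pair_unique` : the arithmetic of (A2) (two solutions `(j,0)`, `(j',1)` force `j = j' = e_F`);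
* `exists_common_extension` : two finite fields of characteristic `p` embed in a common one.
-/
import Mathlib
import Fermat.Agent.S56.Flat.TameCount.Main

set_option autoImplicit false
set_option linter.unusedSectionVars false

namespace Fermat.Agent.S56.Flat.TameCount.Arith

open IsLocalRing Fermat.Agent.S55.Local
open Fermat.Agent.S56.Flat.TameCount.MultSet Fermat.Agent.S56.Flat.TameCount.StableQuot
open Fermat.Agent.S56.Flat.TameCount.UnitGraded Fermat.Agent.S56.Flat.TameCount.UnitLevels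
open Fermat.Agent.S56.Flat.TameCount.TwistedField Fermat.Agent.S56.Flat.TameCount.TopPiece
open Fermat.Agent.S56.Flat.TameCount.Main

attribute [local instance] Units.mulDistribMulActionRight

variable {O : Type*} [CommRing O] [IsDomain O] [IsDiscreteValuationRing O]
variable {Δ : Type*} [Group Δ] [MulSemiringAction Δ O]

section Tame

variable (hcomm : ∀ (δ δ' : Δ) (x : O), δ • δ' • x = δ' • δ • x) (ϖ : O) (hϖ : Irreducible ϖ)

include hcomm in
theorem tameUnit_comm (δ δ' : Δ) : tameUnit ϖ hϖ (δ * δ') = tameUnit ϖ hϖ (δ' * δ) := by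
  have h1 := smul_uniformizer ϖ hϖ (δ * δ')
  have h2 := smul_uniformizer ϖ hϖ (δ' * δ)
  rw [mul_smul, hcomm, ← mul_smul, h2] at h1
  exact (mul_left_cancel₀ hϖ.ne_zero h1).symm

include hcomm in
/-- For `i` in the inertia subgroup, `θ i` is fixed by all of `Δ` (if `Δ` acts commutatively). -/
theorem smul_tameCocycle_eq {i : Δ} (hi : ∀ x : ResidueField O, i • x = x) (δ : Δ) :
    δ • (tameCocycle ϖ hϖ i) = tameCocycle ϖ hϖ i := by
  have h1 : tameCocycle ϖ hϖ (δ * i) = tameCocycle ϖ hϖ (i * δ) := by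
    simp only [tameCocycle_apply, tameUnit_comm hcomm ϖ hϖ δ i]
  rw [(tameCocycle ϖ hϖ).map_mul, (tameCocycle ϖ hϖ).map_mul, hi, mul_comm] at h1
  exact mul_right_cancel₀ ((tameCocycle ϖ hϖ).ne_zero δ) h1

include hcomm in
/-- `θ(i)^(p^f₀ - 1) = 1` for `i` in the inertia subgroup, if `κ^Δ ⊆ 𝔽_{p^f₀}`. -/
theorem tameCocycle_pow_eq_one {p f₀ : ℕ} (hp : 1 < p)
    (hfix : ∀ x : ResidueField O, (∀ δ : Δ, δ • x = x) → x ^ p ^ f₀ = x)
    {i : Δ} (hi : ∀ x : ResidueField O, i • x = x) :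
    tameCocycle ϖ hϖ i ^ (p ^ f₀ - 1) = 1 := by
  have h1 := hfix _ (smul_tameCocycle_eq hcomm ϖ hϖ hi)
  have h0 := (tameCocycle ϖ hϖ).ne_zero i
  have hpos : 1 ≤ p ^ f₀ := Nat.one_le_pow _ _ (by omega)
  have h2 : tameCocycle ϖ hϖ i ^ (p ^ f₀ - 1) * tameCocycle ϖ hϖ i = 1 * tameCocycle ϖ hϖ i := by
    rw [← pow_succ, Nat.sub_add_cancel hpos, one_mul, h1]
  exact mul_right_cancel₀ h0 h2

end Tame

section Ext

/-- Two finite fields of characteristic `p` embed into a common finite field. -/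
theorem exists_common_extension (p : ℕ) [Fact p.Prime] (k κ : Type*) [Field k] [Finite k]
    [CharP k p] [Field κ] [Finite κ] [CharP κ p] :
    ∃ (k' : Type) (_ : Field k') (_ : Finite k') (_ : Algebra k k'), Nonempty (κ →+* k') := by
  let _ := ZMod.algebra k p
  let _ := ZMod.algebra κ p
  let a := Module.finrank (ZMod p) k
  let b := Module.finrank (ZMod p) κ
  have ha : 0 < a := Module.finrank_pos
  have hb : 0 < b := Module.finrank_pos
  have hab : a * b ≠ 0 := (Nat.mul_pos ha hb).ne'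
  have hfr : Module.finrank (ZMod p) (GaloisField p (a * b)) = a * b := GaloisField.finrank p hab
  have : Finite (GaloisField p (a * b)) := by
    apply Nat.finite_of_card_ne_zero
    rw [GaloisField.card p (a * b) hab]
    exact pow_ne_zero _ (Fact.out : p.Prime).ne_zero
  obtain ⟨f⟩ := FiniteField.nonempty_algHom_of_finrank_dvd (F := ZMod p) (K := k)
    (L := GaloisField p (a * b)) (by rw [hfr]; exact dvd_mul_right a b)
  obtain ⟨g⟩ := FiniteField.nonempty_algHom_of_finrank_dvd (F := ZMod p) (K := κ)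
    (L := GaloisField p (a * b)) (by rw [hfr]; exact dvd_mul_left b a)
  exact ⟨GaloisField p (a * b), inferInstance, inferInstance, f.toRingHom.toAlgebra,
    ⟨g.toRingHom⟩⟩

end Ext

section CorA

variable [IsAdicComplete (maximalIdeal O) O] [Finite (ResidueField O)] [Finite Δ]
variable {p : ℕ} [Fact p.Prime]

theorem topMult_extChar_le (ω : Δ →* (ZMod p)ˣ) {k : Type*} [Field k] (ψ : Δ →* kˣ)
    (k' : Type*) [Field k'] [Algebra k k'] :
    topMult p ω (extChar k' ψ) ≤ topMult p ω ψ := by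
  unfold topMult
  split_ifs with h1 h2
  · exact le_rfl
  · exfalso
    apply h2
    intro δ
    have := h1 δ
    rw [extChar_apply, ← map_natCast (algebraMap k k')] at this
    exact (algebraMap k k').injective this
  · exact Nat.zero_le _
  · exact le_rfl

/-- **COR A** (`K = ℚ_p`: `e_F = p - 1`, `κ^Δ = 𝔽_p`): for ANY finite field `k` of characteristic
`p` and `ψ : Δ →* kˣ`,
`|EqMaps ψ (U^{(p-1)}/p-th powers)| ≤ |k| ^ ([ψ|_I = 1] + [ψ = ω])`. -/
theorem card_eqMaps_le_of_base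
    (hcomm : ∀ (δ δ' : Δ) (x : O), δ • δ' • x = δ' • δ • x)
    (hpe : Ideal.span {(p : O)} = maximalIdeal O ^ (p - 1))
    (ζ : O) (hζp : ζ ^ p = 1) (hζ : Ideal.span {ζ - 1} = maximalIdeal O)
    (ω : Δ →* (ZMod p)ˣ) (hω : ∀ δ : Δ, δ • ζ = ζ ^ ((ω δ : (ZMod p)ˣ) : ZMod p).val)
    (hfix : ∀ x : ResidueField O, (∀ δ : Δ, δ • x = x) → x ^ p = x)
    {k : Type*} [Field k] [Finite k] [CharP k p] (ψ : Δ →* kˣ) :
    Nat.card (EqMaps ψ (UnitQuot O Δ p (p - 1))) ≤
      Nat.card k ^ ((open Classical in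
        if ∀ i : Δ, (∀ x : ResidueField O, i • x = x) → ψ i = 1 then 1 else 0) +
          topMult p ω ψ) := by
  classical
  have hp : p.Prime := Fact.out
  have hp2 : 2 ≤ p := hp.two_le
  obtain ⟨ϖ, hϖ⟩ := IsDiscreteValuationRing.exists_irreducible O
  have hpe' : Ideal.span {(p : O)} = maximalIdeal O ^ ((p - 1) * 1) := by rw [mul_one]; exact hpe
  have hζ' : Ideal.span {ζ - 1} = maximalIdeal O ^ 1 := by rw [pow_one]; exact hζ
  have hchar : CharP (ResidueField O) p := charP_residueField le_rfl hpe'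
  obtain ⟨k', _, _, _, ⟨ι⟩⟩ := exists_common_extension p k (ResidueField O)
  have hfix' : ∀ x : ResidueField O, (∀ δ : Δ, δ • x = x) → x ^ p ^ 1 = x := by
    intro x hx; rw [pow_one]; exact hfix x hx
  have hmain := card_eqMaps_unitQuot_le_ext le_rfl hpe' ζ hζp hζ' ω hω ϖ hϖ ψ 1 one_pos hfix' ι
    (a := p - 1) (by omega) (by omega)
  refine le_trans hmain (Nat.pow_le_pow_right Nat.card_pos ?_)
  unfold totalMult
  refine Nat.add_le_add ?_ (topMult_extChar_le ω ψ k')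
  have hIco : Finset.Ico (p - 1) (p * 1) = {p - 1} := by
    rw [mul_one]
    have : p = (p - 1) + 1 := by omega
    conv_lhs => rw [this]
    simp
  rw [hIco]
  have hfil : (({p - 1} : Finset ℕ).filter (fun j => ¬ p ∣ j)) ⊆ {p - 1} := Finset.filter_subset _ _
  refine le_trans (Finset.sum_le_sum_of_subset hfil) ?_
  rw [Finset.sum_singleton]
  unfold mult
  split_ifs with hI
  · exact le_trans (Finset.card_filter_le _ _) (by simp)
  · rw [Nat.le_zero, Finset.card_eq_zero, Finset.filter_eq_empty_iff]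
    intro s hs hC
    apply hI
    intro i hi
    have h1 := hC ⟨i, hi⟩
    have hs0 : s = 0 := by simpa using hs
    subst hs0
    have hθ : tameCocycle ϖ hϖ i ^ (p ^ 1 - 1) = 1 :=
      tameCocycle_pow_eq_one hcomm ϖ hϖ (by omega) hfix' hi
    rw [pow_one] at hθ
    rw [pow_zero, pow_one, TameCocycle.pow_apply, hθ, map_one, extChar_apply] at h1
    apply Units.ext
    rw [Units.val_one]
    apply (algebraMap k k').injective
    rw [h1, map_one]

end CorA

section PairArith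

/-- The arithmetic of (A2): two Frobenius-twisted levels in `[e, p e₁)` prime to `p` that are
related by `e ∣ p j - j'` are both equal to `e = (p-1) e₁` (here `p = P + 1`, `e₁ ∣ p + 1`). -/
theorem pair_unique {P e₁ j j' : ℕ} (hP : 2 ≤ P) (he₁ : 1 ≤ e₁) (hdiv : e₁ ∣ P + 2)
    (hj : P * e₁ ≤ j) (hjN : j < (P + 1) * e₁) (hj' : P * e₁ ≤ j') (hjN' : j' < (P + 1) * e₁)
    (hpj : ¬ (P + 1) ∣ j) (hpj' : ¬ (P + 1) ∣ j')
    (h : P * e₁ ∣ (P + 1) * j - j') : j = P * e₁ ∧ j' = P * e₁ := by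
  obtain ⟨r, rfl⟩ := Nat.exists_eq_add_of_le hj
  obtain ⟨r', rfl⟩ := Nat.exists_eq_add_of_le hj'
  have hexp : (P + 1) * e₁ = P * e₁ + e₁ := by ring
  have hr : r < e₁ := by omega
  have hr' : r' < e₁ := by omega
  have hle : P * e₁ + r' ≤ (P + 1) * (P * e₁ + r) := by
    have a1 : e₁ ≤ P * e₁ := Nat.le_mul_of_pos_left e₁ (by omega)
    have a2 : P * e₁ ≤ P * (P * e₁) := Nat.le_mul_of_pos_left _ (by omega)
    have a3 : (P + 1) * (P * e₁ + r) = P * (P * e₁) + P * r + P * e₁ + r := by ring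
    rw [a3]
    omega
  -- integer divisibility
  have hZ : ((P : ℤ) * e₁) ∣ ((P : ℤ) + 1) * r - r' := by
    have h1 : ((P * e₁ : ℕ) : ℤ) ∣ (((P + 1) * (P * e₁ + r) - (P * e₁ + r') : ℕ) : ℤ) :=
      Int.natCast_dvd_natCast.2 h
    rw [Nat.cast_sub hle] at h1
    push_cast at h1
    have h2 : ((P : ℤ) + 1) * (P * e₁ + r) - (P * e₁ + r') =
        (P : ℤ) * (P * e₁) + ((P + 1) * r - r') := by ring
    rw [h2] at h1
    exact (dvd_add_right (Dvd.intro_left _ rfl)).1 h1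
  obtain ⟨m, hm⟩ := hdiv
  obtain ⟨q, hq⟩ := hZ
  have hm1 : 1 ≤ m := by
    rcases Nat.eq_zero_or_pos m with h0 | h0
    · subst h0; omega
    · exact h0
  suffices hrr : r = 0 ∧ r' = 0 by
    obtain ⟨rfl, rfl⟩ := hrr
    exact ⟨by omega, by omega⟩
  have hPz : (2 : ℤ) ≤ P := by exact_mod_cast hP
  have hrz : (r : ℤ) < e₁ := by exact_mod_cast hr
  have hrz' : (r' : ℤ) < e₁ := by exact_mod_cast hr'
  have hr0 : (0 : ℤ) ≤ r := by positivity
  have hr0' : (0 : ℤ) ≤ r' := by positivity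
  have he1z : (1 : ℤ) ≤ e₁ := by exact_mod_cast he₁
  have hmz : ((P : ℤ) + 2) = e₁ * m := by exact_mod_cast hm
  rcases Nat.lt_or_ge m 2 with hm2 | hm2
  · -- `e₁ = P + 2`
    have hm' : m = 1 := by omega
    subst hm'
    have he' : e₁ = P + 2 := by omega
    subst he'
    push_cast at hq hrz hrz'
    have hpos : (0 : ℤ) < (P : ℤ) * (P + 2) := by positivity
    have hbig : ((P : ℤ) + 2) * 2 ≤ (P : ℤ) * (P + 2) := by nlinarith
    have hrP : ((P : ℤ) + 1) * r ≤ (P + 1) * (P + 1) :=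
      mul_le_mul_of_nonneg_left (by omega) (by omega)
    have hrP0 : 0 ≤ ((P : ℤ) + 1) * r := by positivity
    -- `q ∈ {0, 1}`
    have hq0 : 0 ≤ q := by
      by_contra hneg
      have hq' : q ≤ -1 := by omega
      have := mul_le_mul_of_nonneg_left hq' hpos.le
      nlinarith
    have hq1 : q ≤ 1 := by
      by_contra hneg
      have hq' : 2 ≤ q := by omega
      have := mul_le_mul_of_nonneg_left hq' hpos.le
      nlinarith
    have hq01 : q = 0 ∨ q = 1 := by omega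
    rcases hq01 with rfl | rfl
    · -- `(P+1) r = r'`
      have h1 : ((P : ℤ) + 1) * r = r' := by linarith
      have hr1 : (r : ℤ) ≤ 1 := by
        by_contra hneg
        have h2r : (2 : ℤ) ≤ r := by omega
        have := mul_le_mul_of_nonneg_left h2r (by omega : (0 : ℤ) ≤ (P : ℤ) + 1)
        omega
      have hr01 : r = 0 ∨ r = 1 := by omega
      rcases hr01 with rfl | rfl
      · refine ⟨rfl, ?_⟩
        have : (r' : ℤ) = 0 := by rw [← h1]; simp
        exact_mod_cast this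
      · exfalso
        apply hpj
        exact ⟨P + 1, by ring⟩
    · -- `(P+1) r - r' = P (P+2)`
      exfalso
      have h1 : ((P : ℤ) + 1) * r = (P + 1) * (P + 1) + (r' - 1) := by linarith
      have h2 : ((P : ℤ) + 1) ∣ (r' : ℤ) - 1 := by
        have : ((P : ℤ) + 1) ∣ (P + 1) * (P + 1) + (r' - 1) := ⟨r, h1.symm⟩
        exact (dvd_add_right (Dvd.intro _ rfl)).1 this
      have h4 : r' = 1 := by
        obtain ⟨c, hc⟩ := h2
        have hc0 : 0 ≤ c := by
          by_contra hneg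
          have hc' : c ≤ -1 := by omega
          have := mul_le_mul_of_nonneg_left hc' (by omega : (0 : ℤ) ≤ (P : ℤ) + 1)
          omega
        have hc1 : c ≤ 0 := by
          by_contra hneg
          have hc' : 1 ≤ c := by omega
          have := mul_le_mul_of_nonneg_left hc' (by omega : (0 : ℤ) ≤ (P : ℤ) + 1)
          -- r' - 1 ≥ P + 1, so r' ≥ P + 2, impossible; r' - 1 = P + 1 would need r' = P+2
          omega
        have : c = 0 := by omega
        subst this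
        rw [mul_zero] at hc
        omega
      subst h4
      apply hpj'
      exact ⟨P + 1, by ring⟩
  · -- `2 e₁ ≤ P + 2`, so `e₁ ≤ P`
    have he : e₁ ≤ P := by
      have : e₁ * 2 ≤ e₁ * m := Nat.mul_le_mul_left _ hm2
      omega
    have hez : (e₁ : ℤ) ≤ P := by exact_mod_cast he
    -- `P ∣ r - r'`
    have h1 : (r : ℤ) - r' = P * (e₁ * q - r) := by linarith
    have h2 : (e₁ : ℤ) * q - r = 0 := by
      by_contra hne
      rcases lt_or_gt_of_ne hne with hlt | hgt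
      · have h' : (e₁ : ℤ) * q - r ≤ -1 := by omega
        have := mul_le_mul_of_nonneg_left h' (by omega : (0 : ℤ) ≤ (P : ℤ))
        omega
      · have h' : 1 ≤ (e₁ : ℤ) * q - r := by omega
        have := mul_le_mul_of_nonneg_left h' (by omega : (0 : ℤ) ≤ (P : ℤ))
        omega
    have h3 : (r : ℤ) = r' := by rw [h2, mul_zero] at h1; linarith
    have hq0 : q = 0 := by
      by_contra hne
      rcases lt_or_gt_of_ne hne with hlt | hgt
      · have h' : q ≤ -1 := by omega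
        have := mul_le_mul_of_nonneg_left h' (by omega : (0 : ℤ) ≤ (e₁ : ℤ))
        omega
      · have h' : 1 ≤ q := by omega
        have := mul_le_mul_of_nonneg_left h' (by omega : (0 : ℤ) ≤ (e₁ : ℤ))
        omega
    subst hq0
    have h4 : (r : ℤ) = 0 := by linarith
    have h5 : (r' : ℤ) = 0 := by linarith
    exact ⟨by exact_mod_cast h4, by exact_mod_cast h5⟩

theorem pair_unique' {p e₁ j j' : ℕ} (hp3 : 3 ≤ p) (he₁ : 1 ≤ e₁) (hdiv : e₁ ∣ p + 1)
    (hj : (p - 1) * e₁ ≤ j) (hjN : j < p * e₁) (hj' : (p - 1) * e₁ ≤ j') (hjN' : j' < p * e₁)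
    (hpj : ¬ p ∣ j) (hpj' : ¬ p ∣ j')
    (h : (p - 1) * e₁ ∣ p * j - j') : j = (p - 1) * e₁ ∧ j' = (p - 1) * e₁ := by
  obtain ⟨P, rfl⟩ : ∃ P, p = P + 1 := ⟨p - 1, by omega⟩
  simp only [Nat.add_sub_cancel] at *
  exact pair_unique (by omega) he₁ hdiv hj hjN hj' hjN' hpj hpj' h

end PairArith

section CorB

variable [IsAdicComplete (maximalIdeal O) O] [Finite (ResidueField O)] [Finite Δ]
variable {p : ℕ} [Fact p.Prime]

/-- **COR B** (`K` = the unramified quadratic extension of `ℚ_p`, `p` odd: `κ^Δ ⊆ 𝔽_{p²}`;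
`θ|_I` of exact exponent `e_F = (p-1) e₁`): for ANY finite field `k` of characteristic `p` and
`ψ : Δ →* kˣ` with `ψ|_I ≠ 1` and `ψ ≠ ω`:
`|EqMaps ψ (U^{(e_F)}/p-th powers)| ≤ |k|`. -/
theorem card_eqMaps_le_of_quadratic (hp2 : p ≠ 2)
    (hcomm : ∀ (δ δ' : Δ) (x : O), δ • δ' • x = δ' • δ • x)
    {e₁ : ℕ} (he₁ : 1 ≤ e₁)
    (hpe : Ideal.span {(p : O)} = maximalIdeal O ^ ((p - 1) * e₁))
    (ζ : O) (hζp : ζ ^ p = 1) (hζ : Ideal.span {ζ - 1} = maximalIdeal O ^ e₁)
    (ω : Δ →* (ZMod p)ˣ) (hω : ∀ δ : Δ, δ • ζ = ζ ^ ((ω δ : (ZMod p)ˣ) : ZMod p).val)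
    (ϖ : O) (hϖ : Irreducible ϖ)
    (hfix : ∀ x : ResidueField O, (∀ δ : Δ, δ • x = x) → x ^ p ^ 2 = x)
    (hexact : ∀ n : ℕ, (∀ i : Δ, (∀ x : ResidueField O, i • x = x) →
      tameCocycle ϖ hϖ i ^ n = 1) ↔ (p - 1) * e₁ ∣ n)
    {k : Type*} [Field k] [Finite k] [CharP k p] (ψ : Δ →* kˣ)
    (hψI : ∃ i : Δ, (∀ x : ResidueField O, i • x = x) ∧ ψ i ≠ 1)
    (hψω : ∃ δ : Δ, (ψ δ : k) ≠ ((((ω δ : (ZMod p)ˣ) : ZMod p).val : ℕ) : k)) :
    Nat.card (EqMaps ψ (UnitQuot O Δ p ((p - 1) * e₁))) ≤ Nat.card k := by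
  classical
  have hp : p.Prime := Fact.out
  have hp3 : 3 ≤ p := by have := hp.two_le; omega
  have hchar : CharP (ResidueField O) p := charP_residueField he₁ hpe
  obtain ⟨k', _, _, _, ⟨ι⟩⟩ := exists_common_extension p k (ResidueField O)
  have hE1 : 1 ≤ (p - 1) * e₁ := Nat.mul_pos (by omega) he₁
  have hEN : (p - 1) * e₁ ≤ p * e₁ := Nat.mul_le_mul_right _ (by omega)
  have hmain := card_eqMaps_unitQuot_le_ext he₁ hpe ζ hζp hζ ω hω ϖ hϖ ψ 2 two_pos hfix ι
    hE1 hEN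
  refine le_trans hmain ?_
  suffices htot : totalMult p ι (tameCocycle ϖ hϖ) (extChar k' ψ) 2 ω (p * e₁) ((p - 1) * e₁) ≤ 1 by
    calc Nat.card k ^ totalMult p ι (tameCocycle ϖ hϖ) (extChar k' ψ) 2 ω (p * e₁) ((p - 1) * e₁)
        ≤ Nat.card k ^ 1 := Nat.pow_le_pow_right Nat.card_pos htot
      _ = Nat.card k := pow_one _
  -- the facts about `θ|_I`
  set θ := tameCocycle (Δ := Δ) ϖ hϖ with hθdef
  have hθE : ∀ i : Δ, (∀ x : ResidueField O, i • x = x) → θ i ^ ((p - 1) * e₁) = 1 :=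
    (hexact _).2 (dvd_refl _)
  have hord : ∀ n : ℕ, (∀ i : Δ, (∀ x : ResidueField O, i • x = x) → θ i ^ n = 1) →
      (p - 1) * e₁ ∣ n := fun n => (hexact n).1
  have hdiv : e₁ ∣ p + 1 := by
    have h1 : (p - 1) * e₁ ∣ p ^ 2 - 1 :=
      hord _ (fun i hi => tameCocycle_pow_eq_one hcomm ϖ hϖ (by omega) hfix hi)
    have h2 : p ^ 2 - 1 = (p - 1) * (p + 1) := by
      obtain ⟨P, rfl⟩ : ∃ P, p = P + 1 := ⟨p - 1, by omega⟩
      simp only [Nat.add_sub_cancel]
      have : (P + 1) ^ 2 = P * (P + 1 + 1) + 1 := by ring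
      rw [this, Nat.add_sub_cancel]
    rw [h2] at h1
    exact Nat.dvd_of_mul_dvd_mul_left (by omega) h1
  -- top piece
  have htop : topMult p ω (extChar k' ψ) = 0 := by
    have h1 : topMult p ω ψ = 0 := by
      unfold topMult
      rw [if_neg]
      push Not
      exact hψω
    have := topMult_extChar_le ω ψ k'
    omega
  unfold totalMult
  rw [htop, add_zero]
  -- the solutions
  let C : ℕ → ℕ → Prop := fun j s =>
    ∀ i : {i : Δ // ∀ x : ResidueField O, i • x = x},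
      ((extChar k' ψ i.1 : k'ˣ) : k') ^ p ^ s = ι (θ.pow j i.1)
  -- cancellation: `θ i ^ a = θ i ^ b`, `a ≤ b` ⟹ `θ i ^ (b - a) = 1`
  have hcancel : ∀ (i : Δ) (a b : ℕ), a ≤ b → θ i ^ a = θ i ^ b → θ i ^ (b - a) = 1 := by
    intro i a b hab h
    have h0 : θ i ^ a ≠ 0 := pow_ne_zero _ (θ.ne_zero i)
    have h1 : θ i ^ a * θ i ^ (b - a) = θ i ^ a * 1 := by
      rw [← pow_add, Nat.add_sub_cancel' hab, mul_one, h]
    exact mul_left_cancel₀ h0 h1
  -- Claim A: same twist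
  have hA : ∀ j j' s, j ≤ j' → j' < p * e₁ → (p - 1) * e₁ ≤ j → C j s → C j' s → j = j' := by
    intro j j' s hjj hj'N hjE hC hC'
    have h1 : ∀ i : Δ, (∀ x : ResidueField O, i • x = x) → θ i ^ (j' - j) = 1 := by
      intro i hi
      apply hcancel i j j' hjj
      apply ι.injective
      have a1 := hC ⟨i, hi⟩
      have a2 := hC' ⟨i, hi⟩
      rw [TameCocycle.pow_apply] at a1 a2
      rw [← a1, ← a2]
    have h2 := hord _ h1
    have h3 : j' - j < (p - 1) * e₁ := by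
      have : p * e₁ = (p - 1) * e₁ + e₁ := by
        obtain ⟨P, rfl⟩ : ∃ P, p = P + 1 := ⟨p - 1, by omega⟩
        simp only [Nat.add_sub_cancel]; ring
      have h4 : e₁ ≤ (p - 1) * e₁ := Nat.le_mul_of_pos_left _ (by omega)
      omega
    have := Nat.eq_zero_of_dvd_of_lt h2 h3
    omega
  -- Claim B: twists `0` and `1`
  have hB : ∀ j j', (p - 1) * e₁ ≤ j → j < p * e₁ → (p - 1) * e₁ ≤ j' → j' < p * e₁ →
      ¬ p ∣ j → ¬ p ∣ j' → C j 0 → C j' 1 → False := by
    intro j j' hjE hjN hj'E hj'N hpj hpj' hC hC'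
    have hle : j' ≤ p * j := by
      have h4 : e₁ ≤ (p - 1) * e₁ := Nat.le_mul_of_pos_left _ (by omega)
      have h5 : p * e₁ = (p - 1) * e₁ + e₁ := by
        obtain ⟨P, rfl⟩ : ∃ P, p = P + 1 := ⟨p - 1, by omega⟩
        simp only [Nat.add_sub_cancel]; ring
      have h6 : 2 * j ≤ p * j := Nat.mul_le_mul_right _ (by omega)
      omega
    have h1 : ∀ i : Δ, (∀ x : ResidueField O, i • x = x) → θ i ^ (p * j - j') = 1 := by
      intro i hi
      apply hcancel i j' (p * j) hle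
      apply ι.injective
      have a1 := hC ⟨i, hi⟩
      have a2 := hC' ⟨i, hi⟩
      rw [TameCocycle.pow_apply] at a1 a2
      rw [pow_zero, pow_one] at a1
      rw [pow_one] at a2
      rw [← a2, a1, ← map_pow, ← pow_mul, mul_comm]
    have h2 := hord _ h1
    obtain ⟨hjeq, _⟩ := pair_unique' hp3 he₁ hdiv hjE hjN hj'E hj'N hpj hpj' h2
    obtain ⟨i, hi, hψi⟩ := hψI
    apply hψi
    have a1 := hC ⟨i, hi⟩
    rw [TameCocycle.pow_apply, pow_zero, pow_one, hjeq, hθE i hi, map_one, extChar_apply] at a1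
    apply Units.ext
    rw [Units.val_one]
    apply (algebraMap k k').injective
    rw [a1, map_one]
  -- count
  have hsum : ∑ j ∈ (Finset.Ico ((p - 1) * e₁) (p * e₁)).filter (fun j => ¬ p ∣ j),
      mult p ι θ (extChar k' ψ) 2 j =
      ((((Finset.Ico ((p - 1) * e₁) (p * e₁)).filter (fun j => ¬ p ∣ j)).sigma
        (fun j => (Finset.range 2).filter (fun s => C j s)))).card := by
    rw [Finset.card_sigma]
    rfl
  rw [hsum, Finset.card_le_one]
  rintro ⟨j, s⟩ hx ⟨j', s'⟩ hy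
  rw [Finset.mem_sigma, Finset.mem_filter, Finset.mem_filter, Finset.mem_Ico, Finset.mem_range]
    at hx hy
  dsimp only at hx hy
  obtain ⟨⟨⟨hjE, hjN⟩, hpj⟩, hs, hC⟩ := hx
  obtain ⟨⟨⟨hj'E, hj'N⟩, hpj'⟩, hs', hC'⟩ := hy
  have hs01 : s = 0 ∨ s = 1 := by omega
  have hs01' : s' = 0 ∨ s' = 1 := by omega
  rcases hs01 with rfl | rfl <;> rcases hs01' with rfl | rfl
  · rcases le_total j j' with hjj | hjj
    · have := hA j j' 0 hjj hj'N hjE hC hC'
      subst this; rfl
    · have := hA j' j 0 hjj hjN hj'E hC' hC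
      subst this; rfl
  · exact (hB j j' hjE hjN hj'E hj'N hpj hpj' hC hC').elim
  · exact (hB j' j hj'E hj'N hjE hjN hpj' hpj hC' hC).elim
  · rcases le_total j j' with hjj | hjj
    · have := hA j j' 1 hjj hj'N hjE hC hC'
      subst this; rfl
    · have := hA j' j 1 hjj hjN hj'E hC' hC
      subst this; rfl

end CorB

end Fermat.Agent.S56.Flat.TameCount.Arith
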