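/-
S56, block F (FLAT), leaf [FL-C]: THE ABSTRACT SEAM between the Kummer link
(`Count/KummerLink.card_Z1_quot_B1_le`, helper20) and the tame multiplicity bounds
(`TameCount/Main`, `TameCount/Arith` COR A / COR B).

Setting: a group `H` acting on a field `L`, `N ⊴ H` (so `F = L^N`), and a discrete valuation ring
`O` with an `H`-action and an equivariant injective ring hom `j : O →+* L` with image in `L^N`
(`O = 𝒪_F`), such that

* `hint` : `O` is "integrally closed for `p`-th roots in `L^N`": `z ∈ L^N`, `z^p = j u`, `u ∈ Oˣ`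
  ⟹ `z = j y`, `y ∈ Oˣ`;
* `hpeu` : every `w ∈ (L^N)ˣ` which is a `p`-th power in `L` is `j u * z^p` with `u ∈ U^{(a)}`,
  `z ∈ (L^N)ˣ` (this is `IsPeuRamifie` at `F`, `a = e_F`).

Then `ι : UnitQuot O H p a →+ YF L N p` is equivariant, injective and its range contains all
classes of `x^p`, so `|Z¹(H,k(φ))/B¹| ≤ |EqMaps (ω φ⁻¹) (UnitQuot O H p a)|`
(`card_Z1_quot_B1_le_unitQuot`), and with COR A / COR B:
`card_Z1_quot_B1_le_of_base`, `card_Z1_quot_B1_le_of_quadratic`.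
-/
import Mathlib
import Fermat.Agent.S56.Flat.TameCount.Arith
import Fermat.Agent.S56.Flat.Count.KummerLink

set_option autoImplicit false
set_option linter.unusedSectionVars false

namespace Fermat.Agent.S56.Flat.TameCount.Seam

open IsLocalRing Fermat.Agent.S55.Local
open Fermat.Agent.S56.Flat.TameCount.MultSet Fermat.Agent.S56.Flat.TameCount.StableQuot
open Fermat.Agent.S56.Flat.TameCount.UnitGraded Fermat.Agent.S56.Flat.TameCount.TopPiece
open Fermat.Agent.S56.Flat.TameCount.Main Fermat.Agent.S56.Flat.TameCount.Arith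
open Fermat.Agent.S56.Flat.Count.KummerLink

attribute [local instance] Units.mulDistribMulActionRight

variable {H : Type*} [Group H] {L : Type*} [Field L] [MulSemiringAction H L]
variable {N : Subgroup H} [hN : N.Normal]
variable {O : Type*} [CommRing O] [IsDomain O] [IsDiscreteValuationRing O] [MulSemiringAction H O]
variable (j : O →+* L) (hjeq : ∀ (h : H) (x : O), j (h • x) = h • j x)
  (hjN : ∀ (n : N) (x : O), (n : H) • j x = j x)

section Incl

/-- `Oˣ → (L^N)ˣ`. -/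
def unitIncl : Oˣ →* fixedUnits (L := L) N where
  toFun u := ⟨Units.map (j : O →* L) u, fun n => hjN n (u : O)⟩
  map_one' := by apply Subtype.ext; simp
  map_mul' a b := by apply Subtype.ext; simp

@[simp] theorem coe_unitIncl (u : Oˣ) :
    (((unitIncl j hjN u : fixedUnits (L := L) N) : Lˣ) : L) = j (u : O) := rfl

include hjeq in
theorem unitIncl_smul (h : H) (u : Oˣ) :
    unitIncl j hjN (h • u) = fixedAct N h (unitIncl j hjN u) := by
  apply Subtype.ext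
  apply Units.ext
  show j ((h • u : Oˣ) : O) = h • j (u : O)
  rw [Units.coe_smul, hjeq]

/-- The class of a unit of `O` in `F^×/F^{×p}`. -/
def clsO (p : ℕ) (u : Oˣ) : YF L N p := cls p (unitIncl j hjN u)

theorem clsO_mul (p : ℕ) (u v : Oˣ) : clsO j hjN p (u * v) = clsO j hjN p u + clsO j hjN p v := by
  unfold clsO
  rw [map_mul, cls_mul]

theorem clsO_eq_zero_of_mem_range (p : ℕ) {u : Oˣ}
    (hu : u ∈ (powMonoidHom p : Oˣ →* Oˣ).range) : clsO j hjN p u = 0 := by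
  obtain ⟨z, rfl⟩ := hu
  unfold clsO
  rw [cls_eq_zero_iff]
  exact ⟨unitIncl j hjN z, (map_pow _ _ _).symm⟩

include hjeq in
theorem clsO_smul (p : ℕ) (h : H) (u : Oˣ) : clsO j hjN p (h • u) = h • clsO j hjN p u := by
  unfold clsO
  rw [unitIncl_smul j hjeq hjN, smul_cls]

end Incl

section Iota

variable (p a : ℕ)

/-- `ι : U^{(a)}/(U^{(a)} ∩ (Oˣ)^p) → F^×/F^{×p}`. -/
noncomputable def iota : UnitQuot O H p a →+ YF L N p :=
  QuotMod.lift (isStable_unitFil a) (isStable_powRange p) (clsO j hjN p)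
    (fun u _ v _ => clsO_mul j hjN p u v)
    (fun _ _ hu => clsO_eq_zero_of_mem_range j hjN p hu)

theorem iota_mk (u : ↥(unitFil O a)) :
    iota (H := H) j hjN p a (QuotMod.mk _ _ u) = clsO j hjN p (u : Oˣ) := rfl

include hjeq in
theorem iota_smul (h : H) (y : UnitQuot O H p a) :
    iota j hjN p a (h • y) = h • iota j hjN p a y :=
  QuotMod.lift_smul (isStable_unitFil a) (isStable_powRange p) (clsO j hjN p) _ _
    (fun δ u _ => clsO_smul j hjeq hjN p δ u) h y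

theorem iota_injective (hj : Function.Injective j)
    (hint : ∀ (u : Oˣ) (z : L), (∀ n : N, (n : H) • z = z) → z ^ p = j (u : O) →
      ∃ y : Oˣ, j (y : O) = z) :
    Function.Injective (iota (H := H) j hjN p a) := by
  refine lift_injective (isStable_unitFil a) (isStable_powRange p) (clsO j hjN p) _ _ ?_
  intro u _ h0
  unfold clsO at h0
  rw [cls_eq_zero_iff] at h0
  obtain ⟨z, hz⟩ := h0
  have hz' : (((z : fixedUnits (L := L) N) : Lˣ) : L) ^ p = j (u : O) := by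
    have := congrArg (fun w : fixedUnits (L := L) N => ((w : Lˣ) : L)) hz
    simpa using this
  obtain ⟨y, hy⟩ := hint u _ (fun n => z.2 n) hz'
  refine ⟨y, ?_⟩
  apply Units.ext
  apply hj
  show j ((y ^ p : Oˣ) : O) = j (u : O)
  rw [Units.val_pow_eq_pow_val, map_pow, hy, hz']

theorem cls_mem_range_iota
    (hpeu : ∀ (x : L) (w : fixedUnits (L := L) N), ((w : Lˣ) : L) = x ^ p →
      ∃ u ∈ unitFil O a, ∃ z : fixedUnits (L := L) N,
        ((w : Lˣ) : L) = j (u : O) * ((z : Lˣ) : L) ^ p)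
    (x : L) (w : fixedUnits (L := L) N) (hw : ((w : Lˣ) : L) = x ^ p) :
    cls p w ∈ Set.range (iota (H := H) j hjN p a) := by
  obtain ⟨u, hu, z, hz⟩ := hpeu x w hw
  refine ⟨QuotMod.mk _ _ ⟨u, hu⟩, ?_⟩
  rw [iota_mk]
  unfold clsO
  rw [eq_comm, cls_eq_iff]
  refine ⟨z, ?_⟩
  apply Subtype.ext
  apply Units.ext
  simpa using hz

end Iota

section Card

variable [Finite N] [FaithfulSMul N L]
variable {p : ℕ} [hp : Fact p.Prime] {ζ : L}
variable {k : Type*} [Field k] [Algebra (ZMod p) k] [Finite k]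

include hjeq hjN in
/-- **The seam**: `|H¹(H, k(φ))| ≤ |EqMaps (ω φ⁻¹) (U^{(a)}/p-th powers)|`. -/
theorem card_Z1_quot_B1_le_unitQuot (hζ : IsPrimitiveRoot ζ p) (hζN : ∀ n : N, (n : H) • ζ = ζ)
    (φ : H →* kˣ) (ω : H →* (ZMod p)ˣ)
    (hω : ∀ γ : H, γ • ζ = ζ ^ ((ω γ : (ZMod p)ˣ) : ZMod p).val)
    (hφN : ∀ n ∈ N, φ n = 1) [N.FiniteIndex] (hind : (N.index : k) ≠ 0)
    (a : ℕ) [Finite (UnitQuot O H p a)]
    (hj : Function.Injective j)
    (hint : ∀ (u : Oˣ) (z : L), (∀ n : N, (n : H) • z = z) → z ^ p = j (u : O) →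
      ∃ y : Oˣ, j (y : O) = z)
    (hpeu : ∀ (x : L) (w : fixedUnits (L := L) N), ((w : Lˣ) : L) = x ^ p →
      ∃ u ∈ unitFil O a, ∃ z : fixedUnits (L := L) N,
        ((w : Lˣ) : L) = j (u : O) * ((z : Lˣ) : L) ^ p) :
    Nat.card (Z1 φ ⧸ (B1 φ).addSubgroupOf (Z1 φ)) ≤
      Nat.card (EqMaps (psi φ ω) (UnitQuot O H p a)) :=
  card_Z1_quot_B1_le hζ hζN φ ω hω hφN hind (iota j hjN p a) (iota_smul j hjeq hjN p a)
    (iota_injective j hjN p a hj hint) (cls_mem_range_iota j hjN p a hpeu)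

end Card

section Finals

variable [IsAdicComplete (maximalIdeal O) O] [Finite (ResidueField O)] [Finite H]
variable [Finite N] [FaithfulSMul N L]
variable {p : ℕ} [hp : Fact p.Prime] {ζ : L}
variable {k : Type*} [Field k] [Algebra (ZMod p) k] [Finite k]

omit [MulSemiringAction H L] hN [MulSemiringAction H O] [IsAdicComplete (maximalIdeal O) O]
  [Finite (ResidueField O)] [Finite H] [Finite N] [Finite k] [IsDomain O]
  [IsDiscreteValuationRing O] [CommRing O] [Field L] in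
theorem algebraMap_eq_natCast_val (x : ZMod p) :
    algebraMap (ZMod p) k x = ((x.val : ℕ) : k) := by
  conv_lhs => rw [← ZMod.natCast_zmod_val x]
  rw [map_natCast]

omit [MulSemiringAction H L] hN [MulSemiringAction H O] [IsAdicComplete (maximalIdeal O) O]
  [Finite (ResidueField O)] [Finite H] [Finite N] [Finite k] [IsDomain O]
  [IsDiscreteValuationRing O] [CommRing O] [Field L] in
/-- `ψ γ = 1 ↔ φ γ = ω γ`. -/
theorem psi_eq_one_iff (φ : H →* kˣ) (ω : H →* (ZMod p)ˣ) (γ : H) :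
    psi φ ω γ = 1 ↔ ((φ γ : kˣ) : k) = algebraMap (ZMod p) k ((ω γ : (ZMod p)ˣ) : ZMod p) := by
  rw [← Units.val_inj, coe_psi, Units.val_one]
  have h0 : ((φ γ : kˣ) : k) ≠ 0 := (φ γ).ne_zero
  constructor
  · intro h
    field_simp at h
    exact h.symm
  · intro h
    rw [← h]
    exact mul_inv_cancel₀ h0

omit [MulSemiringAction H L] hN [MulSemiringAction H O] [IsAdicComplete (maximalIdeal O) O]
  [Finite (ResidueField O)] [Finite H] [Finite N] [Finite k] [IsDomain O]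
  [IsDiscreteValuationRing O] [CommRing O] [Field L] in
/-- `[ψ = ω] ≤ [φ = 1]`. -/
theorem topMult_psi_le (φ : H →* kˣ) (ω : H →* (ZMod p)ˣ) :
    topMult p ω (psi φ ω) ≤ (open Classical in if φ = 1 then 1 else 0) := by
  classical
  unfold topMult
  split_ifs with h1 h2 h2
  · exact le_rfl
  · exfalso
    apply h2
    ext γ
    have h := h1 γ
    rw [coe_psi, ← algebraMap_eq_natCast_val] at h
    have hω0 : algebraMap (ZMod p) k ((ω γ : (ZMod p)ˣ) : ZMod p) ≠ 0 := by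
      have : IsUnit (algebraMap (ZMod p) k ((ω γ : (ZMod p)ˣ) : ZMod p)) :=
        (ω γ).isUnit.map _
      exact this.ne_zero
    have h3 : (((φ γ : kˣ) : k))⁻¹ = 1 := by
      have h4 : algebraMap (ZMod p) k ((ω γ : (ZMod p)ˣ) : ZMod p) * (((φ γ : kˣ) : k))⁻¹ =
          algebraMap (ZMod p) k ((ω γ : (ZMod p)ˣ) : ZMod p) * 1 := by rw [h, mul_one]
      exact mul_left_cancel₀ hω0 h4
    rw [inv_eq_one] at h3
    simpa using h3
  · exact Nat.zero_le _
  · exact le_rfl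

include hjeq hjN in
/-- **(C) at `K = ℚ_p`** (abstract form): `|H¹(H, k(φ))| ≤ |k| ^ ([ψ|_I = 1] + [ψ = ω])`,
`ψ = ω φ⁻¹`. -/
theorem card_Z1_quot_B1_le_of_base (hζ : IsPrimitiveRoot ζ p) (hζN : ∀ n : N, (n : H) • ζ = ζ)
    (φ : H →* kˣ) (ω : H →* (ZMod p)ˣ)
    (hω : ∀ γ : H, γ • ζ = ζ ^ ((ω γ : (ZMod p)ˣ) : ZMod p).val)
    (hφN : ∀ n ∈ N, φ n = 1) [N.FiniteIndex] (hind : (N.index : k) ≠ 0)
    (hj : Function.Injective j)
    (hint : ∀ (u : Oˣ) (z : L), (∀ n : N, (n : H) • z = z) → z ^ p = j (u : O) →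
      ∃ y : Oˣ, j (y : O) = z)
    (hpeu : ∀ (x : L) (w : fixedUnits (L := L) N), ((w : Lˣ) : L) = x ^ p →
      ∃ u ∈ unitFil O (p - 1), ∃ z : fixedUnits (L := L) N,
        ((w : Lˣ) : L) = j (u : O) * ((z : Lˣ) : L) ^ p)
    (ζO : O) (hζO : j ζO = ζ)
    (hcomm : ∀ (δ δ' : H) (x : O), δ • δ' • x = δ' • δ • x)
    (hpe : Ideal.span {(p : O)} = maximalIdeal O ^ (p - 1))
    (hζspan : Ideal.span {ζO - 1} = maximalIdeal O)
    (hfix : ∀ x : ResidueField O, (∀ δ : H, δ • x = x) → x ^ p = x) :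
    Nat.card (Z1 φ ⧸ (B1 φ).addSubgroupOf (Z1 φ)) ≤
      Nat.card k ^ ((open Classical in
        if ∀ i : H, (∀ x : ResidueField O, i • x = x) → psi φ ω i = 1 then 1 else 0) +
          topMult p ω (psi φ ω)) := by
  have hp2 : 2 ≤ p := hp.out.two_le
  have hchar : CharP k p := charP_of_injective_algebraMap (algebraMap (ZMod p) k).injective p
  have hζp : ζO ^ p = 1 := hj (by rw [map_pow, hζO, hζ.pow_eq_one, map_one])
  have hωO : ∀ δ : H, δ • ζO = ζO ^ ((ω δ : (ZMod p)ˣ) : ZMod p).val := fun δ =>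
    hj (by rw [hjeq, hζO, hω, map_pow, hζO])
  have hpe' : Ideal.span {(p : O)} = maximalIdeal O ^ ((p - 1) * 1) := by rw [mul_one]; exact hpe
  have hζ' : Ideal.span {ζO - 1} = maximalIdeal O ^ 1 := by rw [pow_one]; exact hζspan
  have hfin : Finite (UnitQuot O H p (p - 1)) :=
    finite_unitQuot le_rfl hpe' ζO hζp hζ' ω hωO (by omega) (by omega)
  exact le_trans
    (card_Z1_quot_B1_le_unitQuot j hjeq hjN hζ hζN φ ω hω hφN hind (p - 1) hj hint hpeu)
    (card_eqMaps_le_of_base hcomm hpe ζO hζp hζspan ω hωO hfix (psi φ ω))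

include hjeq hjN in
/-- **(C) at `K` = the unramified quadratic extension** (abstract form): if `φ ≠ ω` on the inertia
subgroup and `φ ≠ 1`, then `|H¹(H, k(φ))| ≤ |k|`. -/
theorem card_Z1_quot_B1_le_of_quadratic (hp2 : p ≠ 2)
    (hζ : IsPrimitiveRoot ζ p) (hζN : ∀ n : N, (n : H) • ζ = ζ)
    (φ : H →* kˣ) (ω : H →* (ZMod p)ˣ)
    (hω : ∀ γ : H, γ • ζ = ζ ^ ((ω γ : (ZMod p)ˣ) : ZMod p).val)
    (hφN : ∀ n ∈ N, φ n = 1) [N.FiniteIndex] (hind : (N.index : k) ≠ 0)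
    (hj : Function.Injective j)
    (hint : ∀ (u : Oˣ) (z : L), (∀ n : N, (n : H) • z = z) → z ^ p = j (u : O) →
      ∃ y : Oˣ, j (y : O) = z)
    {e₁ : ℕ} (he₁ : 1 ≤ e₁)
    (hpeu : ∀ (x : L) (w : fixedUnits (L := L) N), ((w : Lˣ) : L) = x ^ p →
      ∃ u ∈ unitFil O ((p - 1) * e₁), ∃ z : fixedUnits (L := L) N,
        ((w : Lˣ) : L) = j (u : O) * ((z : Lˣ) : L) ^ p)
    (ζO : O) (hζO : j ζO = ζ)
    (hcomm : ∀ (δ δ' : H) (x : O), δ • δ' • x = δ' • δ • x)
    (hpe : Ideal.span {(p : O)} = maximalIdeal O ^ ((p - 1) * e₁))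
    (hζspan : Ideal.span {ζO - 1} = maximalIdeal O ^ e₁)
    (ϖ : O) (hϖ : Irreducible ϖ)
    (hfix : ∀ x : ResidueField O, (∀ δ : H, δ • x = x) → x ^ p ^ 2 = x)
    (hexact : ∀ n : ℕ, (∀ i : H, (∀ x : ResidueField O, i • x = x) →
      tameCocycle ϖ hϖ i ^ n = 1) ↔ (p - 1) * e₁ ∣ n)
    (hφI : ∃ i : H, (∀ x : ResidueField O, i • x = x) ∧
      ((φ i : kˣ) : k) ≠ algebraMap (ZMod p) k ((ω i : (ZMod p)ˣ) : ZMod p))
    (hφ1 : ∃ γ : H, φ γ ≠ 1) :
    Nat.card (Z1 φ ⧸ (B1 φ).addSubgroupOf (Z1 φ)) ≤ Nat.card k := by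
  have hchar : CharP k p := charP_of_injective_algebraMap (algebraMap (ZMod p) k).injective p
  have hζp : ζO ^ p = 1 := hj (by rw [map_pow, hζO, hζ.pow_eq_one, map_one])
  have hωO : ∀ δ : H, δ • ζO = ζO ^ ((ω δ : (ZMod p)ˣ) : ZMod p).val := fun δ =>
    hj (by rw [hjeq, hζO, hω, map_pow, hζO])
  have hE1 : 1 ≤ (p - 1) * e₁ := Nat.mul_pos (by have := hp.out.two_le; omega) he₁
  have hEN : (p - 1) * e₁ ≤ p * e₁ := Nat.mul_le_mul_right _ (by omega)
  have hfin : Finite (UnitQuot O H p ((p - 1) * e₁)) :=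
    finite_unitQuot he₁ hpe ζO hζp hζspan ω hωO hE1 hEN
  have hψI : ∃ i : H, (∀ x : ResidueField O, i • x = x) ∧ psi φ ω i ≠ 1 := by
    obtain ⟨i, hi, hne⟩ := hφI
    exact ⟨i, hi, fun h => hne ((psi_eq_one_iff φ ω i).1 h)⟩
  have hψω : ∃ δ : H, ((psi φ ω δ : kˣ) : k) ≠
      ((((ω δ : (ZMod p)ˣ) : ZMod p).val : ℕ) : k) := by
    obtain ⟨γ, hγ⟩ := hφ1
    refine ⟨γ, fun h => hγ ?_⟩
    rw [coe_psi, ← algebraMap_eq_natCast_val] at h
    have hω0 : algebraMap (ZMod p) k ((ω γ : (ZMod p)ˣ) : ZMod p) ≠ 0 := by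
      have : IsUnit (algebraMap (ZMod p) k ((ω γ : (ZMod p)ˣ) : ZMod p)) :=
        (ω γ).isUnit.map _
      exact this.ne_zero
    have h3 : (((φ γ : kˣ) : k))⁻¹ = 1 := by
      have h4 : algebraMap (ZMod p) k ((ω γ : (ZMod p)ˣ) : ZMod p) * (((φ γ : kˣ) : k))⁻¹ =
          algebraMap (ZMod p) k ((ω γ : (ZMod p)ˣ) : ZMod p) * 1 := by rw [h, mul_one]
      exact mul_left_cancel₀ hω0 h4
    rw [inv_eq_one] at h3
    exact Units.ext h3
  exact le_trans
    (card_Z1_quot_B1_le_unitQuot j hjeq hjN hζ hζN φ ω hω hφN hind ((p - 1) * e₁) hj hint hpeu)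
    (card_eqMaps_le_of_quadratic hp2 hcomm he₁ hpe ζO hζp hζspan ω hωO ϖ hϖ hfix hexact
      (psi φ ω) hψI hψω)

end Finals

end Fermat.Agent.S56.Flat.TameCount.Seam
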