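/-
S56, block F (FLAT), leaf [FL-C]: DICTIONARY between the elementary cocycle groups `Z1 φ`, `B1 φ` of
`Count/KummerLink` and Mathlib's `groupCohomology.H1 (Devissage.charRep φ)`, and the FINAL
one-character bounds in `Devissage` vocabulary (`h1`, `b`), obtained from `TameCount/Seam`:

* `quotEquiv φ : Z1 φ ⧸ B1 φ ≃+ H1 (charRep φ)`, `card_H1_charRep`, `h1_charRep_le_of_card_le`;
* `b_charRep_le_of_base` : (C-A) `b(k(φ)) = h¹ - h⁰ ≤ [φ|_I = ω|_I]` (`K = ℚ_p`);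
* `h1_charRep_le_one_of_quadratic` : (C-B) `h¹(k(φ)) ≤ 1` (`K` unramified quadratic, `φ|_I ≠ ω|_I`,
  `φ ≠ 1`).
-/
import Mathlib
import Fermat.Agent.S56.Flat.Count.KummerLink
import Fermat.Agent.S56.Flat.Count.Devissage
import Fermat.Agent.S56.Flat.TameCount.Seam

set_option autoImplicit false
set_option linter.unusedSectionVars false

namespace Fermat.Agent.S56.Flat.TameCount.H1Dict

open Fermat.Agent.S56.Flat.Count.KummerLink Fermat.Agent.S56.Flat.Count.Devissage groupCohomology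

universe u

variable {k G : Type u} [Field k] [Group G] (φ : G →* kˣ)

/-- A function `G → k` viewed as a `1`-cochain of `charRep φ` (whose carrier is `k`). -/
def asCochain (c : G → k) : G → charRep φ := c

theorem mem_cocycles₁_charRep_iff (c : G → k) :
    asCochain φ c ∈ cocycles₁ (charRep φ) ↔ c ∈ Z1 φ := by
  rw [mem_cocycles₁_iff, mem_Z1]
  constructor
  · intro h σ τ
    have h1 := h σ τ
    change c (σ * τ) = (φ σ : k) * c τ + c σ at h1
    rw [h1, add_comm]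
  · intro h σ τ
    change c (σ * τ) = (φ σ : k) * c τ + c σ
    rw [h σ τ, add_comm]

theorem mem_coboundaries₁_charRep_iff (c : G → k) :
    asCochain φ c ∈ coboundaries₁.{u, u} (charRep φ) ↔ c ∈ B1 φ := by
  rw [mem_B1]
  constructor
  · rintro ⟨a, ha⟩
    refine ⟨(show k from a), fun σ => ?_⟩
    have h1 := congrFun ha σ
    rw [d₀₁_hom_apply] at h1
    change (φ σ : k) * (show k from a) - (show k from a) = c σ at h1
    rw [← h1]
    ring
  · rintro ⟨a, ha⟩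
    refine ⟨(show charRep φ from a), ?_⟩
    funext σ
    rw [d₀₁_hom_apply]
    change (φ σ : k) * a - a = c σ
    rw [ha σ]
    ring

/-- `Z¹(G, k(φ)) → H¹(G, k(φ))` -/
noncomputable def toH1 : Z1 φ →+ H1 (charRep φ) where
  toFun c := H1π (charRep φ) ⟨asCochain φ c.1, (mem_cocycles₁_charRep_iff φ c.1).2 c.2⟩
  map_zero' := by
    have : (⟨asCochain φ (0 : G → k), (mem_cocycles₁_charRep_iff φ 0).2 (Z1 φ).zero_mem⟩ :
        cocycles₁ (charRep φ)) = 0 := rfl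
    show H1π (charRep φ) ⟨asCochain φ (0 : G → k), _⟩ = 0
    rw [this, map_zero]
  map_add' c c' := by
    have : (⟨asCochain φ (c + c' : Z1 φ).1, (mem_cocycles₁_charRep_iff φ _).2 (c + c').2⟩ :
        cocycles₁ (charRep φ)) =
        ⟨asCochain φ c.1, (mem_cocycles₁_charRep_iff φ c.1).2 c.2⟩ +
          ⟨asCochain φ c'.1, (mem_cocycles₁_charRep_iff φ c'.1).2 c'.2⟩ := rfl
    show H1π (charRep φ) ⟨asCochain φ (c + c' : Z1 φ).1, _⟩ = _
    rw [this, map_add]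

theorem toH1_surjective : Function.Surjective (toH1 φ) := by
  intro x
  induction x using H1_induction_on with
  | h c =>
    exact ⟨⟨c.1, (mem_cocycles₁_charRep_iff φ c.1).1 c.2⟩, rfl⟩

theorem ker_toH1 : (toH1 φ).ker = (B1 φ).addSubgroupOf (Z1 φ) := by
  ext c
  rw [AddMonoidHom.mem_ker, AddSubgroup.mem_addSubgroupOf]
  show H1π (charRep φ) ⟨asCochain φ c.1, _⟩ = 0 ↔ _
  rw [H1π_eq_zero_iff]
  exact mem_coboundaries₁_charRep_iff φ c.1

/-- `Z¹/B¹ ≃+ H¹(G, k(φ))` (Mathlib's `groupCohomology.H1` of `Devissage.charRep φ`). -/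
noncomputable def quotEquiv : (Z1 φ ⧸ (B1 φ).addSubgroupOf (Z1 φ)) ≃+ H1 (charRep φ) :=
  (QuotientAddGroup.quotientAddEquivOfEq (ker_toH1 φ).symm).trans
    (QuotientAddGroup.quotientKerEquivOfSurjective (toH1 φ) (toH1_surjective φ))

theorem card_H1_charRep :
    Nat.card (H1 (charRep φ)) = Nat.card (Z1 φ ⧸ (B1 φ).addSubgroupOf (Z1 φ)) :=
  (Nat.card_congr (quotEquiv φ).toEquiv).symm

/-- **Dictionary**: a cardinality bound on `Z¹/B¹` is a dimension bound on `H¹`. -/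
theorem h1_charRep_le_of_card_le [Finite G] [Finite k] (M : ℕ)
    (h : Nat.card (Z1 φ ⧸ (B1 φ).addSubgroupOf (Z1 φ)) ≤ Nat.card k ^ M) :
    h1 (charRep φ) ≤ M := by
  have h1 : Nat.card (H1 (charRep φ)) = Nat.card k ^ h1 (charRep φ) :=
    Module.natCard_eq_pow_finrank (K := k) (V := H1 (charRep φ))
  rw [← card_H1_charRep, h1] at h
  exact (Nat.pow_le_pow_iff_right Finite.one_lt_card).1 h

section Finals

open IsLocalRing Fermat.Agent.S55.Local
open Fermat.Agent.S56.Flat.TameCount.UnitGraded Fermat.Agent.S56.Flat.TameCount.TopPiece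
open Fermat.Agent.S56.Flat.TameCount.Seam

variable {H : Type u} [Group H] {L : Type*} [Field L] [MulSemiringAction H L]
variable {N : Subgroup H} [hN : N.Normal]
variable {O : Type*} [CommRing O] [IsDomain O] [IsDiscreteValuationRing O] [MulSemiringAction H O]
variable (j : O →+* L) (hjeq : ∀ (h : H) (x : O), j (h • x) = h • j x)
  (hjN : ∀ (n : N) (x : O), (n : H) • j x = j x)
variable [IsAdicComplete (maximalIdeal O) O] [Finite (ResidueField O)] [Finite H]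
variable [Finite N] [FaithfulSMul N L]
variable {p : ℕ} [hp : Fact p.Prime] {ζ : L}
variable {k : Type u} [Field k] [Algebra (ZMod p) k] [Finite k]

include hjeq hjN in
/-- **(C-A)** in `Devissage` vocabulary: `b(k(φ)) = h¹ - h⁰ ≤ [φ|_I = ω|_I]`. -/
theorem b_charRep_le_of_base (hζ : IsPrimitiveRoot ζ p) (hζN : ∀ n : N, (n : H) • ζ = ζ)
    (φ : H →* kˣ) (ω : H →* (ZMod p)ˣ)
    (hω : ∀ γ : H, γ • ζ = ζ ^ ((ω γ : (ZMod p)ˣ) : ZMod p).val)
    (hφN : ∀ n ∈ N, φ n = 1) [N.FiniteIndex] (hind : (N.index : k) ≠ 0)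
    (hj : Function.Injective j)
    (hint : ∀ (u : Oˣ) (z : L), (∀ n : N, (n : H) • z = z) → z ^ p = j (u : O) →
      ∃ y : Oˣ, j (y : O) = z)
    (hpeu : ∀ (x : L) (w : fixedUnits (L := L) N), ((w : Lˣ) : L) = x ^ p →
      ∃ u ∈ unitFil O (p - 1), ∃ z : fixedUnits (L := L) N,
        ((w : Lˣ) : L) = j (u : O) * ((z : Lˣ) : L) ^ p)
    (ζO : O) (hζO : j ζO = ζ)
    (hcomm : ∀ (δ δ' : H) (x : O), δ • δ' • x = δ' • δ • x)
    (hpe : Ideal.span {(p : O)} = maximalIdeal O ^ (p - 1))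
    (hζspan : Ideal.span {ζO - 1} = maximalIdeal O)
    (hfix : ∀ x : ResidueField O, (∀ δ : H, δ • x = x) → x ^ p = x) :
    Fermat.Agent.S56.Flat.Count.Devissage.b (charRep φ) ≤ (open Classical in
      if ∀ i : H, (∀ x : ResidueField O, i • x = x) →
        ((φ i : kˣ) : k) = algebraMap (ZMod p) k ((ω i : (ZMod p)ˣ) : ZMod p) then 1 else 0) := by
  classical
  have hcard := card_Z1_quot_B1_le_of_base j hjeq hjN hζ hζN φ ω hω hφN hind hj hint hpeu ζO hζO
    hcomm hpe hζspan hfix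
  have h1 := h1_charRep_le_of_card_le φ _ hcard
  have h2 := topMult_psi_le (k := k) φ ω
  have h3 : h0 (charRep φ) = if φ = 1 then 1 else 0 := h0_charRep φ
  have h4 : (if ∀ i : H, (∀ x : ResidueField O, i • x = x) → psi φ ω i = 1 then 1 else 0) =
      (if ∀ i : H, (∀ x : ResidueField O, i • x = x) →
        ((φ i : kˣ) : k) = algebraMap (ZMod p) k ((ω i : (ZMod p)ˣ) : ZMod p) then 1 else 0 : ℕ) := by
    refine if_congr ?_ rfl rfl
    exact forall_congr' fun i => imp_congr_right fun _ => psi_eq_one_iff φ ω i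
  rw [b_def]
  rw [h4] at h1
  split_ifs at h1 h2 h3 ⊢ <;> omega

include hjeq hjN in
/-- **(C-B)** in `Devissage` vocabulary: `h¹(k(φ)) ≤ 1`. -/
theorem h1_charRep_le_one_of_quadratic (hp2 : p ≠ 2)
    (hζ : IsPrimitiveRoot ζ p) (hζN : ∀ n : N, (n : H) • ζ = ζ)
    (φ : H →* kˣ) (ω : H →* (ZMod p)ˣ)
    (hω : ∀ γ : H, γ • ζ = ζ ^ ((ω γ : (ZMod p)ˣ) : ZMod p).val)
    (hφN : ∀ n ∈ N, φ n = 1) [N.FiniteIndex] (hind : (N.index : k) ≠ 0)
    (hj : Function.Injective j)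
    (hint : ∀ (u : Oˣ) (z : L), (∀ n : N, (n : H) • z = z) → z ^ p = j (u : O) →
      ∃ y : Oˣ, j (y : O) = z)
    {e₁ : ℕ} (he₁ : 1 ≤ e₁)
    (hpeu : ∀ (x : L) (w : fixedUnits (L := L) N), ((w : Lˣ) : L) = x ^ p →
      ∃ u ∈ unitFil O ((p - 1) * e₁), ∃ z : fixedUnits (L := L) N,
        ((w : Lˣ) : L) = j (u : O) * ((z : Lˣ) : L) ^ p)
    (ζO : O) (hζO : j ζO = ζ)
    (hcomm : ∀ (δ δ' : H) (x : O), δ • δ' • x = δ' • δ • x)
    (hpe : Ideal.span {(p : O)} = maximalIdeal O ^ ((p - 1) * e₁))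
    (hζspan : Ideal.span {ζO - 1} = maximalIdeal O ^ e₁)
    (ϖ : O) (hϖ : Irreducible ϖ)
    (hfix : ∀ x : ResidueField O, (∀ δ : H, δ • x = x) → x ^ p ^ 2 = x)
    (hexact : ∀ n : ℕ, (∀ i : H, (∀ x : ResidueField O, i • x = x) →
      tameCocycle ϖ hϖ i ^ n = 1) ↔ (p - 1) * e₁ ∣ n)
    (hφI : ∃ i : H, (∀ x : ResidueField O, i • x = x) ∧
      ((φ i : kˣ) : k) ≠ algebraMap (ZMod p) k ((ω i : (ZMod p)ˣ) : ZMod p))
    (hφ1 : ∃ γ : H, φ γ ≠ 1) :
    h1 (charRep φ) ≤ 1 := by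
  have hcard := card_Z1_quot_B1_le_of_quadratic j hjeq hjN hp2 hζ hζN φ ω hω hφN hind hj hint he₁
    hpeu ζO hζO hcomm hpe hζspan ϖ hϖ hfix hexact hφI hφ1
  exact h1_charRep_le_of_card_le φ 1 (by rw [pow_one]; exact hcard)

end Finals

end Fermat.Agent.S56.Flat.TameCount.H1Dict
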