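import Mathlib

set_option autoImplicit false
set_option linter.unusedSectionVars false

namespace Fermat.Agent.S56.Flat.TameCount.KerChar

variable {H : Type*} [Group H] {k : Type*} [Field k] {p : ℕ} [Fact p.Prime]
  (φ : H →* kˣ) (ω : H →* (ZMod p)ˣ)

/-- `N = ker φ ⊓ ker ω`. -/
def kerN : Subgroup H := φ.ker ⊓ ω.ker

instance : (kerN φ ω).Normal := by
  unfold kerN
  infer_instance

theorem mem_kerN {n : H} : n ∈ kerN φ ω ↔ φ n = 1 ∧ ω n = 1 := by
  unfold kerN
  rw [Subgroup.mem_inf, MonoidHom.mem_ker, MonoidHom.mem_ker]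

theorem phi_eq_one_of_mem {n : H} (hn : n ∈ kerN φ ω) : φ n = 1 := ((mem_kerN φ ω).1 hn).1

theorem omega_eq_one_of_mem {n : H} (hn : n ∈ kerN φ ω) : ω n = 1 := ((mem_kerN φ ω).1 hn).2

/-- the product character `H → kˣ × 𝔽_pˣ` -/
def prodChar : H →* kˣ × (ZMod p)ˣ := φ.prod ω

theorem ker_prodChar : (prodChar φ ω).ker = kerN φ ω := by
  ext n
  rw [MonoidHom.mem_ker, mem_kerN]
  show (φ n, ω n) = 1 ↔ _
  rw [Prod.ext_iff]
  rfl

theorem commutator_mem_kerN (δ δ' : H) : δ * δ' * δ⁻¹ * δ'⁻¹ ∈ kerN φ ω := by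
  rw [← ker_prodChar, MonoidHom.mem_ker]
  simp only [map_mul, map_inv]
  rw [mul_comm ((prodChar φ ω) δ) ((prodChar φ ω) δ'), mul_inv_cancel_right, mul_inv_cancel]


section Zeta

/-- `hζN` of `Seam`: elements of `kerN` fix `ζ` when `H` acts on `ζ` through `ω`. -/
theorem smul_zeta_of_mem {M : Type*} [Monoid M] [MulAction H M] {ζ : M}
    (hω : ∀ γ : H, γ • ζ = ζ ^ ((ω γ : (ZMod p)ˣ) : ZMod p).val) {n : H}
    (hn : n ∈ kerN φ ω) : n • ζ = ζ := by
  have hp : p.Prime := Fact.out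
  have : Fact (1 < p) := ⟨hp.one_lt⟩
  rw [hω, omega_eq_one_of_mem φ ω hn, Units.val_one, ZMod.val_one, pow_one]

/-- same with a function in place of an action -/
theorem apply_zeta_of_mem {M : Type*} [Monoid M] (act : H → M → M) {ζ : M}
    (hω : ∀ γ : H, act γ ζ = ζ ^ ((ω γ : (ZMod p)ˣ) : ZMod p).val) {n : H}
    (hn : n ∈ kerN φ ω) : act n ζ = ζ := by
  have hp : p.Prime := Fact.out
  have : Fact (1 < p) := ⟨hp.one_lt⟩
  rw [hω, omega_eq_one_of_mem φ ω hn, Units.val_one, ZMod.val_one, pow_one]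

/-- two exponents of a primitive `p`-th root giving the same power agree in `𝔽_p`. -/
theorem natCast_eq_of_pow_eq {M : Type*} [CommMonoid M] {ζ : M} (hζ : IsPrimitiveRoot ζ p)
    {a : ℕ} {u : (ZMod p)ˣ} (h : ζ ^ a = ζ ^ ((u : (ZMod p)ˣ) : ZMod p).val) :
    (a : ZMod p) = (u : ZMod p) := by
  have hp : p.Prime := Fact.out
  obtain ⟨ζu, rfl⟩ := hζ.isUnit hp.ne_zero
  have hζu : IsPrimitiveRoot ζu p := IsPrimitiveRoot.coe_units_iff.1 hζ
  have h' : ζu ^ a = ζu ^ ((u : (ZMod p)ˣ) : ZMod p).val := Units.ext (by simpa using h)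
  rw [pow_eq_pow_iff_modEq, ← hζu.eq_orderOf] at h'
  have := (ZMod.natCast_eq_natCast_iff _ _ _).2 h'
  rw [this, ZMod.natCast_val, ZMod.cast_id', id]

/-- the comparison of an abstract `k`-valued cyclotomic character (given by natural-number
exponents) with the `𝔽_p`-valued one. -/
theorem natCast_eq_algebraMap_of_pow_eq [Algebra (ZMod p) k] {M : Type*} [CommMonoid M] {ζ : M}
    (hζ : IsPrimitiveRoot ζ p) {a : ℕ} {u : (ZMod p)ˣ}
    (h : ζ ^ a = ζ ^ ((u : (ZMod p)ˣ) : ZMod p).val) :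
    (a : k) = algebraMap (ZMod p) k (u : ZMod p) := by
  rw [← natCast_eq_of_pow_eq hζ h, map_natCast]

/-- the `k`-valued lift of an `𝔽_p`-valued character -/
def omegaK (k : Type*) [Field k] [Algebra (ZMod p) k] (ω : H →* (ZMod p)ˣ) : H →* kˣ :=
  (Units.map (algebraMap (ZMod p) k : ZMod p →* k)).comp ω

theorem coe_omegaK [Algebra (ZMod p) k] (γ : H) :
    ((omegaK k ω γ : kˣ) : k) = algebraMap (ZMod p) k ((ω γ : (ZMod p)ˣ) : ZMod p) := rfl

/-- an abstract `k`-valued cyclotomic character described by exponents is the lift of the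
`𝔽_p`-valued one. -/
theorem eq_omegaK_of_exponents [Algebra (ZMod p) k] {M : Type*} [CommMonoid M] {ζ : M}
    (hζ : IsPrimitiveRoot ζ p) (act : H → M → M)
    (hω : ∀ γ : H, act γ ζ = ζ ^ ((ω γ : (ZMod p)ˣ) : ZMod p).val)
    (ω' : H →* kˣ) (hω' : ∀ γ : H, ∃ a : ℕ, ((ω' γ : kˣ) : k) = a ∧ act γ ζ = ζ ^ a) :
    ω' = omegaK k ω := by
  ext γ
  obtain ⟨a, ha, hact⟩ := hω' γ
  rw [coe_omegaK, ha]
  exact natCast_eq_algebraMap_of_pow_eq hζ (hact.symm.trans (hω γ))

end Zeta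

section AutToPow

variable {R S : Type*} [CommRing R] [CommRing S] [IsDomain S] [Algebra R S] {ζ : S}

/-- the `𝔽_p`-valued cyclotomic character of `H` acting through `j : H →* (S ≃ₐ[R] S)` on a
primitive `p`-th root of unity `ζ ∈ S`. -/
noncomputable def omega0 (hζ : IsPrimitiveRoot ζ p) (j : H →* (S ≃ₐ[R] S)) : H →* (ZMod p)ˣ :=
  have hp : p.Prime := Fact.out
  have : NeZero p := ⟨hp.ne_zero⟩
  (hζ.autToPow R).comp j

theorem omega0_spec (hζ : IsPrimitiveRoot ζ p) (j : H →* (S ≃ₐ[R] S)) (γ : H) :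
    j γ ζ = ζ ^ ((omega0 hζ j γ : (ZMod p)ˣ) : ZMod p).val := by
  have hp : p.Prime := Fact.out
  have : NeZero p := ⟨hp.ne_zero⟩
  exact (hζ.autToPow_spec R (j γ)).symm

end AutToPow

section Finite

variable [Finite k]

/-- the tame exponent `m = (|k| - 1)(p - 1)` -/
noncomputable def tameExp (k : Type*) (p : ℕ) : ℕ := (Nat.card k - 1) * (p - 1)

theorem card_units_prod : Nat.card (kˣ × (ZMod p)ˣ) = tameExp k p := by
  have hp : p.Prime := Fact.out
  have := Fintype.ofFinite k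
  rw [Nat.card_prod, Nat.card_units, tameExp]
  congr 1
  rw [Nat.card_eq_fintype_card, ZMod.card_units_eq_totient, Nat.totient_prime hp]

theorem pow_tameExp_mem_kerN (δ : H) : δ ^ tameExp k p ∈ kerN φ ω := by
  rw [← ker_prodChar, MonoidHom.mem_ker, map_pow, ← card_units_prod (k := k) (p := p)]
  exact pow_card_eq_one'

theorem not_dvd_tameExp [CharP k p] : ¬ p ∣ tameExp k p := by
  have hp : p.Prime := Fact.out
  have := Fintype.ofFinite k
  unfold tameExp
  rw [hp.dvd_mul]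
  rintro (h | h)
  · -- `p ∣ |k| - 1` but `p ∣ |k|`
    obtain ⟨n, hn⟩ := FiniteField.card k p
    rw [Nat.card_eq_fintype_card, hn.2] at h
    have h1 : p ∣ p ^ (n : ℕ) := dvd_pow_self p n.pos.ne'
    have h2 : 1 ≤ p ^ (n : ℕ) := Nat.one_le_pow _ _ hp.pos
    have h3 : p ∣ 1 := by
      have := Nat.dvd_sub h1 h
      rwa [Nat.sub_sub_self h2] at this
    exact hp.one_lt.ne' (Nat.dvd_one.1 h3)
  · have : p - 1 < p := Nat.sub_lt hp.pos one_pos
    have h1 : 0 < p - 1 := by have := hp.two_le; omega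
    exact absurd (Nat.le_of_dvd h1 h) (by omega)

theorem index_kerN_dvd : (kerN φ ω).index ∣ tameExp k p := by
  rw [← ker_prodChar, Subgroup.index_ker, ← card_units_prod (k := k) (p := p)]
  exact Subgroup.card_subgroup_dvd_card _

theorem index_kerN_ne_zero [CharP k p] : ((kerN φ ω).index : k) ≠ 0 := by
  intro h
  rw [CharP.cast_eq_zero_iff k p] at h
  exact not_dvd_tameExp (k := k) (p := p) (dvd_trans h (index_kerN_dvd φ ω))

instance finiteIndex_kerN : (kerN φ ω).FiniteIndex := by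
  constructor
  intro h
  have := index_kerN_dvd φ ω
  rw [h, zero_dvd_iff] at this
  have hp : p.Prime := Fact.out
  have := Fintype.ofFinite k
  have h1 : 0 < tameExp k p := by
    unfold tameExp
    have : 1 < Nat.card k := Finite.one_lt_card
    have := hp.two_le
    exact Nat.mul_pos (by omega) (by omega)
  omega

end Finite

end Fermat.Agent.S56.Flat.TameCount.KerChar
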