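/-
S56, block F (FLAT), leaf [FL-C] "tame multiplicities", Phase 1 (Mathlib only), file 2/5:
THE MULTIPLICITY LEMMA (upper bound) for the twisted residue field `κ(θ)`.

`κ`, `k` finite fields of characteristic `p`, `Δ` a finite group acting on `κ` by field
automorphisms, `θ : Δ → κ^×` a `1`-cocycle (`TameCocycle`; e.g. `θ δ = δ ϖ / ϖ mod 𝔪` and its
powers), `Twist θ` = `κ` with the action `δ ⋆ x = θ δ * δ • x` (this is `U^{(j)}/U^{(j+1)}` for the
`j`-th power of the tame cocycle).  For `ψ : Δ →* kˣ` and an embedding `ι : κ →+* k`: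

  `card_eqMaps_twist_le : |Hom_Δ(k(ψ), κ(θ))| ≤ |k| ^ #{s < f₀ | ∀ i ∈ I, ψ(i)^(p^s) = ι (θ i)}`

(`I` = elements acting trivially on `κ`; `f₀` with `κ^Δ ⊆ 𝔽_{p^f₀}`), i.e. "each Frobenius twist of
the inertial character at most once".  Proof: `ι ∘ g` is an additive endomorphism of `k`, hence a
linearised polynomial `∑_{t<d} c_t X^(p^t)` with UNIQUE coefficients (Dedekind + counting); the
relations for `i ∈ I` kill `c_t` unless `ψ|_I ^ (p^t) = ι θ|_I`, and the relation for an element
`δ₁` acting as the `p^f₀`-Frobenius (Artin: `FixedPoints.toAlgAut_surjective`) determines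
`c_{t+f₀}` from `c_t`.
-/
import Mathlib
import Fermat.Agent.S56.Flat.TameCount.MultSet

set_option autoImplicit false

namespace Fermat.Agent.S56.Flat.TameCount.TwistedField

open Fermat.Agent.S56.Flat.TameCount.MultSet

section Linearized

variable {k : Type*} [Field k] (p : ℕ) [Fact p.Prime] [CharP k p]

/-- The additive ("linearised") polynomial map `a ↦ ∑ t, c t * a ^ p ^ t`. -/
noncomputable def lin {d : ℕ} (c : Fin d → k) : k →+ k :=
  AddMonoidHom.mk' (fun a => ∑ t : Fin d, c t * a ^ p ^ (t : ℕ)) (fun a b => by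
    rw [← Finset.sum_add_distrib]
    refine Finset.sum_congr rfl (fun t _ => ?_)
    rw [add_pow_char_pow, mul_add])

@[simp] theorem lin_apply {d : ℕ} (c : Fin d → k) (a : k) :
    lin p c a = ∑ t : Fin d, c t * a ^ p ^ (t : ℕ) := rfl

theorem lin_add {d : ℕ} (c c' : Fin d → k) : lin p (c + c') = lin p c + lin p c' := by
  ext a
  simp only [lin_apply, Pi.add_apply, AddMonoidHom.add_apply, add_mul, Finset.sum_add_distrib]

theorem lin_zero {d : ℕ} : lin p (0 : Fin d → k) = 0 := by
  ext a
  simp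

variable [Finite k]

/-- Dedekind: the coefficients of a linearised polynomial of `p`-degree `< d` are determined by
the map, if `|k| = p ^ d`. -/
theorem lin_injective {d : ℕ} (hd : Nat.card k = p ^ d) :
    Function.Injective (lin p : (Fin d → k) → (k →+ k)) := by
  classical
  have hp : p.Prime := Fact.out
  -- the monoid homs `a ↦ a ^ p ^ t`
  let φ : Fin d → (k →* k) := fun t => powMonoidHom (p ^ (t : ℕ))
  have hφ : Function.Injective φ := by
    -- if `a ^ p ^ t = a ^ p ^ t'` for all `a` with `t < t'`, every `a` is a root of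
    -- `X ^ p ^ (t' - t) - X`
    have key : ∀ t t' : Fin d, (t : ℕ) < t' → φ t ≠ φ t' := by
      intro t t' htt' h
      have h1 : ∀ a : k, a ^ p ^ ((t' : ℕ) - t) = a := by
        intro a
        have h2 : a ^ p ^ (t : ℕ) = a ^ p ^ (t' : ℕ) := congrArg (fun f : k →* k => f a) h
        have h3 : (a ^ p ^ ((t' : ℕ) - t)) ^ p ^ (t : ℕ) = a ^ p ^ (t : ℕ) := by
          rw [← pow_mul, ← pow_add, Nat.sub_add_cancel htt'.le, ← h2]
        exact (iterateFrobenius_inj k p t) h3
      -- so `|k| ≤ p ^ (t' - t) < p ^ d`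
      have : Fintype k := Fintype.ofFinite k
      have hcard : Fintype.card k ≤ p ^ ((t' : ℕ) - t) := by
        have hne : (Polynomial.X ^ p ^ ((t' : ℕ) - t) - Polynomial.X : Polynomial k) ≠ 0 :=
          FiniteField.X_pow_card_pow_sub_X_ne_zero k (by omega) hp.one_lt
        have hroots : ∀ a : k, a ∈ (Polynomial.X ^ p ^ ((t' : ℕ) - t) - Polynomial.X :
            Polynomial k).roots := by
          intro a
          rw [Polynomial.mem_roots hne]
          simp [h1 a]
        calc Fintype.card k = (Finset.univ : Finset k).card := rfl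
          _ ≤ Multiset.card (Polynomial.X ^ p ^ ((t' : ℕ) - t) - Polynomial.X :
              Polynomial k).roots := by
            have : (Finset.univ : Finset k).val ≤ (Polynomial.X ^ p ^ ((t' : ℕ) - t) -
                Polynomial.X : Polynomial k).roots :=
              (Multiset.le_iff_subset (Finset.univ : Finset k).nodup).2 (fun a _ => hroots a)
            exact Multiset.card_le_card this
          _ ≤ (Polynomial.X ^ p ^ ((t' : ℕ) - t) - Polynomial.X : Polynomial k).natDegree :=
            Polynomial.card_roots' _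
          _ = p ^ ((t' : ℕ) - t) :=
            FiniteField.X_pow_card_pow_sub_X_natDegree_eq k (by omega) hp.one_lt
      rw [← Nat.card_eq_fintype_card, hd] at hcard
      have := (Nat.pow_le_pow_iff_right hp.one_lt).1 hcard
      omega
    intro t t' h
    by_contra hne
    rcases lt_or_gt_of_ne (fun h' => hne (Fin.ext h')) with hlt | hlt
    · exact key t t' hlt h
    · exact key t' t hlt h.symm
  have hli : LinearIndependent k (fun t : Fin d => ((φ t : k →* k) : k → k)) :=
    (linearIndependent_monoidHom k k).comp φ hφ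
  intro c c' hcc'
  have hsub : ∑ t : Fin d, (c t - c' t) • ((φ t : k →* k) : k → k) = 0 := by
    funext a
    have := congrArg (fun f : k →+ k => f a) hcc'
    simp only [lin_apply] at this
    simp only [Finset.sum_apply, Pi.smul_apply, smul_eq_mul, Pi.zero_apply, sub_mul,
      Finset.sum_sub_distrib]
    rw [sub_eq_zero]
    exact this
  have := Fintype.linearIndependent_iff.1 hli (fun t => c t - c' t) hsub
  funext t
  exact sub_eq_zero.1 (this t)

/-- Every additive endomorphism of a finite field with `p ^ d` elements is a linearised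
polynomial of `p`-degree `< d`. -/
theorem lin_surjective {d : ℕ} (hd : Nat.card k = p ^ d) :
    Function.Surjective (lin p : (Fin d → k) → (k →+ k)) := by
  have : Finite (k →+ k) := DFunLike.finite _
  have hle : Nat.card (k →+ k) ≤ Nat.card (Fin d → k) := by
    rw [Nat.card_fun, Nat.card_fin]
    exact card_addMonoidHom_le_pow p hd
  exact ((lin_injective p hd).bijective_of_nat_card_le hle).2

omit [Fact p.Prime] [CharP k p] in
theorem pow_p_pow_mod {d : ℕ} (hd : Nat.card k = p ^ d) (a : k) (x : ℕ) :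
    a ^ p ^ (x % d) = a ^ p ^ x := by
  have : Fintype k := Fintype.ofFinite k
  have hcard : Fintype.card k = p ^ d := by rw [← Nat.card_eq_fintype_card, hd]
  conv_rhs => rw [← Nat.div_add_mod x d, pow_add, pow_mul, pow_mul, ← hcard,
    FiniteField.pow_card_pow]

/-- The coefficient relations forced by semilinearity relations on a family of additive maps. -/
theorem eq_zero_of_relations {d : ℕ} (hd : Nat.card k = p ^ d) (f₀ : ℕ) (hf₀ : 0 < f₀)
    {J : Type*} (u v : J → k) (u' v' : k) (hu' : u' ≠ 0) (c : Fin d → k)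
    (hI : ∀ (i : J) (a : k), lin p c (u i * a) = v i * lin p c a)
    (hF : ∀ a : k, lin p c (u' * a) = v' * (lin p c a) ^ p ^ f₀)
    (h0 : ∀ s (hs : s < d), s < f₀ → (∀ i, u i ^ p ^ s = v i) → c ⟨s, hs⟩ = 0) : c = 0 := by
  classical
  have hp : p.Prime := Fact.out
  have hdpos : 0 < d := by
    rcases Nat.eq_zero_or_pos d with h | h
    · subst h
      have : Nat.card k = 1 := by simpa using hd
      have h1 := Finite.one_lt_card (α := k)
      omega
    · exact h
  have : NeZero d := ⟨hdpos.ne'⟩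
  -- (I): `c t * u i ^ p ^ t = v i * c t`
  have relI : ∀ (i : J) (t : Fin d), c t * u i ^ p ^ (t : ℕ) = v i * c t := by
    intro i
    have h1 : lin p (fun t => c t * u i ^ p ^ (t : ℕ)) = lin p (fun t => v i * c t) := by
      ext a
      have := hI i a
      simp only [lin_apply] at this ⊢
      rw [Finset.mul_sum] at this
      rw [← (Finset.sum_congr rfl (fun t _ => by rw [mul_pow]; ring) :
        ∑ t : Fin d, c t * (u i * a) ^ p ^ (t : ℕ) = ∑ t : Fin d, c t * u i ^ p ^ (t : ℕ) *
          a ^ p ^ (t : ℕ)), this]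
      exact Finset.sum_congr rfl (fun t _ => by ring)
    exact fun t => congrFun (lin_injective p hd h1) t
  -- (F): `c w * u' ^ p ^ w = v' * c (w - f₀) ^ p ^ f₀`
  have relF : ∀ w : Fin d, c w * u' ^ p ^ (w : ℕ) =
      v' * c (w - Fin.ofNat d f₀) ^ p ^ f₀ := by
    have h1 : lin p (fun w => c w * u' ^ p ^ (w : ℕ)) =
        lin p (fun w => v' * c (w - Fin.ofNat d f₀) ^ p ^ f₀) := by
      ext a
      have := hF a
      simp only [lin_apply] at this ⊢
      rw [← (Finset.sum_congr rfl (fun t _ => by rw [mul_pow]; ring) :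
        ∑ t : Fin d, c t * (u' * a) ^ p ^ (t : ℕ) = ∑ t : Fin d, c t * u' ^ p ^ (t : ℕ) *
          a ^ p ^ (t : ℕ)), this, sum_pow_char_pow, Finset.mul_sum]
      rw [← Equiv.sum_comp (Equiv.addRight (Fin.ofNat d f₀))
        (fun w : Fin d => v' * c (w - Fin.ofNat d f₀) ^ p ^ f₀ * a ^ p ^ (w : ℕ))]
      refine Finset.sum_congr rfl (fun t _ => ?_)
      simp only [Equiv.coe_addRight, add_sub_cancel_right]
      have hval : ((t + Fin.ofNat d f₀ : Fin d) : ℕ) = ((t : ℕ) + f₀) % d := by
        rw [Fin.val_add]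
        simp [Fin.ofNat]
      rw [hval, pow_p_pow_mod p hd, mul_pow, ← pow_mul, ← pow_add]
      ring
    exact fun w => congrFun (lin_injective p hd h1) w
  -- strong induction
  have key : ∀ n (hn : n < d), c ⟨n, hn⟩ = 0 := by
    intro n
    induction n using Nat.strong_induction_on with
    | _ n ih =>
      intro hn
      by_cases hnf : n < f₀
      · by_cases hS : ∀ i, u i ^ p ^ n = v i
        · exact h0 n hn hnf hS
        · push Not at hS
          obtain ⟨i, hi⟩ := hS
          have := relI i ⟨n, hn⟩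
          have h2 : c ⟨n, hn⟩ * (u i ^ p ^ n - v i) = 0 := by
            rw [mul_sub, this]; ring
          rcases mul_eq_zero.1 h2 with h3 | h3
          · exact h3
          · exact absurd (sub_eq_zero.1 h3) hi
      · push Not at hnf
        have hlt : n - f₀ < d := by omega
        have hsub : (⟨n, hn⟩ - Fin.ofNat d f₀ : Fin d) = ⟨n - f₀, hlt⟩ := by
          apply Fin.ext
          rw [Fin.sub_def]
          simp only [Fin.ofNat]
          have h1 : f₀ % d = f₀ := Nat.mod_eq_of_lt (by omega)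
          rw [h1]
          have h2 : d - f₀ + n = (n - f₀) + d := by omega
          rw [h2, Nat.add_mod_right, Nat.mod_eq_of_lt hlt]
        have h4 := relF ⟨n, hn⟩
        rw [hsub, ih (n - f₀) (by omega) hlt] at h4
        have hf0 : p ^ f₀ ≠ 0 := pow_ne_zero _ hp.ne_zero
        rw [zero_pow hf0, mul_zero] at h4
        rcases mul_eq_zero.1 h4 with h5 | h5
        · exact h5
        · exact absurd (pow_eq_zero_iff (pow_ne_zero _ hp.ne_zero) |>.1 h5) hu'
  funext t
  exact key t.1 t.2

/-- **Counting lemma**: a subgroup `𝒢` of additive endomorphisms of `k` all of whose members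
satisfy the linear relations `G (u i * a) = v i * G a` and one `p ^ f₀`-semilinear relation
`G (u' * a) = v' * (G a) ^ p ^ f₀` has at most `|k| ^ #{s < f₀ | ∀ i, u i ^ p ^ s = v i}`
elements. -/
theorem card_le_of_relations {d : ℕ} (hd : Nat.card k = p ^ d) (f₀ : ℕ) (hf₀ : 0 < f₀)
    {J : Type*} (u v : J → k) (u' v' : k) (hu' : u' ≠ 0) (𝒢 : AddSubgroup (k →+ k))
    (hI : ∀ G ∈ 𝒢, ∀ (i : J) (a : k), G (u i * a) = v i * G a)
    (hF : ∀ G ∈ 𝒢, ∀ a : k, G (u' * a) = v' * (G a) ^ p ^ f₀) :
    Nat.card 𝒢 ≤ Nat.card k ^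
      (open Classical in
        ((Finset.range f₀).filter (fun s => ∀ i, u i ^ p ^ s = v i)).card) := by
  classical
  set S := (Finset.range f₀).filter (fun s => ∀ i, u i ^ p ^ s = v i) with hS
  have : Finite (k →+ k) := DFunLike.finite _
  -- coefficients
  let e : (Fin d → k) ≃ (k →+ k) :=
    Equiv.ofBijective (lin p) ⟨lin_injective p hd, lin_surjective p hd⟩
  have he : ∀ G, lin p (e.symm G) = G := fun G => e.apply_symm_apply G
  have hsub : ∀ G G', e.symm (G - G') = e.symm G - e.symm G' := by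
    intro G G'
    apply e.injective
    show lin p (e.symm (G - G')) = lin p (e.symm G - e.symm G')
    have h1 : lin p (e.symm G - e.symm G') + lin p (e.symm G') = lin p (e.symm G) := by
      rw [← lin_add, sub_add_cancel]
    rw [he, eq_sub_of_add_eq h1, he, he]
  let Ψ : 𝒢 → (S → k) := fun G s =>
    if h : (s : ℕ) < d then e.symm G.1 ⟨s, h⟩ else 0
  have hΨ : Function.Injective Ψ := by
    intro G G' hGG'
    have hmem : G.1 - G'.1 ∈ 𝒢 := 𝒢.sub_mem G.2 G'.2
    have hc : e.symm (G.1 - G'.1) = 0 := by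
      apply eq_zero_of_relations p hd f₀ hf₀ u v u' v' hu'
      · intro i a
        rw [he]
        exact hI _ hmem i a
      · intro a
        rw [he]
        exact hF _ hmem a
      · intro s hs hsf hsS
        have hsmem : s ∈ S := by
          rw [hS, Finset.mem_filter, Finset.mem_range]
          exact ⟨hsf, hsS⟩
        have h1 := congrFun hGG' ⟨s, hsmem⟩
        simp only [Ψ, hs, dif_pos] at h1
        rw [hsub]
        show e.symm G.1 ⟨s, hs⟩ - e.symm G'.1 ⟨s, hs⟩ = 0
        rw [h1, sub_self]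
    apply Subtype.ext
    have h2 : G.1 - G'.1 = 0 := by
      rw [← he (G.1 - G'.1), hc, lin_zero]
    exact sub_eq_zero.1 h2
  calc Nat.card 𝒢 ≤ Nat.card (S → k) := Nat.card_le_card_of_injective Ψ hΨ
    _ = Nat.card k ^ S.card := by
      rw [Nat.card_fun, Nat.card_eq_fintype_card (α := S), Fintype.card_coe]

end Linearized

section Twist

variable {Δ : Type*} [Group Δ] {κ : Type*} [Field κ] [MulSemiringAction Δ κ]

/-- A `1`-cocycle of `Δ` with values in `κ^×` (e.g. `θ δ = δ ϖ / ϖ mod 𝔪`, and its powers). -/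
structure TameCocycle (Δ κ : Type*) [Group Δ] [Field κ] [MulSemiringAction Δ κ] where
  toFun : Δ → κ
  ne_zero' : ∀ δ, toFun δ ≠ 0
  map_mul' : ∀ δ δ', toFun (δ * δ') = toFun δ * δ • toFun δ'

instance : CoeFun (TameCocycle Δ κ) (fun _ => Δ → κ) := ⟨TameCocycle.toFun⟩

namespace TameCocycle

variable (θ : TameCocycle Δ κ)

theorem ne_zero (δ : Δ) : θ δ ≠ 0 := θ.ne_zero' δ

theorem map_mul (δ δ' : Δ) : θ (δ * δ') = θ δ * δ • θ δ' := θ.map_mul' δ δ'

theorem map_one : θ 1 = 1 := by
  have h := θ.map_mul 1 1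
  rw [one_smul, mul_one] at h
  have h2 : θ 1 * (θ 1 - 1) = 0 := by rw [mul_sub, ← h, mul_one, sub_self]
  rcases mul_eq_zero.1 h2 with h3 | h3
  · exact absurd h3 (θ.ne_zero 1)
  · exact sub_eq_zero.1 h3

/-- The `j`-th power of a cocycle. -/
def pow (j : ℕ) : TameCocycle Δ κ where
  toFun δ := θ δ ^ j
  ne_zero' δ := pow_ne_zero j (θ.ne_zero δ)
  map_mul' δ δ' := by rw [θ.map_mul, mul_pow, smul_pow']

@[simp] theorem pow_apply (j : ℕ) (δ : Δ) : θ.pow j δ = θ δ ^ j := rfl

end TameCocycle

/-- The field `κ` with the twisted `Δ`-action `δ ⋆ x = θ δ * δ • x`. -/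
def Twist (_θ : TameCocycle Δ κ) : Type _ := κ

namespace Twist

variable (θ : TameCocycle Δ κ)

instance : AddCommGroup (Twist θ) := inferInstanceAs (AddCommGroup κ)

/-- The identity map `κ → Twist θ`. -/
def of : κ ≃+ Twist θ := AddEquiv.refl κ

instance [Finite κ] : Finite (Twist θ) := inferInstanceAs (Finite κ)

instance : DistribMulAction Δ (Twist θ) where
  smul δ x := of θ (θ δ * δ • (of θ).symm x)
  one_smul x := by
    show of θ (θ 1 * (1 : Δ) • (of θ).symm x) = x
    rw [θ.map_one, one_smul, one_mul]; rfl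
  mul_smul δ δ' x := by
    show of θ (θ (δ * δ') * (δ * δ') • (of θ).symm x) =
      of θ (θ δ * δ • (of θ).symm (of θ (θ δ' * δ' • (of θ).symm x)))
    rw [θ.map_mul, AddEquiv.symm_apply_apply, smul_mul', mul_smul, mul_assoc]
  smul_zero δ := by
    show of θ (θ δ * δ • (of θ).symm 0) = 0
    rw [map_zero, smul_zero, mul_zero, map_zero]
  smul_add δ x y := by
    show of θ (θ δ * δ • (of θ).symm (x + y)) =
      of θ (θ δ * δ • (of θ).symm x) + of θ (θ δ * δ • (of θ).symm y)
    rw [map_add, smul_add, mul_add, map_add]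

theorem smul_def (δ : Δ) (x : Twist θ) : δ • x = of θ (θ δ * δ • (of θ).symm x) := rfl

@[simp] theorem symm_smul (δ : Δ) (x : Twist θ) :
    (of θ).symm (δ • x) = θ δ * δ • (of θ).symm x := rfl

end Twist

end Twist

section Main

variable {Δ : Type*} [Group Δ] [Finite Δ] {κ : Type*} [Field κ] [Finite κ] [MulSemiringAction Δ κ]
variable {k : Type*} [Field k] [Finite k] (p : ℕ) [Fact p.Prime] [CharP κ p] [CharP k p]

/-- If the fixed field of `Δ` is contained in `𝔽_{p^f₀}`, some `δ₁ ∈ Δ` acts as the `p^f₀`-power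
Frobenius (Artin). -/
theorem exists_smul_eq_pow (f₀ : ℕ)
    (hfix : ∀ x : κ, (∀ δ : Δ, δ • x = x) → x ^ p ^ f₀ = x) :
    ∃ δ₁ : Δ, ∀ x : κ, δ₁ • x = x ^ p ^ f₀ := by
  let σ : κ ≃+* κ := iterateFrobeniusEquiv κ p f₀
  have hσ : ∀ x : κ, σ x = x ^ p ^ f₀ := fun x => by
    show iterateFrobeniusEquiv κ p f₀ x = _
    rw [coe_iterateFrobeniusEquiv, iterateFrobenius_def]
  let τ : κ ≃ₐ[FixedPoints.subfield Δ κ] κ :=
    AlgEquiv.ofRingEquiv (f := σ) (fun x => by
      show σ (x : κ) = (x : κ)
      rw [hσ]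
      exact hfix _ (fun δ => x.2 δ))
  obtain ⟨δ₁, hδ₁⟩ := FixedPoints.toAlgAut_surjective Δ κ τ
  refine ⟨δ₁, fun x => ?_⟩
  have := congrArg (fun f : κ ≃ₐ[FixedPoints.subfield Δ κ] κ => f x) hδ₁
  rw [← hσ]
  exact this

/-- **The multiplicity lemma (upper bound, `κ ⊆ k`).** For the twisted module `κ(θ)`:
`|Hom_Δ(k(ψ), κ(θ))| ≤ |k| ^ #{s < f₀ | ∀ i ∈ I, ψ(i) ^ p ^ s = ι (θ i)}` where `I` is the
subgroup acting trivially on `κ` and the fixed field of `Δ` on `κ` is contained in `𝔽_{p^f₀}`. -/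
theorem card_eqMaps_twist_le (ι : κ →+* k) (θ : TameCocycle Δ κ) (ψ : Δ →* kˣ) (f₀ : ℕ)
    (hf₀ : 0 < f₀) (hfix : ∀ x : κ, (∀ δ : Δ, δ • x = x) → x ^ p ^ f₀ = x) :
    Nat.card (EqMaps ψ (Twist θ)) ≤ Nat.card k ^
      (open Classical in ((Finset.range f₀).filter (fun s =>
        ∀ i : {i : Δ // ∀ x : κ, i • x = x}, (ψ i.1 : k) ^ p ^ s = ι (θ i.1))).card) := by
  classical
  obtain ⟨d, hd⟩ : ∃ d, Nat.card k = p ^ d := by
    let _ : Algebra (ZMod p) k := ZMod.algebra k p
    have : Module.Finite (ZMod p) k := Module.Finite.of_finite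
    exact ⟨Module.finrank (ZMod p) k, by
      rw [Module.natCard_eq_pow_finrank (K := ZMod p) (V := k), Nat.card_zmod]⟩
  obtain ⟨δ₁, hδ₁⟩ := exists_smul_eq_pow (Δ := Δ) (κ := κ) p f₀ hfix
  -- `g ↦ ι ∘ g`
  let c : (k →+ Twist θ) →+ (k →+ k) :=
    AddMonoidHom.compHom ((ι : κ →+ k).comp ((Twist.of θ).symm : Twist θ →+ κ))
  have hc : ∀ (g : k →+ Twist θ) (a : k), c g a = ι ((Twist.of θ).symm (g a)) := fun _ _ => rfl
  have hcinj : Function.Injective c := by
    intro g g' h
    ext a
    have h1 := congrArg (fun f : k →+ k => f a) h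
    simp only [hc] at h1
    exact (Twist.of θ).symm.injective (ι.injective h1)
  let 𝒢 : AddSubgroup (k →+ k) := (EqMaps ψ (Twist θ)).map c
  have hcard : Nat.card (EqMaps ψ (Twist θ)) = Nat.card 𝒢 :=
    Nat.card_congr ((EqMaps ψ (Twist θ)).equivMapOfInjective c hcinj).toEquiv
  rw [hcard]
  refine card_le_of_relations p hd f₀ hf₀
    (fun i : {i : Δ // ∀ x : κ, i • x = x} => (ψ i.1 : k)) (fun i => ι (θ i.1))
    (ψ δ₁ : k) (ι (θ δ₁)) (Units.ne_zero _) 𝒢 ?_ ?_
  · rintro G ⟨g, hg, rfl⟩ i a
    rw [hc, hc, hg i.1 a, Twist.symm_smul, i.2, map_mul]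
  · rintro G ⟨g, hg, rfl⟩ a
    rw [hc, hc, hg δ₁ a, Twist.symm_smul, hδ₁, map_mul, map_pow]

end Main

end Fermat.Agent.S56.Flat.TameCount.TwistedField
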